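import Fermat.Agent.ModularityLifting.Levels
import Mathlib.RingTheory.Noetherian.Basic

/-!
# Hecke operators on symbols with a character, finiteness, and change of coefficients

`tEnd` is `T_ℓ` on the symbols of character `δ`; these operators commute (`commute_tEnd`), the
symbols form a finite module (`finite_symbChar`), and `mapVal` changes the coefficients, commuting
with the Hecke operators.
-/

set_option autoImplicit false

noncomputable section

namespace FLTAgent.ModularityLifting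

open FLTAgent.LevelRaising CongruenceSubgroup Matrix
open scoped MatrixGroups

variable {R : Type} [CommRing R] {L : ℕ} {δ : DirichletCharacter R L}

theorem dirichlet_mul_of_det {γ : SL(2, ℤ)} (hγ : γ ∈ Gamma0 L) :
    δ ((γ 0 0 : ℤ) : ZMod L) * δ ((γ 1 1 : ℤ) : ZMod L) = 1 := by
  have hc : ((γ 1 0 : ℤ) : ZMod L) = 0 := Gamma0_mem.mp hγ
  have hdet := γ.det_coe
  rw [Matrix.det_fin_two] at hdet
  have h : ((γ 0 0 : ℤ) : ZMod L) * ((γ 1 1 : ℤ) : ZMod L) = 1 := by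
    have := congrArg (Int.cast : ℤ → ZMod L) hdet
    push_cast at this
    rw [hc, mul_zero, sub_zero] at this
    exact this
  rw [← map_mul, h, map_one]

/-- The pullback along a matrix, weighted by the character at its upper left entry. -/
def wpull (δ : DirichletCharacter R L) (A : M2) : (Cusp → Cusp → R) →ₗ[R] (Cusp → Cusp → R) :=
  δ ((A 0 0 : ℤ) : ZMod L) • pull R (ofMat A)

theorem wpull_apply (A : M2) (Φ : Cusp → Cusp → R) :
    wpull δ A Φ = δ ((A 0 0 : ℤ) : ZMod L) • pull R (ofMat A) Φ := rfl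

theorem pull_glQ_char {Φ : Cusp → Cusp → R} (hΦ : Φ ∈ SymbChar R δ) {γ : SL(2, ℤ)}
    (hγ : γ ∈ Gamma0 L) : pull R (glQ γ) Φ = δ ((γ 1 1 : ℤ) : ZMod L) • Φ :=
  funext fun x => funext fun y => hΦ.2 γ hγ x y

theorem wpull_sl_mul {Φ : Cusp → Cusp → R} (hΦ : Φ ∈ SymbChar R δ) {γ : SL(2, ℤ)}
    (hγ : γ ∈ Gamma0 L) {A : M2} (hA : A.det ≠ 0) (hc : (L : ℤ) ∣ A 1 0) :
    wpull δ ((γ : M2) * A) Φ = wpull δ A Φ := by
  have hc' : ((A 1 0 : ℤ) : ZMod L) = 0 := (ZMod.intCast_zmod_eq_zero_iff_dvd _ _).mpr hc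
  have h00 : ((((γ : M2) * A) 0 0 : ℤ) : ZMod L)
      = ((γ 0 0 : ℤ) : ZMod L) * ((A 0 0 : ℤ) : ZMod L) := by
    rw [Matrix.mul_apply, Fin.sum_univ_two]
    push_cast
    rw [hc', mul_zero, add_zero]
  rw [wpull_apply, wpull_apply, h00, map_mul, pull_ofMat_mul (sl_det_ne_zero γ) hA, ofMat_coe,
    pull_glQ_char hΦ hγ, map_smul, smul_smul]
  congr 1
  linear_combination δ ((A 0 0 : ℤ) : ZMod L) * dirichlet_mul_of_det (δ := δ) hγ

/-- Two families meeting the same cosets, injectively, give the same weighted operator. -/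
theorem sum_wpull_eq {Φ : Cusp → Cusp → R} (hΦ : Φ ∈ SymbChar R δ) {ι κ : Type*} [Fintype ι]
    [Fintype κ] (hcard : Fintype.card ι = Fintype.card κ) (A : ι → M2) (B : κ → M2)
    (hB : ∀ k, (B k).det ≠ 0) (hBc : ∀ k, (L : ℤ) ∣ B k 1 0)
    (h : ∀ i, ∃ k, ∃ γ ∈ Gamma0 L, A i = (γ : M2) * B k)
    (hinj : ∀ i i', ∀ γ ∈ Gamma0 L, A i = ((γ : SL(2, ℤ)) : M2) * A i' → i = i') :
    ∑ i, wpull δ (A i) Φ = ∑ k, wpull δ (B k) Φ := by
  choose e γ hγ he using h
  have hei : Function.Injective e := fun i i' hii => by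
    refine hinj i i' (γ i * (γ i')⁻¹) (mul_mem (hγ i) (inv_mem (hγ i'))) ?_
    rw [he i', ← mul_assoc, ← Matrix.SpecialLinearGroup.coe_mul, inv_mul_cancel_right, ← hii]
    exact he i
  refine Fintype.sum_bijective e ⟨hei, ?_⟩ _ _ fun i => ?_
  · exact ((Fintype.bijective_iff_injective_and_card e).mpr ⟨hei, hcard⟩).2
  · rw [he i, wpull_sl_mul hΦ (hγ i) (hB (e i)) (hBc (e i))]

/-- Pulling a weighted pullback back along `Γ₀(L)`. -/
theorem pull_glQ_wpull {γ : SL(2, ℤ)} (hγ : γ ∈ Gamma0 L) {A : M2} (hA : A.det ≠ 0)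
    (Φ : Cusp → Cusp → R) :
    pull R (glQ γ) (wpull δ A Φ) = δ ((γ 1 1 : ℤ) : ZMod L) • wpull δ (A * (γ : M2)) Φ := by
  have hc : ((γ 1 0 : ℤ) : ZMod L) = 0 := Gamma0_mem.mp hγ
  have h00 : (((A * (γ : M2)) 0 0 : ℤ) : ZMod L)
      = ((A 0 0 : ℤ) : ZMod L) * ((γ 0 0 : ℤ) : ZMod L) := by
    rw [Matrix.mul_apply, Fin.sum_univ_two]
    push_cast
    rw [hc, mul_zero, add_zero]
  rw [wpull_apply, wpull_apply, map_smul, ← ofMat_coe,
    ← pull_ofMat_mul hA (sl_det_ne_zero γ), smul_smul, h00, map_mul]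
  congr 1
  linear_combination -(δ ((A 0 0 : ℤ) : ZMod L)) * dirichlet_mul_of_det (δ := δ) hγ

/-- Two weighted pullbacks along matrices of the families `heckeFam` compose. -/
theorem wpull_heckeFam_comp {a b : ℕ} (ha : a ≠ 0) (hb : b ≠ 0) (i : Option (Fin a))
    (k : Option (Fin b)) (Φ : Cusp → Cusp → R) :
    wpull δ (heckeFam a i) (wpull δ (heckeFam b k) Φ) =
      wpull δ (heckeFam b k * heckeFam a i) Φ := by
  have h00 : ((heckeFam b k * heckeFam a i) 0 0 : ℤ) = heckeFam b k 0 0 * heckeFam a i 0 0 := by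
    rw [Matrix.mul_apply, Fin.sum_univ_two, heckeFam_lower, mul_zero, add_zero]
  rw [wpull_apply, wpull_apply, wpull_apply, map_smul, smul_smul,
    ← pull_ofMat_mul (heckeFam_det_ne_zero hb k) (heckeFam_det_ne_zero ha i), h00, Int.cast_mul,
    map_mul, mul_comm]

theorem tOpChar_eq_sum (ℓ : ℕ) (Φ : Cusp → Cusp → R) :
    tOpChar R δ ℓ Φ = ∑ i, wpull δ (heckeFam ℓ i) Φ := by
  rw [tOpChar, LinearMap.add_apply, LinearMap.smul_apply, LinearMap.sum_apply,
    Fintype.sum_option]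
  congr 1
  · simp [wpull_apply]
  · refine Finset.sum_congr rfl fun j _ => ?_
    simp [wpull_apply]

theorem mem_symbChar_of_pull {Φ : Cusp → Cusp → R} (hadd : ∀ x y z, Φ x y + Φ y z = Φ x z)
    (hinv : ∀ γ ∈ Gamma0 L, pull R (glQ γ) Φ = δ ((γ 1 1 : ℤ) : ZMod L) • Φ) :
    Φ ∈ SymbChar R δ :=
  ⟨hadd, fun γ hγ x y => congrFun (congrFun (hinv γ hγ) x) y⟩

theorem tOpChar_mem {ℓ : ℕ} (hℓ : ℓ.Prime) (hL : ¬ ℓ ∣ L) {Φ : Cusp → Cusp → R}
    (hΦ : Φ ∈ SymbChar R δ) : tOpChar R δ ℓ Φ ∈ SymbChar R δ := by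
  refine mem_symbChar_of_pull (fun x y z => ?_) fun γ hγ => ?_
  · simp only [tOpChar_eq_sum, wpull_apply, Finset.sum_apply, Pi.smul_apply, pull_apply,
      smul_eq_mul, ← Finset.sum_add_distrib, ← mul_add, hΦ.1]
  · rw [tOpChar_eq_sum, map_sum, Finset.sum_congr rfl fun i _ =>
      pull_glQ_wpull hγ (heckeFam_det_ne_zero hℓ.ne_zero i) Φ, ← Finset.smul_sum]
    congr 1
    refine sum_wpull_eq hΦ rfl _ _ (heckeFam_det_ne_zero hℓ.ne_zero)
      (fun i => by rw [heckeFam_lower]; exact dvd_zero _) (fun i => ?_) fun i i' γ' _ he => ?_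
    · refine exists_gamma_mul_heckeFam hℓ hL ?_ ?_
      · rw [Matrix.det_mul, heckeFam_det, γ.det_coe, mul_one]
      · rw [Matrix.mul_apply, Fin.sum_univ_two, heckeFam_lower, zero_mul, zero_add]
        exact dvd_mul_of_dvd_right (mem_Gamma0_iff_dvd.mp hγ) _
    · rw [← mul_assoc] at he
      refine heckeFam_right_unique hℓ (δ₁ := 1) (δ₂ := (γ' : M2)) ?_ (not_dvd_det_SL hℓ γ') ?_
      · rw [Matrix.det_one]; exact not_prime_dvd_one hℓ
      · rw [one_mul]; exact mul_sl_inj he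

theorem tOpChar_comm {ℓ m : ℕ} (hℓ : ℓ.Prime) (hm : m.Prime) (hℓL : ¬ ℓ ∣ L) (hmL : ¬ m ∣ L)
    {Φ : Cusp → Cusp → R} (hΦ : Φ ∈ SymbChar R δ) :
    tOpChar R δ ℓ (tOpChar R δ m Φ) = tOpChar R δ m (tOpChar R δ ℓ Φ) := by
  rcases eq_or_ne ℓ m with rfl | hne
  · rfl
  simp only [tOpChar_eq_sum, map_sum, wpull_heckeFam_comp hℓ.ne_zero hm.ne_zero,
    wpull_heckeFam_comp hm.ne_zero hℓ.ne_zero]
  rw [← Fintype.sum_prod_type', ← Fintype.sum_prod_type']
  refine sum_wpull_eq hΦ (by simp [mul_comm]) _ _ ?_ ?_ ?_ ?_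
  · intro k
    rw [Matrix.det_mul, heckeFam_det, heckeFam_det]
    exact mul_ne_zero (by exact_mod_cast hℓ.ne_zero) (by exact_mod_cast hm.ne_zero)
  · intro k
    rw [Matrix.mul_apply, Fin.sum_univ_two, heckeFam_lower, heckeFam_lower, zero_mul, mul_zero,
      add_zero]
    exact dvd_zero _
  · rintro ⟨k, i⟩
    obtain ⟨i', δ', hc', he⟩ := exists_eq_mul_heckeFam hm hmL (heckeFam m k * heckeFam ℓ i)
      (by rw [Matrix.det_mul, heckeFam_det, heckeFam_det]; exact dvd_mul_right _ _)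
      (by simp [Matrix.mul_apply, Fin.sum_univ_two, heckeFam_lower])
    have hd : δ'.det = ℓ := by
      have h := congrArg Matrix.det he
      simp only [Matrix.det_mul, heckeFam_det] at h
      exact mul_right_cancel₀ (b := (m : ℤ)) (by exact_mod_cast hm.ne_zero)
        (by rw [← h, mul_comm])
    obtain ⟨k', γ, hγ, rfl⟩ := exists_gamma_mul_heckeFam hℓ hℓL hd hc'
    exact ⟨(k', i'), γ, hγ, by rw [he, mul_assoc]⟩
  · rintro ⟨k, i⟩ ⟨k', i'⟩ γ _ he
    simp only [← mul_assoc] at he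
    have hcop : ¬ (ℓ : ℤ) ∣ (m : ℤ) := fun h =>
      hne ((Nat.prime_dvd_prime_iff_eq hℓ hm).mp (by exact_mod_cast h))
    obtain rfl : i = i' := heckeFam_right_unique hℓ (by rw [heckeFam_det]; exact hcop)
      (by rw [Matrix.det_mul, γ.det_coe, one_mul, heckeFam_det]; exact hcop) he
    have := right_cancel_of_det_ne_zero (heckeFam_det_ne_zero hℓ.ne_zero i) he
    obtain rfl : k = k' := heckeFam_right_unique hm (δ₁ := 1)
      (by rw [Matrix.det_one]; exact not_prime_dvd_one hm) (not_dvd_det_SL hm γ)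
      (by rw [one_mul]; exact this)
    rfl

/-- `T_ℓ` as an endomorphism of the symbols of character `δ`. -/
def tEnd (δ : DirichletCharacter R L) {ℓ : ℕ} (hℓ : ℓ.Prime) (hL : ¬ ℓ ∣ L) :
    Module.End R (SymbChar R δ) :=
  (tOpChar R δ ℓ).restrict fun _ hΦ => tOpChar_mem hℓ hL hΦ

@[simp] theorem coe_tEnd {ℓ : ℕ} (hℓ : ℓ.Prime) (hL : ¬ ℓ ∣ L) (Φ : SymbChar R δ) :
    ((tEnd δ hℓ hL Φ : SymbChar R δ) : Cusp → Cusp → R) = tOpChar R δ ℓ Φ := rfl

theorem commute_tEnd {ℓ m : ℕ} (hℓ : ℓ.Prime) (hℓL : ¬ ℓ ∣ L) (hm : m.Prime) (hmL : ¬ m ∣ L) :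
    Commute (tEnd δ hℓ hℓL) (tEnd δ hm hmL) :=
  LinearMap.ext fun Φ => Subtype.ext (tOpChar_comm hℓ hm hℓL hmL Φ.2)

/-- Additive functions on pairs of cusps are determined by their values on edges. -/
theorem eq_zero_of_edges {Φ : Cusp → Cusp → R} (hadd : ∀ x y z, Φ x y + Φ y z = Φ x z)
    (h : ∀ g : SL(2, ℤ), Φ (glQ g • ((0 : ℚ) : Cusp)) (glQ g • OnePoint.infty) = 0) : Φ = 0 := by
  refine Symb.eq_zero_of_edge (Γ := (⊥ : Subgroup SL(2, ℤ))) ⟨hadd, fun γ hγ x y => ?_⟩ h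
  rw [Subgroup.mem_bot.mp hγ, map_one, one_smul, one_smul]

/-- The values on edges indexed by the cosets of `Γ₀(L)`. -/
def coords (R : Type) [CommRing R] (L : ℕ) :
    (Cusp → Cusp → R) →ₗ[R] ((SL(2, ℤ) ⧸ Gamma0 L) → R) where
  toFun Φ c := Φ (glQ c.out⁻¹ • ((0 : ℚ) : Cusp)) (glQ c.out⁻¹ • OnePoint.infty)
  map_add' _ _ := rfl
  map_smul' _ _ := rfl

theorem exists_edge_eq {Φ : Cusp → Cusp → R} (hΦ : Φ ∈ SymbChar R δ) (g : SL(2, ℤ)) :
    ∃ (r : R) (c : SL(2, ℤ) ⧸ Gamma0 L),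
      Φ (glQ g • ((0 : ℚ) : Cusp)) (glQ g • OnePoint.infty) = r * coords R L Φ c := by
  obtain ⟨⟨h, hh⟩, heq⟩ := QuotientGroup.mk_out_eq_mul (Gamma0 L) g⁻¹
  simp only at heq
  refine ⟨δ ((h 1 1 : ℤ) : ZMod L), (g⁻¹ : SL(2, ℤ)), ?_⟩
  have hg : g = h * ((g⁻¹ : SL(2, ℤ)) : SL(2, ℤ) ⧸ Gamma0 L).out⁻¹ := by
    rw [heq, _root_.mul_inv_rev, inv_inv, mul_inv_cancel_left]
  conv_lhs => rw [hg, glQ_mul_smul, glQ_mul_smul]
  exact hΦ.2 h hh _ _

theorem eq_zero_of_coords {Φ : Cusp → Cusp → R} (hΦ : Φ ∈ SymbChar R δ)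
    (h : coords R L Φ = 0) : Φ = 0 :=
  eq_zero_of_edges hΦ.1 fun g => by
    obtain ⟨r, c, hc⟩ := exists_edge_eq hΦ g
    rw [hc, h, Pi.zero_apply, mul_zero]

instance finite_cosets_Gamma0 [NeZero L] : Finite (SL(2, ℤ) ⧸ Gamma0 L) :=
  Subgroup.finite_quotient_of_finiteIndex

/-- Symbols with character form a finite module. -/
theorem finite_symbChar [NeZero L] [IsNoetherianRing R] (δ : DirichletCharacter R L) :
    Module.Finite R (SymbChar R δ) :=
  Module.Finite.of_injective ((coords R L).comp (SymbChar R δ).subtype)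
    ((injective_iff_map_eq_zero _).mpr fun Φ h => Subtype.ext (eq_zero_of_coords Φ.2 h))

/-- Change of coefficients. -/
def mapVal {R' : Type} [CommRing R'] (φ : R →+* R') (Φ : Cusp → Cusp → R) : Cusp → Cusp → R' :=
  fun x y => φ (Φ x y)

section MapVal

variable {R' : Type} [CommRing R'] (φ : R →+* R')

theorem mapVal_mem {Φ : Cusp → Cusp → R} (hΦ : Φ ∈ SymbChar R δ) :
    mapVal φ Φ ∈ SymbChar R' (δ.ringHomComp φ) :=
  ⟨fun x y z => by simp only [mapVal]; rw [← map_add, hΦ.1],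
    fun γ hγ x y => by
      simp only [mapVal]
      rw [hΦ.2 γ hγ, map_mul, MulChar.ringHomComp_apply]⟩

theorem mapVal_sub (Φ Ψ : Cusp → Cusp → R) : mapVal φ (Φ - Ψ) = mapVal φ Φ - mapVal φ Ψ :=
  funext fun x => funext fun y => map_sub φ (Φ x y) (Ψ x y)

theorem mapVal_add (Φ Ψ : Cusp → Cusp → R) : mapVal φ (Φ + Ψ) = mapVal φ Φ + mapVal φ Ψ :=
  funext fun x => funext fun y => map_add φ (Φ x y) (Ψ x y)

theorem mapVal_zero : mapVal φ (0 : Cusp → Cusp → R) = 0 :=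
  funext fun _ => funext fun _ => map_zero φ

/-- Changing values commutes with scalars. -/
theorem mapVal_smul (c : R) (Φ : Cusp → Cusp → R) : mapVal φ (c • Φ) = φ c • mapVal φ Φ :=
  funext fun x => funext fun y => map_mul φ c (Φ x y)

/-- Changing values commutes with the Hecke operators. -/
theorem mapVal_tOpChar (ℓ : ℕ) (Φ : Cusp → Cusp → R) :
    mapVal φ (tOpChar R δ ℓ Φ) = tOpChar R' (δ.ringHomComp φ) ℓ (mapVal φ Φ) := by
  funext x y
  simp only [mapVal, tOpChar, LinearMap.add_apply, LinearMap.smul_apply, LinearMap.sum_apply,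
    Pi.add_apply, Pi.smul_apply, Finset.sum_apply, pull_apply, smul_eq_mul, map_add, map_mul,
    map_sum, MulChar.ringHomComp_apply]

end MapVal

end FLTAgent.ModularityLifting
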