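import Fermat.Agent.ModularityLifting.FreeProduct
import Fermat.Agent.ModularityLifting.CharSymbols
import Mathlib.RingTheory.LocalRing.ResidueField.Basic
import Mathlib.GroupTheory.GroupAction.Quotient
import Mathlib.FieldTheory.Finite.Basic

/-!
# Lifting residual symbols to crossed homomorphisms

`exists_cocycle_lift`: a residual symbol with a residually trivial character lifts to a crossed
homomorphism of `Γ₀(L)`, using a weight summing to `1` on each orbit of `(ST)⁻¹`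
(`exists_orbit_weight`). Used to lift residual symbols in `SymbolLift`.
-/

set_option autoImplicit false

noncomputable section

namespace FLTAgent.ModularityLifting

open FLTAgent.LevelRaising CongruenceSubgroup IsLocalRing Matrix
open scoped MatrixGroups

variable {R : Type} [CommRing R] {L : ℕ}

/-- The value of the character at an element of `Γ₀(L)`. -/
def chi (δ : DirichletCharacter R L) (γ : SL(2, ℤ)) : R := δ ((γ 1 1 : ℤ) : ZMod L)

theorem chi_mul (δ : DirichletCharacter R L) {a : SL(2, ℤ)} (ha : a ∈ Gamma0 L) (b : SL(2, ℤ)) :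
    chi δ (a * b) = chi δ a * chi δ b := by
  have hc : ((a 1 0 : ℤ) : ZMod L) = 0 := Gamma0_mem.mp ha
  have h : (((a * b) 1 1 : ℤ) : ZMod L) = ((a 1 1 : ℤ) : ZMod L) * ((b 1 1 : ℤ) : ZMod L) := by
    rw [Matrix.SpecialLinearGroup.coe_mul, Matrix.mul_apply, Fin.sum_univ_two]
    push_cast
    rw [hc, zero_mul, zero_add]
  rw [chi, chi, chi, h, map_mul]

theorem chi_one (δ : DirichletCharacter R L) : chi δ 1 = 1 := by
  simp [chi]

theorem neg_mem_Gamma0_iff {g : SL(2, ℤ)} : -g ∈ Gamma0 L ↔ g ∈ Gamma0 L := by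
  simp [Gamma0_mem]

theorem neg_one_mem_Gamma0' : (-1 : SL(2, ℤ)) ∈ Gamma0 L := by simp [Gamma0_mem]

section Transversal

/-- The component in `Γ₀(L)` of `g = γ · rep`. -/
def gamPart (L : ℕ) (g : SL(2, ℤ)) : SL(2, ℤ) :=
  g * ((g⁻¹ : SL(2, ℤ)) : SL(2, ℤ) ⧸ Gamma0 L).out

theorem gamPart_mem (g : SL(2, ℤ)) : gamPart L g ∈ Gamma0 L := by
  obtain ⟨⟨h, hh⟩, heq⟩ := QuotientGroup.mk_out_eq_mul (Gamma0 L) g⁻¹
  simp only at heq
  rw [gamPart, heq, mul_inv_cancel_left]
  exact hh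

theorem coset_mul_left {γ : SL(2, ℤ)} (hγ : γ ∈ Gamma0 L) (g : SL(2, ℤ)) :
    (((γ * g)⁻¹ : SL(2, ℤ)) : SL(2, ℤ) ⧸ Gamma0 L) = ((g⁻¹ : SL(2, ℤ)) : SL(2, ℤ) ⧸ Gamma0 L) := by
  rw [QuotientGroup.eq]
  simpa [mul_assoc] using hγ

theorem gamPart_mul_left {γ : SL(2, ℤ)} (hγ : γ ∈ Gamma0 L) (g : SL(2, ℤ)) :
    gamPart L (γ * g) = γ * gamPart L g := by
  rw [gamPart, gamPart, coset_mul_left hγ, mul_assoc]

theorem gamPart_mul_out (g : SL(2, ℤ)) :
    gamPart L g * ((g⁻¹ : SL(2, ℤ)) : SL(2, ℤ) ⧸ Gamma0 L).out⁻¹ = g := by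
  rw [gamPart, mul_inv_cancel_right]

end Transversal

variable [IsLocalRing R] {δ : DirichletCharacter R L}

/-- An equivariant lift of an invariant residual function. -/
theorem exists_equivariant_lift (hres : ∀ γ ∈ Gamma0 L, residue R (chi δ γ) = 1)
    (f : SL(2, ℤ) → ResidueField R) (hf : ∀ γ ∈ Gamma0 L, ∀ g, f (γ * g) = f g) :
    ∃ F : SL(2, ℤ) → R, (∀ γ ∈ Gamma0 L, ∀ g, F (γ * g) = chi δ γ * F g) ∧
      ∀ g, residue R (F g) = f g := by
  refine ⟨fun g => chi δ (gamPart L g) * Function.surjInv residue_surjective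
    (f ((g⁻¹ : SL(2, ℤ)) : SL(2, ℤ) ⧸ Gamma0 L).out⁻¹), fun γ hγ g => ?_, fun g => ?_⟩
  · simp only [gamPart_mul_left hγ, coset_mul_left hγ, chi_mul δ hγ, mul_assoc]
  · rw [map_mul, hres _ (gamPart_mem g), one_mul, Function.surjInv_eq residue_surjective]
    conv_rhs => rw [← gamPart_mul_out (L := L) g]
    rw [hf _ (gamPart_mem g)]

theorem mU_conj_not_mem {t : ℕ} (ht : t.Prime) (htL : t ∣ L) (ht3 : t % 3 = 2) (g : SL(2, ℤ)) :
    g * mU * g⁻¹ ∉ Gamma0 L := by
  intro h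
  have : Fact t.Prime := ⟨ht⟩
  have hc : (t : ℤ) ∣ (g * mU * g⁻¹) 1 0 :=
    (Int.natCast_dvd_natCast.mpr htL).trans (mem_Gamma0_iff_dvd.mp h)
  set a : ZMod t := (((g * mU * g⁻¹) 0 0 : ℤ) : ZMod t)
  have htr : (g * mU * g⁻¹) 0 0 + (g * mU * g⁻¹) 1 1 = 1 := by
    have hm : ((mU : SL(2, ℤ)) : M2) = !![0, -1; 1, 1] := by decide
    have hdet := g.det_coe
    rw [Matrix.det_fin_two] at hdet
    simp only [Matrix.SpecialLinearGroup.coe_mul, Matrix.SpecialLinearGroup.coe_inv, hm,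
      Matrix.adjugate_fin_two, Matrix.mul_apply, Fin.sum_univ_two, Matrix.of_apply,
      Matrix.cons_val', Matrix.cons_val_zero, Matrix.cons_val_one, Matrix.cons_val_fin_one]
    linear_combination hdet
  have ha : a * a - a + 1 = 0 := by
    have hdet := (g * mU * g⁻¹).det_coe
    rw [Matrix.det_fin_two] at hdet
    have h1 := congrArg (Int.cast : ℤ → ZMod t) hdet
    have h2 := congrArg (Int.cast : ℤ → ZMod t) htr
    push_cast at h1 h2
    rw [(ZMod.intCast_zmod_eq_zero_iff_dvd _ _).mpr hc, mul_zero, sub_zero] at h1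
    linear_combination a * h2 - h1
  have ha3 : (-a) ^ 3 = 1 := by linear_combination -(a + 1) * ha
  have ha0 : -a ≠ 0 := fun h0 => by simp [h0] at ha3
  have h3 : (3 : ZMod t) ≠ 0 := fun h0 => by
    rw [show (3 : ZMod t) = ((3 : ℕ) : ZMod t) by simp, ZMod.natCast_eq_zero_iff] at h0
    rw [(Nat.prime_dvd_prime_iff_eq ht Nat.prime_three).mp h0] at ht3
    omega
  have hne : -a ≠ 1 := fun h1 => by
    rw [neg_eq_iff_eq_neg] at h1
    exact h3 (by rw [h1] at ha; linear_combination ha)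
  have ho : orderOf (-a) = 3 := orderOf_eq_prime ha3 hne
  have := ho ▸ orderOf_dvd_of_pow_eq_one (FiniteField.pow_card_sub_one_eq_one (-a) ha0)
  rw [ZMod.card] at this
  omega

omit [IsLocalRing R] in
/-- A weight on cosets summing to `1` over each orbit of `(ST)⁻¹`. -/
theorem exists_orbit_weight
    (h3 : IsUnit (3 : R) ∨ ∀ g : SL(2, ℤ), g * mU * g⁻¹ ∉ Gamma0 L) :
    ∃ χ : SL(2, ℤ) → R, (∀ γ ∈ Gamma0 L, ∀ g, χ (γ * g) = χ g) ∧
      ∀ g, χ g + χ (g * mU⁻¹) + χ (g * mU⁻¹ * mU⁻¹) = 1 := by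
  classical
  rcases h3 with h3 | h3
  · obtain ⟨c, hc⟩ := h3.exists_left_inv
    exact ⟨fun _ => c, fun _ _ _ => rfl, fun g => by linear_combination hc⟩
  set X := SL(2, ℤ) ⧸ Gamma0 L
  have hT : ∀ x : X, mU • mU • mU • x = x := fun x => by
    obtain ⟨h, rfl⟩ := QuotientGroup.mk_surjective x
    rw [← mul_smul, ← mul_smul, mU_pow_three, MulAction.Quotient.smul_mk, smul_eq_mul]
    rw [QuotientGroup.eq]
    simp [Gamma0_mem]
  have hfree : ∀ x : X, mU • x ≠ x := fun x hx => by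
    obtain ⟨h, rfl⟩ := QuotientGroup.mk_surjective x
    rw [MulAction.Quotient.smul_mk, smul_eq_mul, QuotientGroup.eq] at hx
    exact h3 h⁻¹ (by simpa [mul_assoc] using inv_mem hx)
  let O := MulAction.orbitRel.Quotient (Subgroup.zpowers mU) X
  let sel : X → Prop := fun x => (Quotient.out (⟦x⟧ : O)) = x
  have hsame : ∀ x : X, (⟦mU • x⟧ : O) = ⟦x⟧ := fun x =>
    Quotient.sound ⟨⟨mU, Subgroup.mem_zpowers mU⟩, rfl⟩
  have hone : ∀ x : X, ((if sel x then (1 : R) else 0) + (if sel (mU • x) then 1 else 0) +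
      (if sel (mU • mU • x) then 1 else 0)) = 1 := by
    intro x
    have h1 : mU • x ≠ x := hfree x
    have h2 : mU • mU • x ≠ mU • x := hfree _
    have h20 : mU • mU • x ≠ x := fun h => h1 (by
      have := congrArg (mU • ·) h
      simp only [hT] at this
      exact this.symm)
    have hmem : Quotient.out (⟦x⟧ : O) = x ∨ Quotient.out (⟦x⟧ : O) = mU • x ∨
        Quotient.out (⟦x⟧ : O) = mU • mU • x := by
      obtain ⟨⟨u, hu⟩, he⟩ := Quotient.exact (Quotient.out_eq (⟦x⟧ : O))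
      rw [← he]
      have key : ∀ n : ℕ, mU ^ n • x = x ∨ mU ^ n • x = mU • x ∨ mU ^ n • x = mU • mU • x := by
        intro n
        induction n with
        | zero => exact Or.inl (by rw [pow_zero, one_smul])
        | succ n ih =>
          rw [pow_succ', mul_smul]
          rcases ih with h | h | h <;> rw [h]
          · exact Or.inr (Or.inl rfl)
          · exact Or.inr (Or.inr rfl)
          · exact Or.inl (hT x)
      have h6 : mU ^ 6 = 1 := by decide
      obtain ⟨i, rfl⟩ := Subgroup.mem_zpowers_iff.mp hu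
      have hi : mU ^ i = mU ^ (i % 6).toNat := by
        conv_lhs => rw [← Int.emod_add_mul_ediv i 6]
        rw [zpow_add, _root_.zpow_mul,
          show mU ^ (6 : ℤ) = 1 by rw [show (6 : ℤ) = ((6 : ℕ) : ℤ) by rfl, zpow_natCast, h6],
          one_zpow, mul_one, ← zpow_natCast, Int.toNat_of_nonneg (Int.emod_nonneg _ (by norm_num))]
      show mU ^ i • x = x ∨ mU ^ i • x = mU • x ∨ mU ^ i • x = mU • mU • x
      rw [hi]
      exact key _
    simp only [sel, hsame]
    rcases hmem with h | h | h <;> simp [h, h1.symm, h2, h2.symm, h20, h20.symm, h1]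
  refine ⟨fun g => if sel ((g⁻¹ : SL(2, ℤ)) : X) then 1 else 0,
    fun γ hγ g => by simp only [X, coset_mul_left hγ], fun g => ?_⟩
  have e1 : (((g * mU⁻¹)⁻¹ : SL(2, ℤ)) : X) = mU • ((g⁻¹ : SL(2, ℤ)) : X) := by
    rw [MulAction.Quotient.smul_mk, smul_eq_mul, _root_.mul_inv_rev, inv_inv]
  have e2 : (((g * mU⁻¹ * mU⁻¹)⁻¹ : SL(2, ℤ)) : X) = mU • mU • ((g⁻¹ : SL(2, ℤ)) : X) := by
    rw [MulAction.Quotient.smul_mk, MulAction.Quotient.smul_mk, smul_eq_mul, smul_eq_mul,
      _root_.mul_inv_rev, _root_.mul_inv_rev, inv_inv]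
  simp only [e1, e2]
  exact hone _

/-- A residual symbol lifts to a crossed homomorphism of `Γ₀(L)`. -/
theorem exists_cocycle_lift (hres : ∀ γ ∈ Gamma0 L, residue R (chi δ γ) = 1)
    (hneg : chi δ (-1) = 1) (h2 : IsUnit (2 : R))
    (h3 : IsUnit (3 : R) ∨ ∀ g : SL(2, ℤ), g * mU * g⁻¹ ∉ Gamma0 L)
    {Φ : Cusp → Cusp → ResidueField R}
    (hΦ : Φ ∈ SymbChar (ResidueField R) (δ.ringHomComp (residue R))) :
    ∃ k : SL(2, ℤ) → R, (∀ a ∈ Gamma0 L, ∀ b ∈ Gamma0 L, k (a * b) = k a + chi δ a * k b) ∧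
      ∀ γ ∈ Gamma0 L, residue R (k γ) = Φ OnePoint.infty (glQ γ • OnePoint.infty) := by
  set Gb : SL(2, ℤ) → ResidueField R := fun g => Φ OnePoint.infty (glQ g • OnePoint.infty)
  have hinvΦ : ∀ γ ∈ Gamma0 L, ∀ x y, Φ (glQ γ • x) (glQ γ • y) = Φ x y := fun γ hγ x y => by
    rw [hΦ.2 γ hγ, MulChar.ringHomComp_apply]
    have := hres γ hγ
    rw [chi] at this
    rw [this, one_mul]
  have hneg' : ∀ g : SL(2, ℤ), Gb (-g) = Gb g := fun g => by simp only [Gb, glQ_neg_smul]
  have hsub : ∀ x y, Φ x y = Φ OnePoint.infty y - Φ OnePoint.infty x := fun x y => by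
    rw [eq_sub_iff_add_eq, add_comm, hΦ.1]
  have hstep : ∀ h, ∀ γ ∈ Gamma0 L, ∀ g, Gb (γ * g * h) - Gb (γ * g) = Gb (g * h) - Gb g := by
    intro h γ hγ g
    simp only [Gb, glQ_mul_smul, ← hsub]
    exact hinvΦ γ hγ _ _
  obtain ⟨A, hA, hA'⟩ := exists_equivariant_lift (δ := δ) hres (fun g => Gb (g * mS) - Gb g)
    (hstep mS)
  obtain ⟨B, hB, hB'⟩ := exists_equivariant_lift (δ := δ) hres (fun g => Gb (g * mU⁻¹) - Gb g)
    (hstep mU⁻¹)
  obtain ⟨c, hc⟩ := h2.exists_left_inv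
  obtain ⟨χ, hχ, hχ1⟩ := exists_orbit_weight (R := R) (L := L) h3
  have hAneg : ∀ g, A (-g) = A g := fun g => by
    rw [← neg_one_mul g, hA _ neg_one_mem_Gamma0', hneg, one_mul]
  have hBneg : ∀ g, B (-g) = B g := fun g => by
    rw [← neg_one_mul g, hB _ neg_one_mem_Gamma0', hneg, one_mul]
  have hχneg : ∀ g, χ (-g) = χ g := fun g => by rw [← neg_one_mul g, hχ _ neg_one_mem_Gamma0']
  let a : SL(2, ℤ) → R := fun g => c * (A g - A (g * mS))
  let b : SL(2, ℤ) → R := fun g => B g - χ g * (B g + B (g * mU⁻¹) + B (g * mU⁻¹ * mU⁻¹))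
  have hU3 : ∀ g : SL(2, ℤ), g * mU⁻¹ * mU⁻¹ * mU⁻¹ = -g := fun g => by
    rw [mul_assoc, mul_assoc, ← mul_assoc mU⁻¹, inv_mul_inv_mul_inv_mU, mul_neg, mul_one]
  obtain ⟨G, hG1, hGneg, hGS, hGU⟩ := exists_stepSum a b
    (fun g => by simp only [a, neg_mul, hAneg])
    (fun g => by simp only [b, neg_mul, hBneg, hχneg])
    (fun g => by simp only [a, mul_assoc g, mS_mul_mS, mul_neg, mul_one, hAneg]; ring)
    (fun g => by
      simp only [b, hU3, neg_mul, hBneg]
      linear_combination -(B g + B (g * mU⁻¹) + B (g * mU⁻¹ * mU⁻¹)) * hχ1 g)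
  -- invariance along the generators
  have hgen : ∀ {E : Type} (D : SL(2, ℤ) → E), (∀ g, D (g * mS) = D g) →
      (∀ g, D (g * mU⁻¹) = D g) → ∀ g, D g = D 1 := by
    intro E D h1 h2
    let K : Subgroup SL(2, ℤ) :=
      { carrier := {h | ∀ g, D (g * h) = D g}
        one_mem' := fun g => by rw [mul_one]
        mul_mem' := fun {p q} hp hq g => by rw [← mul_assoc, hq, hp]
        inv_mem' := fun {p} hp g => by conv_rhs => rw [← inv_mul_cancel_right g p, hp] }
    have hK : (⊤ : Subgroup SL(2, ℤ)) ≤ K := by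
      rw [← SpecialLinearGroup.SL2Z_generators, Subgroup.closure_le]
      rintro _ (rfl | rfl)
      · exact h1
      · show mT ∈ K
        rw [show mT = mS⁻¹ * mU from (inv_mul_cancel_left _ _).symm]
        exact mul_mem (inv_mem (show mS ∈ K from h1))
          (by simpa using inv_mem (show mU⁻¹ ∈ K from h2))
    intro g
    simpa using hK (Subgroup.mem_top g) 1
  have haeq : ∀ γ ∈ Gamma0 L, ∀ g, a (γ * g) = chi δ γ * a g := fun γ hγ g => by
    simp only [a, mul_assoc γ, hA γ hγ]; ring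
  have hbeq : ∀ γ ∈ Gamma0 L, ∀ g, b (γ * g) = chi δ γ * b g := fun γ hγ g => by
    simp only [b, mul_assoc γ, hB γ hγ, hχ γ hγ]; ring
  have hGeq : ∀ γ ∈ Gamma0 L, ∀ g, G (γ * g) = G γ + chi δ γ * G g := by
    intro γ hγ g
    have := hgen (fun g => G (γ * g) - chi δ γ * G g)
      (fun g => by simp only [← mul_assoc, hGS, haeq γ hγ]; ring)
      (fun g => by simp only [← mul_assoc, hGU, hbeq γ hγ]; ring) g
    simp only [mul_one, hG1, mul_zero, sub_zero] at this
    linear_combination this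
  refine ⟨G, fun p hp q hq => hGeq p hp q, fun γ hγ => ?_⟩
  -- reduction
  have hra : ∀ g, residue R (a g) = Gb (g * mS) - Gb g := fun g => by
    have hc' : residue R c * 2 = 1 := by
      rw [show (2 : ResidueField R) = residue R 2 from (map_ofNat _ _).symm, ← map_mul, hc, map_one]
    simp only [a, map_mul, map_sub, hA', mul_assoc g, mS_mul_mS, mul_neg, mul_one, hneg']
    linear_combination (Gb (g * mS) - Gb g) * hc'
  have hrb : ∀ g, residue R (b g) = Gb (g * mU⁻¹) - Gb g := fun g => by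
    simp only [b, map_sub, map_mul, map_add, hB', hU3, hneg']
    ring
  have hred := hgen (fun g => residue R (G g) - Gb g)
    (fun g => by simp only [hGS, map_add, hra]; ring)
    (fun g => by simp only [hGU, map_add, hrb]; ring) γ
  simp only [hG1, map_zero, Gb, map_one, one_smul] at hred
  rw [show Φ OnePoint.infty OnePoint.infty = 0 by
    simpa using hΦ.1 OnePoint.infty OnePoint.infty OnePoint.infty,
    sub_zero, sub_eq_zero] at hred
  exact hred

end FLTAgent.ModularityLifting
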