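import Mathlib.RingTheory.AdicCompletion.Noetherian
import Mathlib.RingTheory.AdicCompletion.Basic
import Mathlib.RingTheory.Ideal.Operations
import Mathlib.RingTheory.Finiteness.Ideal
import Mathlib.RingTheory.Ideal.Quotient.Index
import Mathlib.RingTheory.LocalRing.ResidueField.Basic

/-!
# The common topologically nilpotent part of commuting operators

For a finite module over a complete noetherian local ring with finite residue field, every operator
`u` has a Fitting decomposition; for a commuting family, a vector killed modulo `𝔪` by powers of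
all operators lifts to one on which all operators are topologically nilpotent.
-/

set_option autoImplicit false

noncomputable section

namespace FLTAgent.ModularityLifting

open IsLocalRing
open scoped Nat

variable {R : Type*} [CommRing R] {X : Type*} [AddCommGroup X] [Module R X]

theorem isPrecomplete_of_finite (I : Ideal R) [IsPrecomplete I R] [Module.Finite R X] :
    IsPrecomplete I X := by
  refine ⟨fun f hf => ?_⟩
  obtain ⟨n, x, hx⟩ := Module.Finite.exists_fin (R := R) (M := X)
  have hd : ∀ k, ∃ c : Fin n → R, (∀ i, c i ∈ I ^ k) ∧ f (k + 1) - f k = ∑ i, c i • x i := by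
    intro k
    have h := (SModEq.sub_mem.mp (hf (Nat.le_succ k)).symm)
    rw [← hx] at h
    obtain ⟨a, ha, hsum⟩ := (Submodule.mem_ideal_smul_span_iff_exists_sum (I ^ k) x _).mp h
    refine ⟨a, ha, ?_⟩
    rw [← hsum]
    exact Finsupp.sum_fintype a (fun i c => c • x i) fun _ => zero_smul R _
  choose c hc hfc using hd
  have hcauchy : ∀ i {a b : ℕ}, a ≤ b → (∑ k ∈ Finset.range a, c k i) ≡
      ∑ k ∈ Finset.range b, c k i [SMOD (I ^ a • ⊤ : Submodule R R)] := by
    intro i a b hab
    rw [SModEq.sub_mem, smul_eq_mul, Ideal.mul_top, ← neg_sub, Finset.sum_range_sub_sum_range hab]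
    refine Submodule.neg_mem _ (Submodule.sum_mem _ fun k hk => ?_)
    exact Ideal.pow_le_pow_right (by simp at hk; omega) (hc k i)
  have hL : ∀ i, ∃ l : R, ∀ a, (∑ k ∈ Finset.range a, c k i) ≡ l
      [SMOD (I ^ a • ⊤ : Submodule R R)] := fun i => IsPrecomplete.prec ‹_› (hcauchy i)
  choose l hl using hL
  refine ⟨f 0 + ∑ i, l i • x i, fun a => ?_⟩
  have hfa : f a = f 0 + ∑ i, (∑ k ∈ Finset.range a, c k i) • x i := by
    clear hl
    induction a with
    | zero => simp
    | succ a ih =>
      simp only [Finset.sum_range_succ, add_smul, Finset.sum_add_distrib, ← hfc, ← add_assoc, ← ih]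
      abel
  rw [hfa]
  refine SModEq.add (SModEq.refl _) (SModEq.sub_mem.mpr ?_)
  rw [← Finset.sum_sub_distrib]
  refine Submodule.sum_mem _ fun i _ => ?_
  rw [← sub_smul]
  refine Submodule.smul_mem_smul ?_ Submodule.mem_top
  simpa [SModEq.sub_mem] using hl i a

theorem finite_quotient_pow [IsLocalRing R] [IsNoetherianRing R] [Finite (ResidueField R)]
    [Module.Finite R X] (n : ℕ) :
    Finite (X ⧸ (maximalIdeal R ^ n • ⊤ : Submodule R X)) := by
  have : Finite (R ⧸ maximalIdeal R) := ‹Finite (ResidueField R)›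
  have : Finite (R ⧸ maximalIdeal R ^ n) :=
    Ideal.finite_quotient_pow (IsNoetherian.noetherian (maximalIdeal R)) n
  have : Module.Finite (R ⧸ maximalIdeal R ^ n)
      (X ⧸ (maximalIdeal R ^ n • ⊤ : Submodule R X)) := by
    exact Module.Finite.of_restrictScalars_finite R _ _
  exact Module.finite_of_finite (R ⧸ maximalIdeal R ^ n)

section Powers

variable {Y : Type*} [Finite Y]

/-- In a finite set of self-maps, the powers with factorial exponents are eventually constant. -/
theorem exists_stable_factorial (f : Y → Y) :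
    ∃ T : ℕ, ∀ t ≥ T, ∀ y, f^[t !] y = f^[T !] y ∧ f^[T ! + T !] y = f^[T !] y := by
  obtain ⟨a, b, hne, hab⟩ := Finite.exists_ne_map_eq_of_infinite fun k : ℕ => f^[k]
  wlog hlt : a < b generalizing a b
  · exact this b a hne.symm hab.symm (by omega)
  have hper : ∀ k ≥ a, f^[k + (b - a)] = f^[k] := by
    intro k hk
    obtain ⟨e, rfl⟩ := Nat.exists_eq_add_of_le hk
    rw [show a + e + (b - a) = e + b by omega, Function.iterate_add f e b, ← hab,
      ← Function.iterate_add, Nat.add_comm]
  have hper' : ∀ j k, a ≤ k → f^[k + j * (b - a)] = f^[k] := by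
    intro j
    induction j with
    | zero => simp
    | succ j ih =>
      intro k hk
      rw [Nat.succ_mul, ← Nat.add_assoc, hper _ (by omega), ih k hk]
  set T := a + (b - a) + 1
  have hdiv : ∀ t ≥ T, (b - a) ∣ t ! ∧ a ≤ t ! := fun t ht =>
    ⟨Nat.dvd_factorial (by omega) (by omega), le_trans (by omega) t.self_le_factorial⟩
  refine ⟨T, fun t ht y => ⟨?_, ?_⟩⟩
  · obtain ⟨j, hj⟩ := Nat.dvd_sub (hdiv t ht).1 (hdiv T le_rfl).1
    have hle : T ! ≤ t ! := Nat.factorial_le ht
    rw [show t ! = T ! + j * (b - a) by rw [Nat.mul_comm, ← hj]; omega,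
      hper' j _ (hdiv T le_rfl).2]
  · obtain ⟨j, hj⟩ := (hdiv T le_rfl).1
    have : T ! + T ! = T ! + j * (b - a) := by rw [Nat.mul_comm, ← hj]
    rw [this, hper' j _ (hdiv T le_rfl).2]

end Powers

variable [IsLocalRing R] [IsNoetherianRing R] [IsAdicComplete (maximalIdeal R) R]
  [Finite (ResidueField R)] [Module.Finite R X]

omit [IsAdicComplete (maximalIdeal R) R] [Finite (ResidueField R)] in
theorem eq_of_forall_pow_mem {x y : X}
    (h : ∀ n, x - y ∈ (maximalIdeal R ^ n • ⊤ : Submodule R X)) : x = y :=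
  (IsHausdorff.eq_iff_smodEq (I := maximalIdeal R)).mpr fun n => SModEq.sub_mem.mpr (h n)

omit [IsLocalRing R] [IsNoetherianRing R] [IsAdicComplete (maximalIdeal R) R]
  [Finite (ResidueField R)] [Module.Finite R X] in
theorem pow_apply_mem (u : Module.End R X) (k : ℕ) (I : Ideal R) {x : X}
    (hx : x ∈ (I • ⊤ : Submodule R X)) : (u ^ k) x ∈ (I • ⊤ : Submodule R X) :=
  Submodule.smul_top_le_comap_smul_top I (u ^ k) hx

omit [IsAdicComplete (maximalIdeal R) R] in
/-- The eventual values of the powers of `u` modulo `𝔪 ^ n`. -/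
theorem exists_stable_pow (u : Module.End R X) (n : ℕ) :
    ∃ T : ℕ, ∀ x : X, (∀ t ≥ T, (u ^ t !) x - (u ^ T !) x ∈
        (maximalIdeal R ^ n • ⊤ : Submodule R X)) ∧
      (u ^ T !) ((u ^ T !) x) - (u ^ T !) x ∈ (maximalIdeal R ^ n • ⊤ : Submodule R X) := by
  set N : Submodule R X := maximalIdeal R ^ n • ⊤
  have : Finite (X ⧸ N) := finite_quotient_pow n
  set v := N.mapQ N u (Submodule.smul_top_le_comap_smul_top _ u)
  have hv : ∀ k (x : X), v^[k] (Submodule.Quotient.mk x) = Submodule.Quotient.mk ((u ^ k) x) := by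
    intro k x
    induction k with
    | zero => simp
    | succ k ih =>
      rw [Function.iterate_succ_apply', ih, pow_succ', Module.End.mul_apply]
      rfl
  obtain ⟨T, hT⟩ := exists_stable_factorial v
  refine ⟨T, fun x => ⟨fun t ht => (Submodule.Quotient.eq N).mp ?_, ?_⟩⟩
  · rw [← hv, ← hv]
    exact (hT t ht _).1
  · refine (Submodule.Quotient.eq N).mp ?_
    rw [← Module.End.mul_apply, ← pow_add, ← hv, ← hv]
    exact (hT T le_rfl _).2

/-- `y` is the limit of `u ^ t!` at `x`. -/
def IsPowLimit (u : Module.End R X) (x y : X) : Prop :=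
  ∀ n, ∃ T : ℕ, ∀ t ≥ T, (u ^ t !) x - y ∈ (maximalIdeal R ^ n • ⊤ : Submodule R X)

omit [Finite (ResidueField R)] [IsAdicComplete (maximalIdeal R) R] in
theorem IsPowLimit.unique {u : Module.End R X} {x y y' : X} (h : IsPowLimit u x y)
    (h' : IsPowLimit u x y') : y = y' := by
  refine eq_of_forall_pow_mem (R := R) fun n => ?_
  obtain ⟨T, hT⟩ := h n
  obtain ⟨T', hT'⟩ := h' n
  have := Submodule.sub_mem _ (hT' _ (le_max_right T T')) (hT _ (le_max_left T T'))
  rwa [sub_sub_sub_cancel_left] at this

theorem exists_isPowLimit (u : Module.End R X) (x : X) : ∃ y, IsPowLimit u x y := by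
  choose T hT using exists_stable_pow (R := R) u
  set S : ℕ → ℕ := fun n => (∑ k ∈ Finset.range (n + 1), T k)
  have hTS : ∀ {m n}, m ≤ n → T m ≤ S n := fun {m n} h =>
    Finset.single_le_sum (fun k _ => Nat.zero_le (T k)) (Finset.mem_range.mpr (by omega))
  have := isPrecomplete_of_finite (X := X) (maximalIdeal R)
  obtain ⟨y, hy⟩ := IsPrecomplete.prec this (f := fun n => (u ^ (S n)!) x) fun {m n} h => by
    rw [SModEq.sub_mem]
    have := Submodule.sub_mem _ ((hT m x).1 _ (hTS le_rfl)) ((hT m x).1 _ (hTS h))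
    rwa [sub_sub_sub_cancel_right] at this
  refine ⟨y, fun n => ⟨T n, fun t ht => ?_⟩⟩
  have h1 := SModEq.sub_mem.mp (hy n)
  have h2 := Submodule.sub_mem _ ((hT n x).1 t ht) ((hT n x).1 _ (hTS le_rfl))
  have := Submodule.add_mem _ h2 h1
  rwa [sub_sub_sub_cancel_right, sub_add_sub_cancel] at this

/-- The projection to the part on which `u` is invertible, along the topologically nilpotent
part. -/
def invProj (u : Module.End R X) : Module.End R X where
  toFun x := (exists_isPowLimit u x).choose
  map_add' a b := by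
    refine (exists_isPowLimit u (a + b)).choose_spec.unique fun n => ?_
    obtain ⟨T, hT⟩ := (exists_isPowLimit u a).choose_spec n
    obtain ⟨T', hT'⟩ := (exists_isPowLimit u b).choose_spec n
    refine ⟨max T T', fun t ht => ?_⟩
    rw [map_add, add_sub_add_comm]
    exact add_mem (hT t (le_of_max_le_left ht)) (hT' t (le_of_max_le_right ht))
  map_smul' c a := by
    refine (exists_isPowLimit u (c • a)).choose_spec.unique fun n => ?_
    obtain ⟨T, hT⟩ := (exists_isPowLimit u a).choose_spec n
    refine ⟨T, fun t ht => ?_⟩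
    rw [map_smul, RingHom.id_apply, ← smul_sub]
    exact Submodule.smul_mem _ c (hT t ht)

theorem isPowLimit_invProj (u : Module.End R X) (x : X) : IsPowLimit u x (invProj u x) :=
  (exists_isPowLimit u x).choose_spec

theorem invProj_invProj (u : Module.End R X) (x : X) : invProj u (invProj u x) = invProj u x := by
  refine eq_of_forall_pow_mem (R := R) fun n => ?_
  obtain ⟨T, hT⟩ := exists_stable_pow (R := R) u n
  obtain ⟨T₁, hT₁⟩ := isPowLimit_invProj u x n
  obtain ⟨T₂, hT₂⟩ := isPowLimit_invProj u (invProj u x) n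
  set t := max T (max T₁ T₂)
  have ht : T ≤ t ∧ T₁ ≤ t ∧ T₂ ≤ t := by omega
  have h1 := pow_apply_mem u t ! _ (hT₁ t ht.2.1)
  rw [map_sub] at h1
  have h2 := hT₂ t ht.2.2
  have h3 : (u ^ t !) ((u ^ t !) x) - (u ^ t !) x ∈ (maximalIdeal R ^ n • ⊤ : Submodule R X) := by
    have a1 := pow_apply_mem u t ! _ ((hT x).1 t ht.1)
    rw [map_sub] at a1
    have a2 := (hT ((u ^ T !) x)).1 t ht.1
    have a3 := (hT x).2
    have a4 := (hT x).1 t ht.1
    have := Submodule.sub_mem _ (Submodule.add_mem _ (Submodule.add_mem _ a1 a2) a3) a4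
    convert this using 1
    abel
  have := Submodule.add_mem _ (Submodule.sub_mem _ h3 h1) (Submodule.sub_mem _ (hT₁ t ht.2.1) h2)
  convert this using 1
  abel

theorem invProj_comm {u v : Module.End R X} (h : Commute u v) (x : X) :
    invProj u (v x) = v (invProj u x) := by
  refine (isPowLimit_invProj u (v x)).unique fun n => ?_
  obtain ⟨T, hT⟩ := isPowLimit_invProj u x n
  refine ⟨T, fun t ht => ?_⟩
  have h1 := Submodule.smul_top_le_comap_smul_top _ v (hT t ht)
  rw [Submodule.mem_comap, map_sub] at h1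
  rwa [← Module.End.mul_apply, (h.pow_left _).eq]

theorem commute_invProj {u v : Module.End R X} (h : Commute u v) :
    Commute (invProj u) (invProj v) := by
  refine LinearMap.ext fun x => (isPowLimit_invProj v (invProj u x)).unique ?_ |>.symm
  intro n
  obtain ⟨T, hT⟩ := isPowLimit_invProj v x n
  refine ⟨T, fun t ht => ?_⟩
  have h1 := Submodule.smul_top_le_comap_smul_top _ (invProj u) (hT t ht)
  rw [Submodule.mem_comap, map_sub, invProj_comm (h.pow_right _)] at h1
  exact h1

theorem pow_apply_mem_of_invProj_eq_zero {u : Module.End R X} {x : X} (h : invProj u x = 0)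
    (n : ℕ) : ∃ j, (u ^ j) x ∈ (maximalIdeal R ^ n • ⊤ : Submodule R X) := by
  obtain ⟨T, hT⟩ := isPowLimit_invProj u x n
  exact ⟨T !, by simpa [h] using hT T le_rfl⟩

/-- Lifting to the common topologically nilpotent part. -/
theorem exists_forall_topNilpotent {ι : Type*} (u : ι → Module.End R X)
    (hu : ∀ i k, Commute (u i) (u k)) (N₀ : Submodule R X)
    (hN : ∀ i, ∀ z ∈ N₀, u i z ∈ N₀) (hmN : (maximalIdeal R • ⊤ : Submodule R X) ≤ N₀) (x : X)
    (hx : ∀ i, ∃ j, (u i ^ j) x ∈ N₀) :
    ∃ y, x - y ∈ N₀ ∧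
      ∀ i n, ∃ j, (u i ^ j) y ∈ (maximalIdeal R ^ n • ⊤ : Submodule R X) := by
  classical
  set P : ι → Module.End R X := fun i => invProj (u i)
  let K : Finset ι → Submodule R X := fun s => ⨆ i ∈ s, LinearMap.range (P i)
  obtain ⟨_, ⟨s, rfl⟩, hmax⟩ :=
    set_has_maximal_iff_noetherian.mpr (inferInstance : IsNoetherian R X) (Set.range K)
      ⟨K ∅, ⟨∅, rfl⟩⟩
  have hs : ∀ i, LinearMap.range (P i) ≤ K s := fun i => by
    have hle : K s ≤ K (insert i s) := biSup_mono fun k hk => Finset.mem_insert_of_mem hk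
    have heq : K s = K (insert i s) := eq_of_le_of_not_lt hle (hmax _ ⟨_, rfl⟩)
    rw [heq]
    exact le_biSup (fun k => LinearMap.range (P k)) (Finset.mem_insert_self i s)
  -- iterate over `s`
  have hNpow : ∀ i (j : ℕ), ∀ z ∈ N₀, (u i ^ j) z ∈ N₀ := fun i j z hz => by
    induction j with
    | zero => simpa using hz
    | succ j ih => rw [pow_succ', Module.End.mul_apply]; exact hN i _ ih
  have hiter : ∀ l : List ι, ∃ y, x - y ∈ N₀ ∧
      (∀ i, ∃ j, (u i ^ j) y ∈ N₀) ∧ ∀ i ∈ l, P i y = 0 := by
    intro l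
    induction l with
    | nil => exact ⟨x, by simp, hx, by simp⟩
    | cons k l ih =>
      obtain ⟨y, hxy, hy, hP⟩ := ih
      obtain ⟨jk, hjk⟩ := hy k
      have hPk : P k y ∈ N₀ := by
        obtain ⟨T, hT⟩ := isPowLimit_invProj (u k) y 1
        set t := max T jk
        have h1 : (u k ^ t !) y ∈ N₀ := by
          have := hNpow k (Nat.factorial t - jk) _ hjk
          rwa [← Module.End.mul_apply, ← pow_add,
            Nat.sub_add_cancel (le_trans (le_max_right T jk) t.self_le_factorial)] at this
        have h2 := hmN (by simpa only [pow_one] using hT t (le_max_left _ _))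
        have := sub_mem h1 h2
        rwa [sub_sub_cancel] at this
      refine ⟨y - P k y, ?_, fun i => ?_, fun i hi => ?_⟩
      · rw [← sub_add]
        exact add_mem hxy hPk
      · obtain ⟨j, hj⟩ := hy i
        exact ⟨j, by rw [map_sub]; exact sub_mem hj (hNpow i j _ hPk)⟩
      · rw [map_sub]
        rcases List.mem_cons.mp hi with rfl | hi
        · rw [invProj_invProj, sub_self]
        · rw [hP i hi, zero_sub, neg_eq_zero, ← Module.End.mul_apply,
            (commute_invProj (hu i k)).eq, Module.End.mul_apply, hP i hi, map_zero]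
  obtain ⟨y, hxy, -, hy⟩ := hiter s.toList
  have hzero : ∀ z ∈ K s, (∀ i ∈ s, P i z = 0) → z = 0 := by
    have hlist : ∀ l : List ι, (∀ i ∈ l, i ∈ s) → ∃ E : Module.End R X,
        (∀ i, Commute E (P i)) ∧ (∀ z, (∀ i ∈ l, P i z = 0) → E z = z) ∧
          ∀ i ∈ l, ∀ w, E (P i w) = 0 := by
      intro l hl
      induction l with
      | nil => exact ⟨1, fun i => Commute.one_left _, fun z _ => rfl, by simp⟩
      | cons k l ih =>
        obtain ⟨E, hE, hfix, hkill⟩ := ih fun i hi => hl i (List.mem_cons_of_mem _ hi)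
        refine ⟨(1 - P k) * E, fun i => ((Commute.one_left _).sub_left
          (commute_invProj (hu k i))).mul_left (hE i), fun z hz => ?_, fun i hi w => ?_⟩
        · rw [Module.End.mul_apply, hfix z fun i hi => hz i (List.mem_cons_of_mem _ hi)]
          simp [hz k List.mem_cons_self]
        · rcases List.mem_cons.mp hi with rfl | hi
          · have hPP : P i (P i (E w)) = P i (E w) := invProj_invProj _ _
            rw [Module.End.mul_apply, ← Module.End.mul_apply E, (hE i).eq, Module.End.mul_apply]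
            simp [hPP]
          · rw [Module.End.mul_apply, hkill i hi, map_zero]
    obtain ⟨E, -, hfix, hkill⟩ := hlist s.toList fun i hi => Finset.mem_toList.mp hi
    intro z hz hzP
    rw [← hfix z fun i hi => hzP i (Finset.mem_toList.mp hi)]
    have hker : K s ≤ LinearMap.ker E := iSup₂_le fun i hi => by
      rintro _ ⟨w, rfl⟩
      exact hkill i (Finset.mem_toList.mpr hi) w
    exact hker hz
  refine ⟨y, hxy, fun i n => pow_apply_mem_of_invProj_eq_zero ?_ n⟩
  refine hzero _ (hs i ⟨y, rfl⟩) fun k hk => ?_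
  show P k (P i y) = 0
  rw [← Module.End.mul_apply, (commute_invProj (hu k i)).eq, Module.End.mul_apply,
    hy k (Finset.mem_toList.mpr hk), map_zero]

end FLTAgent.ModularityLifting
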