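import Fermat.Agent.ModularityLifting.SymbolLift
import Fermat.Agent.ModularityLifting.TopNilpotent
import Mathlib.LinearAlgebra.Dual.Lemmas
import Mathlib.LinearAlgebra.Basis.VectorSpace
import Mathlib.RingTheory.AdicCompletion.Noetherian
import Mathlib.Algebra.CharP.Lemmas

/-!
# Freeness and base change of the non-Eisenstein part of the modular symbols

`eigenPart_free_baseChange`: the part of the symbols at a non-Eisenstein residual system is free
and commutes with surjective base change. Residual eigenvectors lift (`exists_eigenPart_lift`)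
under the conditions `LiftCond`, and lifts of a residual basis form a basis.
-/

set_option autoImplicit false

noncomputable section

namespace FLTAgent.ModularityLifting

open FLTAgent.LevelRaising CongruenceSubgroup IsLocalRing
open scoped MatrixGroups

variable {R : Type} [CommRing R] {L : ℕ} {δ : DirichletCharacter R L}

/-- The operator `T_ℓ - a`. -/
def shiftOp (R : Type) [CommRing R] (δ : DirichletCharacter R L) (ℓ : ℕ) (c : R) :
    (Cusp → Cusp → R) →ₗ[R] (Cusp → Cusp → R) :=
  tOpChar R δ ℓ - c • LinearMap.id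

theorem shiftOp_apply (ℓ : ℕ) (c : R) (Φ : Cusp → Cusp → R) :
    shiftOp R δ ℓ c Φ = tOpChar R δ ℓ Φ - c • Φ := rfl

theorem shiftOp_mem {ℓ : ℕ} (hℓ : ℓ.Prime) (hL : ¬ ℓ ∣ L) (c : R) {Φ : Cusp → Cusp → R}
    (hΦ : Φ ∈ SymbChar R δ) : shiftOp R δ ℓ c Φ ∈ SymbChar R δ :=
  sub_mem (tOpChar_mem hℓ hL hΦ) (Submodule.smul_mem _ _ hΦ)

theorem pow_shiftOp_mem {ℓ : ℕ} (hℓ : ℓ.Prime) (hL : ¬ ℓ ∣ L) (c : R) (j : ℕ)
    {Φ : Cusp → Cusp → R} (hΦ : Φ ∈ SymbChar R δ) :
    (shiftOp R δ ℓ c ^ j) Φ ∈ SymbChar R δ := by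
  induction j with
  | zero => simpa using hΦ
  | succ j ih => rw [pow_succ', Module.End.mul_apply]; exact shiftOp_mem hℓ hL c ih

theorem shiftOp_mem_smul {ℓ : ℕ} (hℓ : ℓ.Prime) (hL : ¬ ℓ ∣ L) (c : R) (I : Ideal R)
    {Φ : Cusp → Cusp → R} (hΦ : Φ ∈ I • SymbChar R δ) :
    shiftOp R δ ℓ c Φ ∈ I • SymbChar R δ := by
  induction hΦ using Submodule.smul_induction_on' with
  | smul r hr v hv => rw [map_smul]; exact Submodule.smul_mem_smul hr (shiftOp_mem hℓ hL c hv)
  | add x _ y _ hx hy => rw [map_add]; exact add_mem hx hy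

theorem apply_mem_of_mem_smul {I : Ideal R} {Φ : Cusp → Cusp → R}
    (hΦ : Φ ∈ I • SymbChar R δ) (x y : Cusp) : Φ x y ∈ I := by
  induction hΦ using Submodule.smul_induction_on' with
  | smul r hr v hv => exact I.mul_mem_right _ hr
  | add a _ b _ ha hb => exact add_mem ha hb

section Eigen

variable [IsLocalRing R] {S : Finset ℕ} (hS : ∀ q, q.Prime → q ∣ L → q ∈ S) {a : ℕ → R}

include hS in
/-- Membership in the eigenpart. -/
theorem mem_eigenPart_iff {Φ : Cusp → Cusp → R} :
    Φ ∈ eigenPart R δ S a ↔ Φ ∈ SymbChar R δ ∧ ∀ ℓ : ℕ, ℓ.Prime → ℓ ∉ S → ∀ n : ℕ,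
      ∃ j, (shiftOp R δ ℓ (a ℓ) ^ j) Φ ∈ maximalIdeal R ^ n • SymbChar R δ := by
  simp only [eigenPart, Submodule.mem_inf, Submodule.mem_iInf]
  refine and_congr_right fun _ => forall_congr' fun ℓ => forall_congr' fun hℓ =>
    forall_congr' fun hℓS => forall_congr' fun n => ?_
  rw [Submodule.mem_iSup_of_directed]
  · rfl
  · refine Monotone.directed_le (monotone_nat_of_le_succ fun j Φ hΦ => ?_)
    rw [Submodule.mem_comap] at hΦ ⊢
    rw [pow_succ', Module.End.mul_apply]
    exact shiftOp_mem_smul hℓ (fun h => hℓS (hS ℓ hℓ h)) (a ℓ) _ hΦ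

end Eigen

theorem mapVal_shiftOp {R' : Type} [CommRing R'] (φ : R →+* R') (ℓ : ℕ) (c : R)
    (Φ : Cusp → Cusp → R) :
    mapVal φ (shiftOp R δ ℓ c Φ) = shiftOp R' (δ.ringHomComp φ) ℓ (φ c) (mapVal φ Φ) := by
  rw [shiftOp_apply, shiftOp_apply, mapVal_sub, mapVal_tOpChar, mapVal_smul]

theorem mapVal_pow_shiftOp {R' : Type} [CommRing R'] (φ : R →+* R') (ℓ : ℕ) (c : R) (j : ℕ)
    (Φ : Cusp → Cusp → R) :
    mapVal φ ((shiftOp R δ ℓ c ^ j) Φ) =
      (shiftOp R' (δ.ringHomComp φ) ℓ (φ c) ^ j) (mapVal φ Φ) := by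
  induction j with
  | zero => simp
  | succ j ih => rw [pow_succ', Module.End.mul_apply, mapVal_shiftOp, ih, pow_succ',
      Module.End.mul_apply]

theorem mapVal_mem_smul {R' : Type} [CommRing R'] (φ : R →+* R') {I : Ideal R}
    {Φ : Cusp → Cusp → R} (hΦ : Φ ∈ I • SymbChar R δ) :
    mapVal φ Φ ∈ Ideal.map φ I • SymbChar R' (δ.ringHomComp φ) := by
  induction hΦ using Submodule.smul_induction_on' with
  | smul r hr v hv =>
    rw [mapVal_smul]
    exact Submodule.smul_mem_smul (Ideal.mem_map_of_mem φ hr) (mapVal_mem φ hv)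
  | add x _ y _ hx hy => rw [mapVal_add]; exact add_mem hx hy

theorem mapVal_mem_eigenPart [IsLocalRing R] {R' : Type} [CommRing R'] [IsLocalRing R']
    (φ : R →+* R') (hφ : Function.Surjective φ) {S : Finset ℕ}
    (hS : ∀ q, q.Prime → q ∣ L → q ∈ S) {a : ℕ → R} {Φ : Cusp → Cusp → R}
    (hΦ : Φ ∈ eigenPart R δ S a) :
    mapVal φ Φ ∈ eigenPart R' (δ.ringHomComp φ) S (φ ∘ a) := by
  obtain ⟨hΦ1, hΦ2⟩ := (mem_eigenPart_iff hS).mp hΦ
  refine (mem_eigenPart_iff hS).mpr ⟨mapVal_mem φ hΦ1, fun ℓ hℓ hℓS n => ?_⟩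
  obtain ⟨j, hj⟩ := hΦ2 ℓ hℓ hℓS n
  refine ⟨j, ?_⟩
  rw [Function.comp_apply, ← mapVal_pow_shiftOp]
  have : IsLocalHom φ := hφ.isLocalHom φ
  refine Submodule.smul_mono_left ?_ (mapVal_mem_smul φ hj)
  rw [Ideal.map_pow]
  exact Ideal.pow_right_mono ((local_hom_TFAE φ).out 0 2 |>.mp this) n

theorem mem_maximalIdeal_smul_iff_of_field {k : Type} [Field k] {δ : DirichletCharacter k L}
    {n : ℕ} (hn : n ≠ 0) {Φ : Cusp → Cusp → k} :
    Φ ∈ maximalIdeal k ^ n • SymbChar k δ ↔ Φ = 0 := by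
  rw [maximalIdeal_eq_bot, Ideal.bot_pow hn, Submodule.bot_smul, Submodule.mem_bot]

/-- On the kernel of a power of `N`, the operator `N + c` is invertible. -/
theorem exists_preimage_add_smul {k V : Type*} [Field k] [AddCommGroup V] [Module k V]
    (N : Module.End k V) (P : Submodule k V) (hP : ∀ v ∈ P, N v ∈ P) {c : k} (hc : c ≠ 0) :
    ∀ (j : ℕ) (v : V), v ∈ P → (N ^ j) v = 0 →
      ∃ w ∈ P, (N ^ j) w = 0 ∧ N w + c • w = v := by
  intro j
  induction j with
  | zero => intro v _ hv; exact ⟨0, zero_mem P, by simp, by simpa [eq_comm] using hv⟩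
  | succ j ih =>
    intro v hv hNv
    rw [pow_succ, Module.End.mul_apply] at hNv
    obtain ⟨w, hw, hw0, hwv⟩ := ih (N v) (hP v hv) hNv
    refine ⟨c⁻¹ • (v - w), P.smul_mem _ (sub_mem hv hw), ?_, ?_⟩
    · rw [pow_succ', Module.End.mul_apply, map_smul, map_sub, hw0, sub_zero, map_smul]
      rw [← Module.End.mul_apply, ← pow_succ', pow_succ, Module.End.mul_apply, hNv, smul_zero]
    · rw [map_smul, map_sub, smul_smul, mul_inv_cancel₀ hc, one_smul]
      rw [show N v - N w = c • w from sub_eq_iff_eq_add'.mpr hwv.symm, smul_smul,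
        inv_mul_cancel₀ hc, one_smul, add_sub_cancel]

section Residual

variable [IsLocalRing R]

/-- Residual hypotheses on the character and the level used for lifting. -/
structure LiftCond (R : Type) [CommRing R] [IsLocalRing R] {L : ℕ} (δ : DirichletCharacter R L) :
    Prop where
  res : ∀ γ ∈ Gamma0 L, residue R (chi δ γ) = 1
  neg : chi δ (-1) = 1
  two : IsUnit (2 : R)
  three : IsUnit (3 : R) ∨ ∀ g : SL(2, ℤ), g * mU * g⁻¹ ∉ Gamma0 L

theorem isUnit_natCast_of_charP {p : ℕ} [CharP (ResidueField R) p] (_hp : p.Prime) {m : ℕ}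
    (hm : ¬ p ∣ m) : IsUnit (m : R) := by
  rw [← residue_ne_zero_iff_isUnit, map_natCast]
  exact fun h => hm ((CharP.cast_eq_zero_iff (ResidueField R) p m).mp h)

theorem liftCond_of_order {p : ℕ} (hp : p.Prime) (hp2 : p ≠ 2) [CharP (ResidueField R) p]
    (δ : DirichletCharacter R L) (hδ : ∀ u : (ZMod L)ˣ, ∃ k, δ u ^ p ^ k = 1)
    (hell : p = 3 → ∃ t, t.Prime ∧ t ∣ L ∧ t % 3 = 2) : LiftCond R δ where
  res γ hγ := by
    have hc : ((γ 1 0 : ℤ) : ZMod L) = 0 := Gamma0_mem.mp hγ
    have hdet := congrArg (Int.cast : ℤ → ZMod L) γ.det_coe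
    rw [Matrix.det_fin_two] at hdet
    push_cast at hdet
    rw [hc, mul_zero, sub_zero] at hdet
    obtain ⟨k, hk⟩ := hδ (Units.mkOfMulEqOne _ _ ((mul_comm _ _).trans hdet))
    rw [Units.val_mkOfMulEqOne] at hk
    have : Fact p.Prime := ⟨hp⟩
    have h1 : residue R (chi δ γ) ^ p ^ k = 1 := by rw [← map_pow, chi, hk, map_one]
    have h2 : (residue R (chi δ γ) - 1) ^ p ^ k = 0 := by
      rw [sub_pow_char_pow, h1, one_pow, sub_self]
    exact sub_eq_zero.mp (eq_zero_of_pow_eq_zero h2)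
  neg := by
    obtain ⟨k, hk⟩ := hδ (-1)
    have hsq : δ ((-1 : (ZMod L)ˣ) : ZMod L) ^ 2 = 1 := by
      rw [← map_pow, Units.val_neg, Units.val_one, neg_one_sq, map_one]
    obtain ⟨e, he⟩ : Odd (p ^ k) := (hp.odd_of_ne_two hp2).pow
    rw [he, pow_succ, pow_mul, hsq, one_pow, one_mul] at hk
    simpa [chi] using hk
  two := by
    exact_mod_cast isUnit_natCast_of_charP (R := R) hp
      (m := 2) fun h => hp2 ((Nat.prime_dvd_prime_iff_eq hp Nat.prime_two).mp h)
  three := by
    by_cases h3 : p = 3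
    · obtain ⟨t, ht, htL, ht3⟩ := hell h3
      exact Or.inr (mU_conj_not_mem ht htL ht3)
    · left
      exact_mod_cast isUnit_natCast_of_charP (R := R) hp
        (m := 3) fun h => h3 ((Nat.prime_dvd_prime_iff_eq hp Nat.prime_three).mp h)

variable [IsNoetherianRing R] [IsAdicComplete (maximalIdeal R) R] [Finite (ResidueField R)]
  [NeZero L]

/-- A residual eigenvector lifts. -/
theorem exists_eigenPart_lift (hcond : LiftCond R δ) {S : Finset ℕ}
    (hS : ∀ q, q.Prime → q ∣ L → q ∈ S) (a : ℕ → R)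
    {ℓ₀ : ℕ} (hℓ₀ : ℓ₀.Prime) (hℓ₀S : ℓ₀ ∉ S) (hℓ₀1 : (ℓ₀ : ZMod L) = 1) (hℓ₀u : IsUnit (ℓ₀ : R))
    (hne : residue R (a ℓ₀) ≠ residue R (1 + (ℓ₀ : R))) {Φ : Cusp → Cusp → ResidueField R}
    (hΦ : Φ ∈ eigenPart (ResidueField R) (δ.ringHomComp (residue R)) S (residue R ∘ a)) :
    ∃ Ψ ∈ eigenPart R δ S a, mapVal (residue R) Ψ = Φ := by
  classical
  obtain ⟨hΦ1, hΦ2⟩ := (mem_eigenPart_iff hS).mp hΦ
  have hL₀ : ¬ ℓ₀ ∣ L := fun h => hℓ₀S (hS ℓ₀ hℓ₀ h)
  set δk := δ.ringHomComp (residue R)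
  set N := shiftOp (ResidueField R) δk ℓ₀ (residue R (a ℓ₀))
  obtain ⟨j, hj⟩ := hΦ2 ℓ₀ hℓ₀ hℓ₀S 1
  rw [mem_maximalIdeal_smul_iff_of_field one_ne_zero] at hj
  set c : ResidueField R := residue R (a ℓ₀) - (1 + (ℓ₀ : ResidueField R))
  have hc : c ≠ 0 := sub_ne_zero.mpr (by simpa using hne)
  have hP : ∀ v ∈ SymbChar (ResidueField R) δk, N v ∈ SymbChar (ResidueField R) δk := fun v hv =>
    shiftOp_mem hℓ₀ hL₀ _ hv
  obtain ⟨w, hw, hw0, hwΦ⟩ := exists_preimage_add_smul N _ hP hc j Φ hΦ1 hj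
  obtain ⟨w', hw', -, hww⟩ := exists_preimage_add_smul N _ hP hc j w hw hw0
  obtain ⟨Ψ, hΨ, hΨr⟩ :=
    exists_symb_lift hcond.res hcond.neg hcond.two hcond.three hℓ₀ hL₀ hℓ₀1 hℓ₀u hw'
  have heis : ∀ v, eisOp (ResidueField R) δk ℓ₀ v = N v + c • v := fun v => by
    simp only [N, c, eisOp, shiftOp_apply, LinearMap.sub_apply, LinearMap.smul_apply,
      LinearMap.id_apply, sub_smul]
    abel
  rw [heis (eisOp _ _ _ _), heis, hww, hwΦ] at hΨr
  -- project to the topologically nilpotent part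
  have := finite_symbChar (R := R) δ
  let ι := {ℓ : ℕ // ℓ.Prime ∧ ℓ ∉ S}
  have hLi : ∀ i : ι, ¬ i.1 ∣ L := fun i h => i.2.2 (hS i.1 i.2.1 h)
  let u : ι → Module.End R (SymbChar R δ) := fun i => tEnd δ i.2.1 (hLi i) - a i.1 • 1
  have hu : ∀ i k, Commute (u i) (u k) := fun i k => by
    have hc := LinearMap.congr_fun (commute_tEnd (δ := δ) i.2.1 (hLi i) k.2.1 (hLi k)).eq
    refine LinearMap.ext fun v => ?_
    show tEnd δ i.2.1 (hLi i) (tEnd δ k.2.1 (hLi k) v - a k.1 • v) -
        a i.1 • (tEnd δ k.2.1 (hLi k) v - a k.1 • v) =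
      tEnd δ k.2.1 (hLi k) (tEnd δ i.2.1 (hLi i) v - a i.1 • v) -
        a k.1 • (tEnd δ i.2.1 (hLi i) v - a i.1 • v)
    simp only [Module.End.mul_apply] at hc
    rw [map_sub, map_sub, map_smul, map_smul, hc v, smul_sub, smul_sub, smul_comm (a i.1) (a k.1)]
    abel
  have hcoe : ∀ (i : ι) (v : SymbChar R δ) (n : ℕ), (((u i ^ n) v : SymbChar R δ) : Cusp → Cusp → R)
      = (shiftOp R δ i.1 (a i.1) ^ n) v := by
    intro i v n
    induction n with
    | zero => simp
    | succ n ih =>
      rw [pow_succ', Module.End.mul_apply, pow_succ', Module.End.mul_apply, ← ih]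
      rfl
  let N₀ : Submodule R (SymbChar R δ) :=
    { carrier := {v | mapVal (residue R) (v : Cusp → Cusp → R) = 0}
      zero_mem' := mapVal_zero _
      add_mem' := fun {v w} hv hw => by
        show mapVal _ ((v : Cusp → Cusp → R) + (w : Cusp → Cusp → R)) = 0
        rw [mapVal_add, hv, hw, add_zero]
      smul_mem' := fun r v hv => by
        show mapVal _ (r • (v : Cusp → Cusp → R)) = 0
        rw [mapVal_smul, hv, smul_zero] }
  have hN : ∀ i, ∀ z ∈ N₀, u i z ∈ N₀ := fun i z hz => by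
    show mapVal (residue R) (shiftOp R δ i.1 (a i.1) (z : Cusp → Cusp → R)) = 0
    rw [mapVal_shiftOp, hz, map_zero]
  have hmN : (maximalIdeal R • ⊤ : Submodule R (SymbChar R δ)) ≤ N₀ :=
    Submodule.smul_le.mpr fun r hr v _ => by
      show mapVal (residue R) (r • (v : Cusp → Cusp → R)) = 0
      rw [mapVal_smul, (residue_eq_zero_iff r).mpr hr, zero_smul]
  obtain ⟨y, hy, hynil⟩ := exists_forall_topNilpotent u hu N₀ hN hmN ⟨Ψ, hΨ⟩ fun i => by
    obtain ⟨n, hn⟩ := hΦ2 i.1 i.2.1 i.2.2 1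
    rw [mem_maximalIdeal_smul_iff_of_field one_ne_zero] at hn
    refine ⟨n, ?_⟩
    show mapVal (residue R) _ = 0
    rw [hcoe, mapVal_pow_shiftOp, hΨr]
    exact hn
  refine ⟨y, (mem_eigenPart_iff hS).mpr ⟨y.2, fun ℓ hℓ hℓS n => ?_⟩, ?_⟩
  · obtain ⟨m, hm⟩ := hynil ⟨ℓ, hℓ, hℓS⟩ n
    refine ⟨m, ?_⟩
    rw [← hcoe ⟨ℓ, hℓ, hℓS⟩ y m]
    have h := Submodule.mem_map_of_mem (f := (SymbChar R δ).subtype) hm
    rwa [Submodule.map_smul'', Submodule.map_top, Submodule.range_subtype] at h
  · have h : mapVal (residue R) (Ψ - (y : Cusp → Cusp → R)) = 0 := hy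
    rw [mapVal_sub, sub_eq_zero] at h
    rw [← h, hΨr]

end Residual

section Span

variable [IsLocalRing R] [IsNoetherianRing R]

omit [IsNoetherianRing R] in
/-- An element of `𝔪 ^ n` killed by all residual functionals lies in `𝔪 ^ (n + 1)`. -/
theorem exists_separating (n : ℕ) :
    ∃ (W : Type) (_ : AddCommGroup W) (_ : Module (ResidueField R) W)
      (q : (↥(maximalIdeal R ^ n)) →+ W),
      (∀ (r : R) (x : ↥(maximalIdeal R ^ n)), q (r • x) = residue R r • q x) ∧
      ∀ x, q x = 0 ↔ (x : R) ∈ maximalIdeal R ^ (n + 1) := by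
  set P := ↥(maximalIdeal R ^ n)
  let Q : Submodule R P := maximalIdeal R • ⊤
  refine ⟨P ⧸ Q, inferInstance, (inferInstance : Module (R ⧸ maximalIdeal R) (P ⧸ Q)),
    Q.mkQ.toAddMonoidHom, fun r x => rfl, fun x => ?_⟩
  refine (Submodule.Quotient.mk_eq_zero Q).trans ?_
  rw [pow_succ']
  constructor
  · intro hx
    have h := Submodule.mem_map_of_mem (f := (maximalIdeal R ^ n).subtype) hx
    rwa [Submodule.map_smul'', Submodule.map_top, Submodule.range_subtype] at h
  · intro hx
    have h : (x : R) ∈ Q.map (maximalIdeal R ^ n).subtype := by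
      rw [Submodule.map_smul'', Submodule.map_top, Submodule.range_subtype]
      exact hx
    obtain ⟨y, hy, hyx⟩ := Submodule.mem_map.mp h
    rwa [← Subtype.ext hyx]

variable [NeZero L] {S : Finset ℕ} (hS : ∀ q, q.Prime → q ∣ L → q ∈ S) {a : ℕ → R}
  {d : ℕ} {b : Fin d → Cusp → Cusp → R}
  (hb : ∀ i, b i ∈ eigenPart R δ S a)
  (hli : LinearIndependent (ResidueField R) fun i => mapVal (residue R) (b i))
  (hspan : eigenPart (ResidueField R) (δ.ringHomComp (residue R)) S (residue R ∘ a) ≤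
    Submodule.span (ResidueField R) (Set.range fun i => mapVal (residue R) (b i)))

include hli in
/-- Lifts of residually independent symbols are independent. -/
theorem linearIndependent_of_residual : LinearIndependent R b := by
  rw [Fintype.linearIndependent_iff]
  intro c hc i
  suffices h : ∀ n, ∀ i, c i ∈ maximalIdeal R ^ n by
    have h' : c i ∈ ⨅ n, maximalIdeal R ^ n := Submodule.mem_iInf _ |>.mpr fun n => h n i
    rwa [Ideal.iInf_pow_eq_bot_of_isLocalRing _ (maximalIdeal.isMaximal R).ne_top,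
      Submodule.mem_bot] at h'
  intro n
  induction n with
  | zero => intro i; simp
  | succ n ih =>
    intro i
    obtain ⟨W, _, _, q, hq, hq0⟩ := exists_separating (R := R) n
    refine (hq0 ⟨c i, ih i⟩).mp ((Module.forall_dual_apply_eq_zero_iff (ResidueField R) _).mp
      fun lam => ?_)
    refine Fintype.linearIndependent_iff.mp hli (fun k => lam (q ⟨c k, ih k⟩)) ?_ i
    funext x y
    have h1 : ∑ k, b k x y • (⟨c k, ih k⟩ : ↥(maximalIdeal R ^ n)) = 0 := by
      refine Subtype.ext ?_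
      have := congrFun (congrFun hc x) y
      simpa [Finset.sum_apply, mul_comm] using this
    have h2 := congrArg (fun z => lam (q z)) h1
    simp only [map_sum, hq, map_smul, map_zero] at h2
    simpa [Finset.sum_apply, mapVal, mul_comm] using h2

include hS hb hli hspan in
/-- Lifts of a residual basis span the eigenpart. -/
theorem eigenPart_le_span : eigenPart R δ S a ≤ Submodule.span R (Set.range b) := by
  classical
  have hfinP : Fintype (SL(2, ℤ) ⧸ Gamma0 L) := Fintype.ofFinite _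
  set F := Submodule.span R (Set.range b)
  set k := ResidueField R
  have hbS : ∀ i, mapVal (residue R) (b i) ∈ SymbChar k (δ.ringHomComp (residue R)) := fun i =>
    mapVal_mem _ ((mem_eigenPart_iff hS).mp (hb i)).1
  -- a left inverse on coordinates
  set f : (Fin d → k) →ₗ[k] ((SL(2, ℤ) ⧸ Gamma0 L) → k) :=
    (coords k L).comp (Fintype.linearCombination k fun i => mapVal (residue R) (b i))
  have hf : LinearMap.ker f = ⊥ := by
    rw [LinearMap.ker_eq_bot']
    intro g hg
    have hmem : Fintype.linearCombination k (fun i => mapVal (residue R) (b i)) g ∈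
        SymbChar k (δ.ringHomComp (residue R)) := by
      rw [Fintype.linearCombination_apply]
      exact Submodule.sum_mem _ fun i _ => Submodule.smul_mem _ _ (hbS i)
    have h0 := eq_zero_of_coords hmem hg
    rw [Fintype.linearCombination_apply] at h0
    exact funext (Fintype.linearIndependent_iff.mp hli g h0)
  obtain ⟨M, hM⟩ := f.exists_leftInverse_of_injective hf
  choose Mr hMr using fun (i : Fin d) (c : SL(2, ℤ) ⧸ Gamma0 L) =>
    residue_surjective (R := R) (M (Pi.single c 1) i)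
  intro Φ hΦ
  have step : ∀ n, ∃ G ∈ F, ∀ x y, (Φ - G) x y ∈ maximalIdeal R ^ n := by
    intro n
    induction n with
    | zero => exact ⟨0, F.zero_mem, fun x y => by simp⟩
    | succ n ih =>
      obtain ⟨G, hG, hGv⟩ := ih
      set Ψ := Φ - G
      have hΨ : Ψ ∈ eigenPart R δ S a :=
        sub_mem hΦ (Submodule.span_le.mpr (by rintro _ ⟨i, rfl⟩; exact hb i) hG)
      obtain ⟨hΨ1, hΨ2⟩ := (mem_eigenPart_iff hS).mp hΨ
      set ci : Fin d → R := fun i => ∑ c, Mr i c * coords R L Ψ c
      have hci : ∀ i, ci i ∈ maximalIdeal R ^ n := fun i =>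
        Submodule.sum_mem _ fun c _ => Ideal.mul_mem_left _ _ (hGv _ _)
      refine ⟨G + ∑ i, ci i • b i,
        add_mem hG (Submodule.sum_mem _ fun i _ => F.smul_mem _ (Submodule.subset_span ⟨i, rfl⟩)),
        fun x y => ?_⟩
      have he : (Φ - (G + ∑ i, ci i • b i)) x y = Ψ x y - ∑ i, ci i * b i x y := by
        simp only [Ψ, Pi.sub_apply, Pi.add_apply, Finset.sum_apply, Pi.smul_apply, smul_eq_mul]
        ring
      rw [he]
      obtain ⟨W, _, _, q, hq, hq0⟩ := exists_separating (R := R) n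
      have hmem : Ψ x y - ∑ i, ci i * b i x y ∈ maximalIdeal R ^ n :=
        sub_mem (hGv x y) (Submodule.sum_mem _ fun i _ => Ideal.mul_mem_right _ _ (hci i))
      refine (hq0 ⟨_, hmem⟩).mp ((Module.forall_dual_apply_eq_zero_iff k _).mp fun lam => ?_)
      -- the residual symbol cut out by `lam`
      let val : ∀ F : Cusp → Cusp → R, (∀ x y, F x y ∈ maximalIdeal R ^ n) → Cusp → Cusp → k :=
        fun F hF u v => lam (q ⟨F u v, hF u v⟩)
      set Ψl := val Ψ hGv
      have hΨl : Ψl ∈ SymbChar k (δ.ringHomComp (residue R)) := by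
        refine ⟨fun u v w => ?_, fun γ hγ u v => ?_⟩
        · simp only [Ψl, val, ← map_add]
          exact congrArg (fun z => lam (q z)) (Subtype.ext (hΨ1.1 u v w))
        · simp only [Ψl, val]
          rw [MulChar.ringHomComp_apply, ← smul_eq_mul, ← map_smul lam, ← hq]
          exact congrArg (fun z => lam (q z)) (Subtype.ext (hΨ1.2 γ hγ u v))
      have hlamT : ∀ (ℓ : ℕ) (c : R) (j : ℕ) (F : Cusp → Cusp → R)
          (hF : ∀ x y, F x y ∈ maximalIdeal R ^ n),
          ∃ hF' : ∀ x y, (shiftOp R δ ℓ c ^ j) F x y ∈ maximalIdeal R ^ n,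
            (shiftOp k (δ.ringHomComp (residue R)) ℓ (residue R c) ^ j) (val F hF) =
              val ((shiftOp R δ ℓ c ^ j) F) hF' := by
        intro ℓ c j
        induction j with
        | zero => intro F hF; exact ⟨hF, rfl⟩
        | succ j ih =>
          intro F hF
          simp only [pow_succ, Module.End.mul_apply]
          have hex : ∀ x y, shiftOp R δ ℓ c F x y ∈ maximalIdeal R ^ n := by
            intro x y
            simp only [shiftOp_apply, tOpChar, LinearMap.add_apply, LinearMap.smul_apply,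
              LinearMap.sum_apply, Pi.sub_apply, Pi.add_apply, Pi.smul_apply, Finset.sum_apply,
              pull_apply, smul_eq_mul]
            exact sub_mem (add_mem (Ideal.mul_mem_left _ _ (hF _ _))
              (Submodule.sum_mem _ fun _ _ => hF _ _)) (Ideal.mul_mem_left _ _ (hF _ _))
          have hstep : shiftOp k (δ.ringHomComp (residue R)) ℓ (residue R c) (val F hF) =
              val (shiftOp R δ ℓ c F) hex := by
            funext u v
            simp only [val, shiftOp_apply, tOpChar, LinearMap.add_apply, LinearMap.smul_apply,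
              LinearMap.sum_apply, Pi.sub_apply, Pi.add_apply, Pi.smul_apply, Finset.sum_apply,
              pull_apply, MulChar.ringHomComp_apply]
            rw [← map_smul lam, ← map_smul lam, ← hq, ← hq, ← map_sum lam, ← map_sum q,
              ← map_add lam, ← map_add q, ← map_sub lam, ← map_sub q]
            refine congrArg (fun z => lam (q z)) (Subtype.ext ?_)
            simp
          rw [hstep]
          exact ih _ hex
      have hΨle : Ψl ∈ eigenPart k (δ.ringHomComp (residue R)) S (residue R ∘ a) := by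
        refine (mem_eigenPart_iff hS).mpr ⟨hΨl, fun ℓ hℓ hℓS m => ?_⟩
        obtain ⟨j, hj⟩ := hΨ2 ℓ hℓ hℓS (n + 1)
        refine ⟨j, ?_⟩
        obtain ⟨hF', he'⟩ := hlamT ℓ (a ℓ) j Ψ hGv
        rw [Function.comp_apply, he']
        convert Submodule.zero_mem (maximalIdeal k ^ m • SymbChar k (δ.ringHomComp (residue R)))
        funext u v
        simp only [val, Pi.zero_apply]
        rw [(hq0 ⟨_, hF' u v⟩).mpr (apply_mem_of_mem_smul hj u v), map_zero]
      obtain ⟨μ, hμ⟩ := (Submodule.mem_span_range_iff_exists_fun k).mp (hspan hΨle)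
      have hcl : ∀ i, lam (q ⟨ci i, hci i⟩) = μ i := by
        intro i
        have hcoords : f μ = coords k L Ψl := by
          rw [← hμ]; simp [f, Fintype.linearCombination_apply]
        have hMf : M (coords k L Ψl) = μ := by
          rw [← hcoords]; exact LinearMap.congr_fun hM μ
        rw [← hMf]
        have hdec : M (coords k L Ψl) i = ∑ c, coords k L Ψl c * M (Pi.single c 1) i := by
          conv_lhs => rw [pi_eq_sum_univ' (coords k L Ψl)]
          simp only [map_sum, map_smul, Finset.sum_apply, Pi.smul_apply, smul_eq_mul]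
        rw [hdec]
        have hci' : (⟨ci i, hci i⟩ : ↥(maximalIdeal R ^ n)) =
            ∑ c, Mr i c • ⟨coords R L Ψ c, hGv _ _⟩ := by
          refine Subtype.ext ?_
          simp [ci]
        rw [hci', map_sum, map_sum]
        refine Finset.sum_congr rfl fun c _ => ?_
        rw [hq, map_smul, smul_eq_mul, hMr, mul_comm]
        rfl
      have hz : (⟨Ψ x y - ∑ i, ci i * b i x y, hmem⟩ : ↥(maximalIdeal R ^ n)) =
          ⟨Ψ x y, hGv x y⟩ - ∑ i, b i x y • ⟨ci i, hci i⟩ := by
        refine Subtype.ext ?_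
        simp [mul_comm]
      rw [hz, map_sub, map_sub, map_sum, map_sum, sub_eq_zero]
      have hval := congrFun (congrFun hμ x) y
      simp only [Finset.sum_apply, Pi.smul_apply, smul_eq_mul, mapVal] at hval
      simp only [hq, map_smul, hcl, smul_eq_mul]
      refine hval.symm.trans ?_
      exact Finset.sum_congr rfl fun i _ => mul_comm _ _
  -- Krull
  set C := coords R L
  have hcF : C Φ ∈ F.map C := by
    rw [← Submodule.Quotient.mk_eq_zero]
    set M' := ((SL(2, ℤ) ⧸ Gamma0 L) → R) ⧸ F.map C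
    have h : ∀ n, (Submodule.Quotient.mk (C Φ) : M') ∈
        (maximalIdeal R ^ n • ⊤ : Submodule R M') := by
      intro n
      obtain ⟨G, hG, hv⟩ := step n
      have hm : C (Φ - G) ∈
          (maximalIdeal R ^ n • ⊤ : Submodule R ((SL(2, ℤ) ⧸ Gamma0 L) → R)) := by
        rw [pi_eq_sum_univ' (C (Φ - G))]
        exact Submodule.sum_mem _ fun c _ => Submodule.smul_mem_smul (hv _ _) Submodule.mem_top
      have hm' := Submodule.mem_map_of_mem (f := (F.map C).mkQ) hm
      rw [Submodule.map_smul''] at hm'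
      refine Submodule.smul_mono le_rfl
        (le_top : (⊤ : Submodule R ((SL(2, ℤ) ⧸ Gamma0 L) → R)).map (F.map C).mkQ ≤ ⊤) ?_
      convert hm' using 1
      simp only [Submodule.mkQ_apply, map_sub]
      rw [(Submodule.Quotient.mk_eq_zero (F.map C)).mpr (Submodule.mem_map_of_mem hG), sub_zero]
    exact (IsHausdorff.eq_iff_smodEq (I := maximalIdeal R)).mpr fun n =>
      SModEq.sub_mem.mpr (by rw [sub_zero]; exact h n)
  obtain ⟨G, hG, hGc⟩ := Submodule.mem_map.mp hcF
  have hsub : Φ - G ∈ eigenPart R δ S a :=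
    sub_mem hΦ (Submodule.span_le.mpr (by rintro _ ⟨i, rfl⟩; exact hb i) hG)
  have := eq_zero_of_coords ((mem_eigenPart_iff hS).mp hsub).1
    (show C (Φ - G) = 0 by rw [map_sub, hGc, sub_self])
  rwa [sub_eq_zero.mp this]

end Span

open IsLocalRing in
/-- The non-Eisenstein part of the symbols is free and commutes with surjective base change. -/
theorem eigenPart_free_baseChange (p : ℕ) [Fact p.Prime] (hp2 : p ≠ 2) {R : Type} [CommRing R]
    [IsLocalRing R] [IsNoetherianRing R] [IsAdicComplete (maximalIdeal R) R]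
    [Finite (ResidueField R)] [CharP (ResidueField R) p] {L : ℕ} [NeZero L]
    (δ : DirichletCharacter R L) (hδ : ∀ u : (ZMod L)ˣ, ∃ k, δ u ^ p ^ k = 1)
    (hell : p = 3 → ∃ t, t.Prime ∧ t ∣ L ∧ t % 3 = 2)
    (S : Finset ℕ) (hS : ∀ q, q.Prime → q ∣ L * p → q ∈ S) (a : ℕ → R)
    (hne : ∃ ℓ, ℓ.Prime ∧ ℓ ∉ S ∧ ℓ % L = 1 % L ∧ residue R (a ℓ) ≠ residue R (1 + ℓ)) :
    Module.Finite R (eigenPart R δ S a) ∧ Module.Free R (eigenPart R δ S a) ∧
    ∀ (R' : Type) [CommRing R'] [IsLocalRing R'] (φ : R →+* R'), Function.Surjective φ →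
      (∀ Φ' ∈ eigenPart R' (δ.ringHomComp φ) S (φ ∘ a),
        ∃ Φ ∈ eigenPart R δ S a, (fun x y => φ (Φ x y)) = Φ') ∧
      ∀ Φ ∈ eigenPart R δ S a, (∀ x y, φ (Φ x y) = 0) →
        Φ ∈ RingHom.ker φ • eigenPart R δ S a := by
  classical
  obtain ⟨ℓ₀, hℓ₀, hℓ₀S, hmod, hne⟩ := hne
  have hp : p.Prime := Fact.out
  have hSL : ∀ q, q.Prime → q ∣ L → q ∈ S := fun q hq h => hS q hq (h.mul_right p)
  have hℓ₀1 : (ℓ₀ : ZMod L) = 1 := by
    have h := (ZMod.natCast_eq_natCast_iff' ℓ₀ 1 L).mpr hmod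
    simpa using h
  have hℓ₀u : IsUnit (ℓ₀ : R) := isUnit_natCast_of_charP hp fun h =>
    hℓ₀S (hS ℓ₀ hℓ₀ (((Nat.prime_dvd_prime_iff_eq hp hℓ₀).mp h) ▸ dvd_mul_left p L))
  have hcond := liftCond_of_order hp hp2 δ hδ hell
  set k := ResidueField R
  set Vb := eigenPart k (δ.ringHomComp (residue R)) S (residue R ∘ a)
  have := finite_symbChar (R := k) (δ.ringHomComp (residue R))
  have : Module.Finite k Vb := Module.Finite.of_injective
    (Submodule.inclusion (fun v hv => ((mem_eigenPart_iff hSL).mp hv).1 :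
      Vb ≤ SymbChar k (δ.ringHomComp (residue R)))) (Submodule.inclusion_injective _)
  set bb := Module.finBasis k Vb
  choose b hb hbr using fun i => exists_eigenPart_lift hcond hSL a hℓ₀ hℓ₀S hℓ₀1 hℓ₀u hne (bb i).2
  have hres : (fun i => mapVal (residue R) (b i)) = fun i => (bb i : Cusp → Cusp → k) := funext hbr
  have hli : LinearIndependent k fun i => mapVal (residue R) (b i) := by
    rw [hres]; exact bb.linearIndependent.map' Vb.subtype (Submodule.ker_subtype _)
  have hspan : Vb ≤ Submodule.span k (Set.range fun i => mapVal (residue R) (b i)) := by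
    rw [hres]
    intro v hv
    have h := congrArg Vb.subtype (bb.sum_repr ⟨v, hv⟩)
    simp only [map_sum, map_smul, Submodule.subtype_apply] at h
    rw [← h]
    exact Submodule.sum_mem _ fun i _ => Submodule.smul_mem _ _ (Submodule.subset_span ⟨i, rfl⟩)
  have hlR : LinearIndependent R b := linearIndependent_of_residual hli
  have heq : eigenPart R δ S a = Submodule.span R (Set.range b) :=
    le_antisymm (eigenPart_le_span hSL hb hli hspan)
      (Submodule.span_le.mpr (by rintro _ ⟨i, rfl⟩; exact hb i))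
  refine ⟨?_, ?_, fun R' _ _ φ hφ => ?_⟩
  · rw [heq]; exact Module.Finite.span_of_finite R (Set.finite_range b)
  · rw [heq]; exact Module.Free.of_basis (Module.Basis.span hlR)
  -- the same description over `R'`
  have : IsNoetherianRing R' := isNoetherianRing_of_surjective R R' φ hφ
  have : IsLocalHom φ := hφ.isLocalHom φ
  set ι := ResidueField.map φ
  set k' := ResidueField R'
  have hcomm : (residue R').comp φ = ι.comp (residue R) := RingHom.ext fun _ => rfl
  have hδ' : (δ.ringHomComp φ).ringHomComp (residue R') =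
      (δ.ringHomComp (residue R)).ringHomComp ι := by
    ext u; rfl
  have hι : Function.Bijective ι := ⟨RingHom.injective _, fun z => by
    obtain ⟨r', rfl⟩ := residue_surjective z
    obtain ⟨r, rfl⟩ := hφ r'
    exact ⟨residue R r, rfl⟩⟩
  set e := RingEquiv.ofBijective ι hι
  set b' := fun i => mapVal φ (b i)
  have hb' : ∀ i, b' i ∈ eigenPart R' (δ.ringHomComp φ) S (φ ∘ a) := fun i =>
    mapVal_mem_eigenPart φ hφ hSL (hb i)
  have hb'res : (fun i => mapVal (residue R') (b' i)) =
      fun i => mapVal ι (mapVal (residue R) (b i)) := rfl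
  have hli' : LinearIndependent k' fun i => mapVal (residue R') (b' i) := by
    rw [hb'res, Fintype.linearIndependent_iff]
    intro g hg i
    have h := Fintype.linearIndependent_iff.mp hli (fun i => e.symm (g i)) ?_ i
    · simpa using h
    funext x y
    have hsymm : ∀ z, e.symm (ι z) = z := e.symm_apply_apply
    have h0 := congrArg e.symm (congrFun (congrFun hg x) y)
    simpa [Finset.sum_apply, mapVal, hsymm] using h0
  have hspan' : eigenPart k' ((δ.ringHomComp φ).ringHomComp (residue R')) S (residue R' ∘ φ ∘ a)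
      ≤ Submodule.span k' (Set.range fun i => mapVal (residue R') (b' i)) := by
    intro v hv
    have hback : ((δ.ringHomComp φ).ringHomComp (residue R')).ringHomComp e.symm.toRingHom =
        δ.ringHomComp (residue R) := by
      ext u
      exact e.symm_apply_apply (residue R (δ u))
    have ha' : e.symm.toRingHom ∘ (residue R' ∘ φ ∘ a) = residue R ∘ a :=
      funext fun ℓ => e.symm_apply_apply (residue R (a ℓ))
    have hv' := mapVal_mem_eigenPart e.symm.toRingHom e.symm.surjective hSL hv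
    rw [hback, ha'] at hv'
    obtain ⟨μ, hμ⟩ := (Submodule.mem_span_range_iff_exists_fun k).mp (hspan hv')
    refine (Submodule.mem_span_range_iff_exists_fun k').mpr ⟨fun i => ι (μ i), ?_⟩
    funext x y
    have h := congrArg ι (congrFun (congrFun hμ x) y)
    simp only [Finset.sum_apply, Pi.smul_apply, smul_eq_mul, mapVal, map_sum, map_mul] at h ⊢
    refine h.trans ?_
    exact e.apply_symm_apply (v x y)
  refine ⟨fun Φ' hΦ' => ?_, fun Φ hΦ h0 => ?_⟩
  · obtain ⟨c, hc⟩ := (Submodule.mem_span_range_iff_exists_fun R').mp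
      (eigenPart_le_span (R := R') hSL hb' hli' hspan' hΦ')
    refine ⟨∑ i, Function.surjInv hφ (c i) • b i,
      Submodule.sum_mem _ fun i _ => Submodule.smul_mem _ _ (hb i), ?_⟩
    rw [← hc]
    funext x y
    simp [Finset.sum_apply, b', mapVal, Function.surjInv_eq hφ]
  · obtain ⟨c, hc⟩ := (Submodule.mem_span_range_iff_exists_fun R).mp (heq ▸ hΦ)
    rw [← hc]
    refine Submodule.sum_mem _ fun i _ => Submodule.smul_mem_smul ?_ (hb i)
    rw [RingHom.mem_ker]
    refine Fintype.linearIndependent_iff.mp (linearIndependent_of_residual (R := R') (b := b') hli')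
      (fun i => φ (c i)) ?_ i
    funext x y
    have h := h0 x y
    rw [← hc] at h
    simpa [Finset.sum_apply, b', mapVal] using h

end FLTAgent.ModularityLifting
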