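import Fermat.Agent.ModularityLifting.Points.UChar
import Mathlib.NumberTheory.JacobiSum.Basic

/-!
# Twisting modular symbols with character

`twistOp_spec_gen`: twisting by `χ` modulo `t` with `χ² ≠ 1` maps symbols of level `M t` and
character `δ' χ²` to symbols of level `M t²` and character `δ'`, commutes with the good `T_ℓ` up to
the values of `χ`, and kills no nonzero eigensymbol of `U_t`.
-/

set_option autoImplicit false

noncomputable section

namespace FLTAgent.ModularityLifting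

open FLTAgent.LevelRaising CongruenceSubgroup Matrix
open scoped MatrixGroups

variable {R : Type} [CommRing R]

theorem changeLevel_intCast {n m : ℕ} (h : n ∣ m) (χ : DirichletCharacter R n) (d : ℤ)
    (hd : IsUnit (d : ZMod m)) :
    DirichletCharacter.changeLevel h χ (d : ZMod m) = χ (d : ZMod n) := by
  obtain ⟨u, hu⟩ := hd
  rw [← hu, DirichletCharacter.changeLevel_eq_cast_of_dvd χ h u, hu]
  congr 1
  simp [ZMod.cast_intCast h]

theorem isUnit_lowerRight {L : ℕ} {γ : SL(2, ℤ)} (hγ : γ ∈ Gamma0 L) :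
    IsUnit ((γ 1 1 : ℤ) : ZMod L) := by
  have hc : ((γ 1 0 : ℤ) : ZMod L) = 0 := Gamma0_mem.mp hγ
  have hdet := congrArg (Int.cast : ℤ → ZMod L) γ.det_coe
  rw [Matrix.det_fin_two] at hdet
  push_cast at hdet
  rw [hc, mul_zero, sub_zero] at hdet
  exact IsUnit.of_mul_eq_one _ ((mul_comm _ _).trans hdet)

/-- The translation matrix `[[t, v], [0, t]]`. -/
def twMat (t : ℕ) (v : ℤ) : M2 := !![(t : ℤ), v; 0, (t : ℤ)]

theorem det_twMat_ne_zero {t : ℕ} (ht : t ≠ 0) (v : ℤ) : (twMat t v).det ≠ 0 := by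
  simp [twMat, Matrix.det_fin_two_of, ht]

theorem twistOp_apply {t : ℕ} (χ : DirichletCharacter R t) (Φ : Cusp → Cusp → R) :
    twistOp R χ Φ = ∑ u : Fin t, χ (u : ZMod t) • pull R (ofMat (twMat t ((u : ℕ) : ℤ))) Φ := by
  simp [twistOp, twMat]

section Twist

variable {M t : ℕ} (ht : t.Prime) (hM : ¬ t ∣ M) (χ : DirichletCharacter R t)
  (δ' : DirichletCharacter R M)

/-- The character of a form to be twisted. -/
abbrev twistChar : DirichletCharacter R (M * t) :=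
  DirichletCharacter.changeLevel (dvd_mul_right M t) δ' *
    DirichletCharacter.changeLevel (dvd_mul_left t M) (χ ^ 2)

theorem twistChar_intCast {d : ℤ} (hd : IsUnit (d : ZMod (M * t))) :
    twistChar χ δ' (d : ZMod (M * t)) = δ' (d : ZMod M) * χ (d : ZMod t) ^ 2 := by
  rw [MulChar.mul_apply, changeLevel_intCast _ _ _ hd, changeLevel_intCast _ _ _ hd,
    MulChar.pow_apply' χ two_ne_zero]

/-- Translation is periodic. -/
theorem pull_twMat_congr (ht0 : t ≠ 0) {Φ : Cusp → Cusp → R}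
    (hΦ : Φ ∈ SymbChar R (twistChar χ δ')) {v w : ℤ} (h : (t : ℤ) ∣ v - w) :
    pull R (ofMat (twMat t v)) Φ = pull R (ofMat (twMat t w)) Φ := by
  obtain ⟨k, hk⟩ := h
  have hmem : mT ^ k ∈ Gamma0 (M * t) := by
    rw [mem_Gamma0_iff_dvd]; simp [ModularGroup.coe_T_zpow]
  have he : twMat t v = ((mT ^ k : SL(2, ℤ)) : M2) * twMat t w := by
    rw [ModularGroup.coe_T_zpow]
    ext i j
    fin_cases i <;> fin_cases j <;> simp [twMat, Matrix.mul_apply, Fin.sum_univ_two]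
    linear_combination hk
  rw [he, pull_ofMat_mul (sl_det_ne_zero _) (det_twMat_ne_zero ht0 w), ofMat_coe,
    pull_glQ_char hΦ hmem, map_smul]
  simp [ModularGroup.coe_T_zpow]

include ht in
theorem twistOp_mem {Φ : Cusp → Cusp → R} (hΦ : Φ ∈ SymbChar R (twistChar χ δ')) :
    twistOp R χ Φ ∈ SymbChar R
      (DirichletCharacter.changeLevel (dvd_mul_right M (t ^ 2)) δ') := by
  have : NeZero t := ⟨ht.ne_zero⟩
  refine mem_symbChar_of_pull (fun x y z => ?_) fun γ hγ => ?_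
  · simp only [twistOp_apply, Finset.sum_apply, Pi.smul_apply, pull_apply, smul_eq_mul,
      ← Finset.sum_add_distrib, ← mul_add, hΦ.1]
  · obtain ⟨e, he⟩ := mem_Gamma0_iff_dvd.mp hγ
    push_cast at he
    have hdet := γ.det_coe
    rw [Matrix.det_fin_two] at hdet
    set d := γ 1 1
    have hdu : IsUnit (d : ZMod t) := by
      have h := (isUnit_lowerRight hγ).map (ZMod.castHom (Dvd.intro_left _ (pow_two t).symm |>.trans
        (dvd_mul_left (t ^ 2) M)) (ZMod t))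
      rwa [map_intCast] at h
    have had : ((γ 0 0 : ℤ) : ZMod t) * (d : ZMod t) = 1 := by
      have h := congrArg (Int.cast : ℤ → ZMod t) hdet
      push_cast at h
      rw [he] at h
      push_cast at h
      linear_combination h + ((γ 0 1 : ℤ) : ZMod t) * (M : ZMod t) * (e : ZMod t) * (t : ZMod t) *
        (ZMod.natCast_self t)
    let σ : Fin t → Fin t := fun u =>
      ⟨((u : ℕ) * (d : ZMod t) * (d : ZMod t)).val, ZMod.val_lt _⟩
    have hσc : ∀ u : Fin t,
        (((σ u : Fin t) : ℕ) : ZMod t) = (u : ℕ) * (d : ZMod t) * (d : ZMod t) :=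
      fun u => ZMod.natCast_zmod_val _
    have hσ : Function.Bijective σ := Finite.injective_iff_bijective.mp fun u v h => by
      have h' := congrArg (fun w : Fin t => ((w : ℕ) : ZMod t)) h
      simp only [hσc] at h'
      have := hdu.mul_right_cancel (hdu.mul_right_cancel h')
      rw [ZMod.natCast_eq_natCast_iff', Nat.mod_eq_of_lt u.isLt, Nat.mod_eq_of_lt v.isLt] at this
      exact Fin.ext this
    have hterm : ∀ u : Fin t,
      pull R (glQ γ) (χ (u : ZMod t) • pull R (ofMat (twMat t ((u : ℕ) : ℤ))) Φ)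
        = δ' (d : ZMod M) •
          (χ (σ u : ZMod t) • pull R (ofMat (twMat t (((σ u : Fin t) : ℕ) : ℤ))) Φ) := by
      intro u
      set u' : ℤ := (((σ u : Fin t) : ℕ) : ℤ) with hu'
      have hu'c : (u' : ZMod t) = (u : ℕ) * (d : ZMod t) * (d : ZMod t) := by
        rw [hu', Int.cast_natCast, hσc]
      obtain ⟨k, hk⟩ : (t : ℤ) ∣ (u : ℕ) * d - u' * γ 0 0 := by
        rw [← ZMod.intCast_zmod_eq_zero_iff_dvd]
        push_cast
        rw [hu'c]
        linear_combination -((u : ℕ) : ZMod t) * (d : ZMod t) * had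
      set g : M2 := !![γ 0 0 + (u : ℕ) * M * t * e, γ 0 1 + k - u' * (u : ℕ) * M * e;
        M * t ^ 2 * e, d - u' * M * t * e]
      have hprod : twMat t (u : ℕ) * (γ : M2) = g * twMat t u' := by
        rw [eq_mul_fin_two]
        simp [g, twMat, Matrix.mul_apply, Fin.sum_univ_two, he]
        refine ⟨by ring, ?_, by ring, by ring⟩
        linear_combination hk
      have hg : g.det = 1 := by
        have h := congrArg Matrix.det hprod
        simp only [Matrix.det_mul, γ.det_coe, twMat, Matrix.det_fin_two_of, mul_zero, sub_zero,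
          mul_one] at h
        exact (mul_right_cancel₀ (mul_ne_zero (Int.natCast_ne_zero.mpr ht.ne_zero)
          (Int.natCast_ne_zero.mpr ht.ne_zero)) (h.symm.trans (one_mul _).symm))
      obtain ⟨γ', hγ', hγ'e⟩ := exists_gamma0_eq (M := M * t) hg (by
        simp [g]; exact ⟨t * e, by ring⟩)
      have hd' : twistChar χ δ' ((γ' 1 1 : ℤ) : ZMod (M * t)) =
          δ' (d : ZMod M) * χ (d : ZMod t) ^ 2 := by
        rw [twistChar_intCast χ δ' (isUnit_lowerRight hγ')]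
        rw [show γ' 1 1 = d - u' * M * t * e by rw [hγ'e]; simp [g]]
        simp
      have hchi : χ (u : ZMod t) * χ (d : ZMod t) ^ 2 = χ (σ u : ZMod t) := by
        rw [pow_two, ← map_mul, ← map_mul, hσc, mul_assoc]
      rw [map_smul, ← ofMat_coe γ,
        ← pull_ofMat_mul (det_twMat_ne_zero ht.ne_zero _) (sl_det_ne_zero γ),
        hprod, ← hγ'e, pull_ofMat_mul (sl_det_ne_zero _) (det_twMat_ne_zero ht.ne_zero _),
        ofMat_coe, pull_glQ_char hΦ hγ', hd', map_smul, smul_smul, smul_smul, ← hchi]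
      congr 1
      ring
    rw [twistOp_apply, map_sum, Finset.sum_congr rfl fun u _ => hterm u, ← Finset.smul_sum,
      changeLevel_intCast _ _ _ (isUnit_lowerRight hγ)]
    congr 1
    exact hσ.sum_comp (fun u : Fin t =>
      χ (u : ZMod t) • pull R (ofMat (twMat t ((u : ℕ) : ℤ))) Φ)

include ht in
/-- Twisting commutes with `U_ℓ` up to the value of the character, for `ℓ ≠ t`. -/
theorem uOp_twistOp {ℓ : ℕ} (hℓ : ℓ.Prime) (hne : ℓ ≠ t) {Φ : Cusp → Cusp → R}
    (hΦ : Φ ∈ SymbChar R (twistChar χ δ')) :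
    uOp R ℓ (twistOp R χ Φ) = χ⁻¹ (ℓ : ZMod t) • twistOp R χ (uOp R ℓ Φ) := by
  have : NeZero t := ⟨ht.ne_zero⟩
  have : NeZero ℓ := ⟨hℓ.ne_zero⟩
  have hℓt : IsUnit (ℓ : ZMod t) := (ZMod.isUnit_iff_coprime ℓ t).mpr
    (hℓ.coprime_iff_not_dvd.mpr fun h => hne ((Nat.prime_dvd_prime_iff_eq hℓ ht).mp h))
  have hinv : ∀ x : ZMod t, χ⁻¹ (ℓ : ZMod t) * χ (x * (ℓ : ZMod t)) = χ x := fun x => by
    rw [map_mul, MulChar.inv_apply_eq_inv]
    rw [mul_left_comm, Ring.inverse_mul_cancel _ (hℓt.map χ), mul_one]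
  -- the reindexing of the others
  have htl : 0 < t * ℓ := Nat.mul_pos ht.pos hℓ.pos
  let σ₁ : Fin t × Fin ℓ → Fin t × Fin ℓ := fun p =>
    (⟨(t * p.2 + p.1 * ℓ) % (t * ℓ) % t, Nat.mod_lt _ ht.pos⟩,
      ⟨(t * p.2 + p.1 * ℓ) % (t * ℓ) / t, Nat.div_lt_of_lt_mul (Nat.mod_lt _ htl)⟩)
  have hσ₁ : Function.Bijective σ₁ := Finite.injective_iff_bijective.mp fun p r h => by
    simp only [σ₁, Prod.mk.injEq, Fin.mk.injEq] at h
    have h1 : (t * p.2 + p.1 * ℓ) % (t * ℓ) = (t * r.2 + r.1 * ℓ) % (t * ℓ) := by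
      rw [← Nat.mod_add_div ((t * p.2 + p.1 * ℓ) % (t * ℓ)) t,
        ← Nat.mod_add_div ((t * r.2 + r.1 * ℓ) % (t * ℓ)) t, h.1, h.2]
    have h2 : Nat.ModEq (t * ℓ) (t * p.2 + p.1 * ℓ) (t * r.2 + r.1 * ℓ) := h1
    have hu : (p.1 : ℕ) = r.1 := by
      have h3 := (ZMod.natCast_eq_natCast_iff _ _ _).mpr (h2.of_dvd (dvd_mul_right t ℓ))
      push_cast at h3
      rw [ZMod.natCast_self, zero_mul, zero_add, zero_mul, zero_add] at h3
      have h4 := hℓt.mul_right_cancel h3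
      rwa [ZMod.natCast_eq_natCast_iff', Nat.mod_eq_of_lt p.1.isLt, Nat.mod_eq_of_lt r.1.isLt] at h4
    have hj : (p.2 : ℕ) = r.2 := by
      rw [hu] at h2
      have h3 := (Nat.ModEq.mul_left_cancel' ht.ne_zero (Nat.ModEq.add_right_cancel' _ h2))
      rwa [Nat.ModEq, Nat.mod_eq_of_lt p.2.isLt, Nat.mod_eq_of_lt r.2.isLt] at h3
    exact Prod.ext (Fin.ext hu) (Fin.ext hj)
  have h1 : ∀ p : Fin t × Fin ℓ,
      pull R (ofMat (twMat t ((p.1 : ℕ) : ℤ) * heckeFam ℓ (some p.2))) Φ =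
        pull R (ofMat (heckeFam ℓ (some (σ₁ p).2) * twMat t (((σ₁ p).1 : ℕ) : ℤ))) Φ ∧
      χ (p.1 : ZMod t) = χ⁻¹ (ℓ : ZMod t) * χ ((σ₁ p).1 : ZMod t) := by
    intro p
    set n := t * (p.2 : ℕ) + p.1 * ℓ with hn
    constructor
    · set k := (n / (t * ℓ) : ℕ) with hk
      have hk' : n % (t * ℓ) % t + t * (n % (t * ℓ) / t) + t * ℓ * k = n := by
        rw [Nat.mod_add_div, Nat.mod_add_div]
      have he : twMat t ((p.1 : ℕ) : ℤ) * heckeFam ℓ (some p.2) =
          ((mT ^ (k : ℤ) : SL(2, ℤ)) : M2) *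
            (heckeFam ℓ (some (σ₁ p).2) * twMat t (((σ₁ p).1 : ℕ) : ℤ)) := by
        rw [ModularGroup.coe_T_zpow]
        have h := congrArg (Nat.cast : ℕ → ℤ) (hk'.trans hn)
        have e1 : (((σ₁ p).1 : ℕ)) = n % (t * ℓ) % t := rfl
        have e2 : (((σ₁ p).2 : ℕ)) = n % (t * ℓ) / t := rfl
        generalize (σ₁ p).1 = r₁ at e1 ⊢
        generalize (σ₁ p).2 = r₂ at e2 ⊢
        rw [← e1, ← e2] at h
        push_cast at h
        ext i j
        fin_cases i <;> fin_cases j <;> simp [twMat, Matrix.mul_apply, Fin.sum_univ_two] <;>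
          first | linear_combination -h | ring1
      have hmem : mT ^ (k : ℤ) ∈ Gamma0 (M * t) := by
        rw [mem_Gamma0_iff_dvd, ModularGroup.coe_T_zpow]; simp
      have hd : (heckeFam ℓ (some (σ₁ p).2) * twMat t (((σ₁ p).1 : ℕ) : ℤ)).det ≠ 0 := by
        rw [Matrix.det_mul]
        exact mul_ne_zero (heckeFam_det_ne_zero hℓ.ne_zero _) (det_twMat_ne_zero ht.ne_zero _)
      rw [he, pull_ofMat_mul (sl_det_ne_zero _) hd, ofMat_coe, pull_glQ_char hΦ hmem, map_smul,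
        ModularGroup.coe_T_zpow]
      simp
    · have hc : ((n % (t * ℓ) % t : ℕ) : ZMod t) = (p.1 : ℕ) * (ℓ : ZMod t) := by
        rw [ZMod.natCast_mod, (ZMod.natCast_eq_natCast_iff _ _ _).mpr
          ((Nat.mod_modEq n (t * ℓ)).of_dvd (dvd_mul_right t ℓ)), hn]
        push_cast
        rw [ZMod.natCast_self, zero_mul, zero_add]
      simp only [σ₁]
      rw [← hn, hc, hinv]
  rw [twistOp_apply, twistOp_apply]
  simp only [uOp, pullFam, LinearMap.sum_apply, map_sum, map_smul, Finset.smul_sum,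
    ← pull_ofMat_mul (det_twMat_ne_zero ht.ne_zero _) (heckeFam_det_ne_zero hℓ.ne_zero _),
    ← pull_ofMat_mul (heckeFam_det_ne_zero hℓ.ne_zero _) (det_twMat_ne_zero ht.ne_zero _),
    smul_smul]
  rw [← Fintype.sum_prod_type', ← Fintype.sum_prod_type']
  refine Fintype.sum_bijective σ₁ hσ₁ _ _ fun p => ?_
  rw [(h1 p).1, (h1 p).2]

include ht in
theorem tOpChar_twistOp {ℓ : ℕ} (hℓ : ℓ.Prime) (hℓMt : ¬ ℓ ∣ M * t) {Φ : Cusp → Cusp → R}
    (hΦ : Φ ∈ SymbChar R (twistChar χ δ')) :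
    tOpChar R (DirichletCharacter.changeLevel (dvd_mul_right M (t ^ 2)) δ') ℓ (twistOp R χ Φ) =
      χ⁻¹ (ℓ : ZMod t) • twistOp R χ (tOpChar R (twistChar χ δ') ℓ Φ) := by
  have : NeZero t := ⟨ht.ne_zero⟩
  have : NeZero ℓ := ⟨hℓ.ne_zero⟩
  have hℓt : IsUnit (ℓ : ZMod t) := (ZMod.isUnit_iff_coprime ℓ t).mpr
    (hℓ.coprime_iff_not_dvd.mpr fun h => hℓMt (h.mul_left M))
  have hℓM : ¬ ℓ ∣ M := fun h => hℓMt (h.mul_right t)
  have hδ2 : DirichletCharacter.changeLevel (dvd_mul_right M (t ^ 2)) δ' (ℓ : ZMod (M * t ^ 2)) =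
      δ' (ℓ : ZMod M) := by
    have h : IsUnit ((ℓ : ℤ) : ZMod (M * t ^ 2)) := by
      rw [Int.cast_natCast, ZMod.isUnit_iff_coprime, hℓ.coprime_iff_not_dvd]
      intro h
      rcases hℓ.dvd_mul.mp h with h1 | h1
      · exact hℓM h1
      · exact hℓMt ((hℓ.dvd_of_dvd_pow h1).mul_left M)
    simpa using changeLevel_intCast (dvd_mul_right M (t ^ 2)) δ' ℓ h
  have hδ1 : twistChar χ δ' (ℓ : ZMod (M * t)) = δ' (ℓ : ZMod M) * χ (ℓ : ZMod t) ^ 2 := by
    have h : IsUnit ((ℓ : ℤ) : ZMod (M * t)) := by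
      rw [Int.cast_natCast, ZMod.isUnit_iff_coprime, hℓ.coprime_iff_not_dvd]; exact hℓMt
    simpa using twistChar_intCast χ δ' h
  have hinv : ∀ x : ZMod t, χ⁻¹ (ℓ : ZMod t) * χ (x * (ℓ : ZMod t)) = χ x := fun x => by
    rw [map_mul, MulChar.inv_apply_eq_inv]
    rw [mul_left_comm, Ring.inverse_mul_cancel _ (hℓt.map χ), mul_one]
  have h0 : ∀ u : ℕ, ∀ v : ℤ, (t : ℤ) ∣ (u : ℤ) - ℓ * v →
      pull R (ofMat (twMat t (u : ℤ) * heckeFam ℓ none)) Φ =
        pull R (ofMat (heckeFam ℓ none * twMat t v)) Φ := by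
    intro u v ⟨k, hk⟩
    have he : twMat t (u : ℤ) * heckeFam ℓ none =
        ((mT ^ k : SL(2, ℤ)) : M2) * (heckeFam ℓ none * twMat t v) := by
      rw [ModularGroup.coe_T_zpow]
      ext i j
      fin_cases i <;> fin_cases j <;> simp [twMat, Matrix.mul_apply, Fin.sum_univ_two] <;>
        first | linear_combination hk | ring1
    have hmem : mT ^ k ∈ Gamma0 (M * t) := by
      rw [mem_Gamma0_iff_dvd]; simp [ModularGroup.coe_T_zpow]
    have hd : (heckeFam ℓ none * twMat t v).det ≠ 0 := by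
      rw [Matrix.det_mul]
      exact mul_ne_zero (heckeFam_det_ne_zero hℓ.ne_zero _) (det_twMat_ne_zero ht.ne_zero v)
    rw [he, pull_ofMat_mul (sl_det_ne_zero _) hd, ofMat_coe, pull_glQ_char hΦ hmem, map_smul]
    simp [ModularGroup.coe_T_zpow]
  -- the reindexing of the first representative
  let σ₀ : Fin t → Fin t := fun u => ⟨((u : ℕ) * ((ℓ : ZMod t))⁻¹).val, ZMod.val_lt _⟩
  have hli : (ℓ : ZMod t)⁻¹ * (ℓ : ZMod t) = 1 := ZMod.inv_mul_of_unit _ hℓt
  have hσ₀c : ∀ u : Fin t, (((σ₀ u : Fin t) : ℕ) : ZMod t) = (u : ℕ) * (ℓ : ZMod t)⁻¹ := fun u =>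
    ZMod.natCast_zmod_val _
  have hσ₀ : Function.Bijective σ₀ := Finite.injective_iff_bijective.mp fun u v h => by
    have h' := congrArg (fun w : Fin t => ((w : ℕ) : ZMod t) * (ℓ : ZMod t)) h
    simp only [hσ₀c, mul_assoc, hli, mul_one] at h'
    rw [ZMod.natCast_eq_natCast_iff', Nat.mod_eq_of_lt u.isLt, Nat.mod_eq_of_lt v.isLt] at h'
    exact Fin.ext h'
  have hdef : ∀ {L : ℕ} (ψ : DirichletCharacter R L) (Ψ : Cusp → Cusp → R),
      tOpChar R ψ ℓ Ψ = ψ (ℓ : ZMod L) • pull R (ofMat (heckeFam ℓ none)) Ψ + uOp R ℓ Ψ :=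
    fun ψ Ψ => by simp [tOpChar, uOp, pullFam]
  rw [hdef, hdef, map_add (twistOp R χ), smul_add,
    ← uOp_twistOp ht χ δ' hℓ (fun h => hℓMt (h ▸ dvd_mul_left t M)) hΦ]
  congr 1
  rw [twistOp_apply, twistOp_apply]
  simp only [map_sum, map_smul, Finset.smul_sum,
    ← pull_ofMat_mul (det_twMat_ne_zero ht.ne_zero _) (heckeFam_det_ne_zero hℓ.ne_zero _),
    ← pull_ofMat_mul (heckeFam_det_ne_zero hℓ.ne_zero _) (det_twMat_ne_zero ht.ne_zero _),
    smul_smul, hδ1, hδ2]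
  refine Fintype.sum_bijective σ₀ hσ₀ _ _ fun u => ?_
  have hdiv : (t : ℤ) ∣ ((u : ℕ) : ℤ) - ℓ * (((σ₀ u : Fin t) : ℕ) : ℤ) := by
    rw [← ZMod.intCast_zmod_eq_zero_iff_dvd]
    push_cast
    rw [hσ₀c]
    linear_combination -((u : ℕ) : ZMod t) * hli
  rw [h0 _ _ hdiv]
  congr 1
  have hx : χ (((σ₀ u : Fin t) : ℕ) : ZMod t) * χ (ℓ : ZMod t) = χ ((u : ℕ) : ZMod t) := by
    rw [← map_mul, hσ₀c, mul_assoc, hli, mul_one]
  have hzero : (1 : R) - χ⁻¹ (ℓ : ZMod t) * χ (ℓ : ZMod t) = 0 := by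
    rw [MulChar.inv_apply_eq_inv, Ring.inverse_mul_cancel _ (hℓt.map χ), sub_self]
  linear_combination (-(δ' (ℓ : ZMod M)) * χ⁻¹ (ℓ : ZMod t) * χ (ℓ : ZMod t)) * hx +
    (δ' (ℓ : ZMod M) * χ ((u : ℕ) : ZMod t)) * hzero

include ht hM in
theorem eq_zero_of_twistOp_eq_zero' [IsDomain R] [CharZero R] (hχ : χ ^ 2 ≠ 1)
    {Φ : Cusp → Cusp → R} (hΦ : Φ ∈ SymbChar R (twistChar χ δ'))
    (h0 : twistOp R χ Φ = 0) : Φ = 0 := by
  classical
  have : Fact t.Prime := ⟨ht⟩
  have : NeZero t := ⟨ht.ne_zero⟩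
  set Q : ZMod t → (Cusp → Cusp → R) := fun v => pull R (ofMat (twMat t ((v.val : ℕ) : ℤ))) Φ
  have hQ : ∀ v : ℤ, pull R (ofMat (twMat t v)) Φ = Q (v : ZMod t) := fun v => by
    refine pull_twMat_congr χ δ' ht.ne_zero hΦ ?_
    rw [← ZMod.intCast_zmod_eq_zero_iff_dvd]
    push_cast
    rw [ZMod.natCast_zmod_val, sub_self]
  have hQ0 : Q 0 = Φ := by
    have hone : twMat t 0 = (t : ℤ) • (1 : M2) := by
      ext i j; fin_cases i <;> fin_cases j <;> simp [twMat]
    have h := hQ 0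
    rw [Int.cast_zero] at h
    rw [← h, hone, pull_ofMat_smul (Int.natCast_ne_zero.mpr ht.ne_zero) (by simp)]
    rw [← Matrix.SpecialLinearGroup.coe_one, ofMat_coe, map_one, pull_one, LinearMap.id_apply]
  have hprod : ∀ u v : ℕ, pull R (ofMat (twMat t (v : ℤ))) (pull R (ofMat (twMat t (u : ℤ))) Φ)
      = Q ((u : ZMod t) + (v : ZMod t)) := fun u v => by
    have he : twMat t (u : ℤ) * twMat t (v : ℤ) = (t : ℤ) • twMat t ((u : ℤ) + v) := by
      ext i j
      fin_cases i <;> fin_cases j <;> simp [twMat, Matrix.mul_apply, Fin.sum_univ_two]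
      all_goals ring
    rw [← pull_ofMat_mul (det_twMat_ne_zero ht.ne_zero _) (det_twMat_ne_zero ht.ne_zero _), he,
      pull_ofMat_smul (Int.natCast_ne_zero.mpr ht.ne_zero) (det_twMat_ne_zero ht.ne_zero _), hQ]
    push_cast
    rfl
  have hfin : ∀ (f : ZMod t → Cusp → Cusp → R), ∑ u : Fin t, f ((u : ℕ) : ZMod t) = ∑ x, f x := by
    intro f
    refine Fintype.sum_bijective (fun u : Fin t => ((u : ℕ) : ZMod t)) ?_ _ _ fun _ => rfl
    refine ⟨fun u v h => ?_, fun x => ⟨⟨x.val, x.val_lt⟩, ZMod.natCast_zmod_val x⟩⟩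
    rw [ZMod.natCast_eq_natCast_iff', Nat.mod_eq_of_lt u.isLt, Nat.mod_eq_of_lt v.isLt] at h
    exact Fin.ext h
  have hχ1 : χ ≠ 1 := fun h => hχ (by rw [h, one_pow])
  have hdouble : ∑ x : ZMod t, ∑ y : ZMod t, (χ⁻¹ y * χ x) • Q (x + y) = 0 := by
    have h := congrArg (twistOp R χ⁻¹) h0
    rw [map_zero, twistOp_apply, twistOp_apply] at h
    simp only [map_sum, map_smul, hprod, Finset.smul_sum, smul_smul] at h
    rw [Finset.sum_comm]
    rw [← hfin fun y => ∑ x, (χ⁻¹ y * χ x) • Q (x + y)]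
    refine (Finset.sum_congr rfl fun v _ => ?_).trans h
    exact (hfin fun x => (χ⁻¹ ((v : ℕ) : ZMod t) * χ x) • Q (x + ((v : ℕ) : ZMod t))).symm
  have hK : ∀ w : ZMod t, ∑ x, χ x * χ⁻¹ (w - x) =
      χ (-1) * ((if w = 0 then (t : R) else 0) - 1) := by
    intro w
    have hsq : χ (-1) * χ (-1) = 1 := by rw [← map_mul, neg_one_mul, neg_neg, map_one]
    split_ifs with hw
    · subst hw
      have hterm : ∀ x : ZMod t, χ x * χ⁻¹ (0 - x) = if x = 0 then 0 else χ (-1) := fun x => by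
        split_ifs with hx
        · simp [hx, MulChar.map_zero]
        · rw [zero_sub, ← neg_one_mul x, map_mul, mul_left_comm]
          rw [show χ x * χ⁻¹ x = 1 by
            rw [← MulChar.mul_apply, mul_inv_cancel, MulChar.one_apply (isUnit_iff_ne_zero.mpr hx)]]
          rw [mul_one, MulChar.inv_apply_eq_inv]
          rw [show χ (-1) = ((Units.mkOfMulEqOne _ _ hsq : Rˣ) : R) from rfl, Ring.inverse_unit]
          rfl
      rw [Finset.sum_congr rfl fun x _ => hterm x, Finset.sum_ite, Finset.sum_const_zero, zero_add,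
        Finset.sum_const, Finset.filter_ne' Finset.univ (0 : ZMod t), Finset.card_erase_of_mem
          (Finset.mem_univ _), Finset.card_univ, ZMod.card, nsmul_eq_mul, Nat.cast_sub ht.one_le]
      push_cast
      ring
    · have hJ := jacobiSum_nontrivial_inv hχ1
      rw [jacobiSum] at hJ
      have hww : χ w * χ⁻¹ w = 1 := by
        rw [← MulChar.mul_apply, mul_inv_cancel, MulChar.one_apply (isUnit_iff_ne_zero.mpr hw)]
      calc ∑ x, χ x * χ⁻¹ (w - x) = ∑ z, χ (w * z) * χ⁻¹ (w - w * z) :=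
            (Equiv.sum_comp (Equiv.mulLeft₀ w hw) fun x => χ x * χ⁻¹ (w - x)).symm
        _ = ∑ z, χ z * χ⁻¹ (1 - z) := Finset.sum_congr rfl fun z _ => by
            rw [← mul_one_sub, map_mul, map_mul, mul_mul_mul_comm, hww, one_mul]
        _ = _ := by rw [hJ]; ring
  have hsum : (t : R) • Φ = ∑ w, Q w := by
    have h : ∑ w : ZMod t, (χ (-1) * ((if w = 0 then (t : R) else 0) - 1)) • Q w = 0 := by
      rw [← hdouble, Finset.sum_congr rfl fun w _ => by rw [← hK w, Finset.sum_smul]]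
      rw [Finset.sum_comm]
      refine Finset.sum_congr rfl fun x _ => ?_
      refine (Equiv.sum_comp (Equiv.addLeft x) fun w => (χ x * χ⁻¹ (w - x)) • Q w).symm.trans ?_
      refine Finset.sum_congr rfl fun y _ => ?_
      simp [mul_comm]
    simp only [mul_smul, ← Finset.smul_sum, sub_smul, one_smul, Finset.sum_sub_distrib, ite_smul,
      zero_smul, Finset.sum_ite_eq', Finset.mem_univ, if_true, hQ0] at h
    have hneg : χ (-1) ≠ 0 := fun e => by
      have hsq : χ (-1) * χ (-1) = 1 := by rw [← map_mul, neg_one_mul, neg_neg, map_one]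
      rw [e, mul_zero] at hsq
      exact one_ne_zero hsq.symm
    exact sub_eq_zero.mp ((smul_eq_zero.mp h).resolve_left hneg)
  set D : M2 := !![(t : ℤ), 0; 0, 1]
  have hD : D.det ≠ 0 := by simp [D, Matrix.det_fin_two_of, ht.ne_zero]
  have hX : uOp R t Φ ∈ SymbChar R (twistChar χ δ') :=
    HeckePoints.uOp_mem_symbChar ht (dvd_mul_left t M) hΦ
  have hsumD : ∑ w, Q w = pull R (ofMat D) (uOp R t Φ) := by
    rw [uOp, pullFam_apply, map_sum, ← hfin Q]
    refine Finset.sum_congr rfl fun j _ => ?_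
    rw [← pull_ofMat_mul (heckeFam_det_ne_zero ht.ne_zero _) hD]
    have he : heckeFam t (some j) * D = twMat t ((j : ℕ) : ℤ) := by
      ext i k; fin_cases i <;> fin_cases k <;> simp [D, twMat, Matrix.mul_apply, Fin.sum_univ_two]
    rw [he, hQ]
    push_cast
    rfl
  rw [hsumD] at hsum
  -- invariance under translation by `1 / t`
  have hQ1 : pull R (ofMat (twMat t 1)) Φ = Φ := by
    have h := congrArg (pull R (ofMat (twMat t 1))) hsum
    have he : D * twMat t 1 = (t : ℤ) • ((mT : M2) * D) := by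
      rw [ModularGroup.coe_T]
      ext i k
      fin_cases i <;> fin_cases k <;> simp [D, twMat, Matrix.mul_apply, Fin.sum_univ_two]
    have hTmem : mT ∈ Gamma0 (M * t) := by
      rw [mem_Gamma0_iff_dvd]; simp [ModularGroup.coe_T]
    have hTD : pull R (ofMat ((mT : M2) * D)) (uOp R t Φ) = pull R (ofMat D) (uOp R t Φ) := by
      rw [pull_ofMat_mul (sl_det_ne_zero mT) hD, ofMat_coe, pull_glQ_char hX hTmem, map_smul]
      simp [ModularGroup.coe_T]
    rw [map_smul, ← pull_ofMat_mul hD (det_twMat_ne_zero ht.ne_zero 1), he,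
      pull_ofMat_smul (Int.natCast_ne_zero.mpr ht.ne_zero)
        (by rw [Matrix.det_mul]; exact mul_ne_zero (sl_det_ne_zero mT) hD), hTD, ← hsum] at h
    exact smul_right_injective _ (Nat.cast_ne_zero.mpr ht.ne_zero : (t : R) ≠ 0) h
  have hQall : ∀ v : ℤ, pull R (ofMat (twMat t v)) Φ = Φ := by
    suffices h : ∀ n : ℕ, Q (n : ZMod t) = Φ by
      intro v
      rw [hQ, ← ZMod.natCast_zmod_val ((v : ℤ) : ZMod t)]
      exact h _
    intro n
    induction n with
    | zero => rw [Nat.cast_zero, hQ0]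
    | succ n ih =>
      have h1 := hprod 1 n
      rw [Nat.cast_one, Nat.cast_one, hQ1, hQ, Int.cast_natCast, ih] at h1
      rw [Nat.cast_succ, add_comm]
      exact h1.symm
  -- a matrix with non-trivial character
  obtain ⟨u₀, hu₀⟩ : ∃ u₀ : (ZMod t)ˣ, (χ ^ 2) u₀ ≠ 1 := by
    by_contra hcon
    push Not at hcon
    exact hχ (MulChar.ext fun u => by rw [hcon u, MulChar.one_apply_coe])
  have hMu : IsUnit (M : ZMod t) := (ZMod.isUnit_iff_coprime M t).mpr
    (Nat.coprime_comm.mp (ht.coprime_iff_not_dvd.mpr hM))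
  obtain ⟨m, hm⟩ : ∃ m : ℤ, (M : ZMod t) * (m : ZMod t) = (u₀ : ZMod t) - 1 := by
    obtain ⟨m, hm⟩ := ZMod.intCast_surjective ((M : ZMod t)⁻¹ * ((u₀ : ZMod t) - 1))
    exact ⟨m, by rw [hm, ← mul_assoc, ZMod.mul_inv_of_unit _ hMu, one_mul]⟩
  set d : ℤ := 1 + M * m
  have hdc : (d : ZMod t) = (u₀ : ZMod t) := by simp [d, hm]
  obtain ⟨a₀, k, hk⟩ : ∃ a₀ k : ℤ, a₀ * d + m = t * k := by
    obtain ⟨a₀, ha₀⟩ := ZMod.intCast_surjective (-(m : ZMod t) * ((u₀⁻¹ : (ZMod t)ˣ) : ZMod t))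
    refine ⟨a₀, (ZMod.intCast_zmod_eq_zero_iff_dvd _ _).mp ?_⟩
    push_cast
    rw [ha₀, hdc, mul_assoc, Units.inv_mul, mul_one, neg_add_cancel]
  have hgdet : (!![1 + a₀ * M, k; (M : ℤ) * t, d] : M2).det = 1 := by
    rw [Matrix.det_fin_two_of]
    simp only [d] at hk ⊢
    linear_combination (M : ℤ) * hk
  obtain ⟨γ, hγ, hγe⟩ := exists_gamma0_eq (M := M * t) hgdet (by simp)
  have hUdet : (!![1, 0; (M : ℤ) * t, 1] : M2).det = 1 := by simp [Matrix.det_fin_two_of]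
  obtain ⟨U, hUmem, hUe⟩ := exists_gamma0_eq (M := M * t) hUdet (by simp)
  have hfac : twMat t a₀ * (U : M2) * twMat t m = ((t : ℤ) * t) • (γ : M2) := by
    rw [hUe, hγe]
    ext i j
    fin_cases i <;> fin_cases j <;> simp [twMat, d, Matrix.mul_apply, Fin.sum_univ_two] <;>
      simp only [d] at hk <;> first | linear_combination (t : ℤ) * hk | ring1
  have hdet2 : (twMat t a₀ * (U : M2)).det ≠ 0 := by
    rw [Matrix.det_mul]
    exact mul_ne_zero (det_twMat_ne_zero ht.ne_zero _) (sl_det_ne_zero U)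
  have hγΦ : pull R (glQ γ) Φ = Φ := by
    rw [← ofMat_coe, ← pull_ofMat_smul (n := (t : ℤ) * t)
      (mul_ne_zero (Int.natCast_ne_zero.mpr ht.ne_zero) (Int.natCast_ne_zero.mpr ht.ne_zero))
      (sl_det_ne_zero γ), ← hfac,
      pull_ofMat_mul hdet2 (det_twMat_ne_zero ht.ne_zero _),
      pull_ofMat_mul (det_twMat_ne_zero ht.ne_zero _) (sl_det_ne_zero U), hQall, ofMat_coe,
      pull_glQ_char hΦ hUmem, map_smul, hQall]
    simp [hUe]
  have hval : twistChar χ δ' ((γ 1 1 : ℤ) : ZMod (M * t)) = (χ ^ 2) u₀ := by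
    rw [twistChar_intCast χ δ' (isUnit_lowerRight hγ), hγe, MulChar.pow_apply' χ two_ne_zero,
      ← hdc]
    simp [d]
  have h := pull_glQ_char hΦ hγ
  rw [hγΦ, hval] at h
  have h' : ((χ ^ 2) u₀ - 1) • Φ = 0 := by rw [sub_smul, one_smul, ← h, sub_self]
  exact (smul_eq_zero.mp h').resolve_left (sub_ne_zero.mpr hu₀)

include ht hM in
theorem eq_zero_of_twistOp_eq_zero [IsDomain R] [CharZero R] (hχ : χ ^ 2 ≠ 1)
    {Φ : Cusp → Cusp → R} (hΦ : Φ ∈ SymbChar R (twistChar χ δ')) {c : R}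
    (_hU : uOp R t Φ = c • Φ) (h0 : twistOp R χ Φ = 0) : Φ = 0 :=
  eq_zero_of_twistOp_eq_zero' ht hM χ δ' hχ hΦ h0

end Twist

/-- Twisting by a character `χ` with `χ ^ 2 ≠ 1`, with an extra character of level `M`. -/
theorem twistOp_spec_gen {R : Type} [CommRing R] [IsDomain R] [CharZero R] {M t : ℕ} (ht : t.Prime)
    (hM : ¬ t ∣ M) (χ : DirichletCharacter R t) (hχ : χ ^ 2 ≠ 1) (δ' : DirichletCharacter R M)
    (Φ : Cusp → Cusp → R)
    (hΦ : Φ ∈ SymbChar R (DirichletCharacter.changeLevel (dvd_mul_right M t) δ' *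
      DirichletCharacter.changeLevel (dvd_mul_left t M) (χ ^ 2))) :
    twistOp R χ Φ ∈ SymbChar R (DirichletCharacter.changeLevel (dvd_mul_right M (t ^ 2)) δ') ∧
    (∀ ℓ, ℓ.Prime → ¬ ℓ ∣ M * t →
      tOpChar R (DirichletCharacter.changeLevel (dvd_mul_right M (t ^ 2)) δ') ℓ (twistOp R χ Φ) =
        χ⁻¹ (ℓ : ZMod t) •
          twistOp R χ (tOpChar R (DirichletCharacter.changeLevel (dvd_mul_right M t) δ' *
          DirichletCharacter.changeLevel (dvd_mul_left t M) (χ ^ 2)) ℓ Φ)) ∧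
    (∀ c : R, uOp R t Φ = c • Φ → twistOp R χ Φ = 0 → Φ = 0) :=
  ⟨twistOp_mem ht χ δ' hΦ, fun _ hℓ hℓMt => tOpChar_twistOp ht χ δ' hℓ hℓMt hΦ,
    fun _ hU h0 => eq_zero_of_twistOp_eq_zero ht hM χ δ' hχ hΦ hU h0⟩

/-- Symbols with trivial character are the symbols of the level. -/
theorem symbChar_eq_lev {R : Type} [CommRing R] (L : ℕ) :
    SymbChar R (1 : DirichletCharacter R L) = Lev R L := by
  ext Φ
  refine and_congr_right fun _ => forall_congr' fun γ => forall_congr' fun hγ =>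
    forall_congr' fun x => forall_congr' fun y => ?_
  rw [MulChar.one_apply (isUnit_lowerRight hγ), one_mul]

/-- The Hecke operator with trivial character is `T_ℓ`. -/
theorem tOpChar_one {R : Type} [CommRing R] {L ℓ : ℕ} (hℓ : ℓ.Prime) (hL : ¬ ℓ ∣ L) :
    tOpChar R (1 : DirichletCharacter R L) ℓ = tOp R ℓ := by
  refine LinearMap.ext fun Φ => ?_
  have hu : IsUnit (ℓ : ZMod L) := (ZMod.isUnit_iff_coprime ℓ L).mpr (hℓ.coprime_iff_not_dvd.mpr hL)
  simp [tOpChar, tOp, pullFam, Fintype.sum_option, MulChar.one_apply hu]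

end FLTAgent.ModularityLifting
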