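import Fermat.Agent.LevelRaising.PeriodSymbols
import Fermat.Agent.ModularityLifting.Twist
import Fermat.Agent.Newforms.LevelExponent

/-!
# Newforms from symbols in the kernels of the trace maps

An eigensymbol of level `N q`, `q ∤ N`, killed by both traces to level `N` (or with `U_q` a sign)
comes from a newform whose level is divisible by `q` (`exists_newform_of_ker_trace`,
`exists_newform_of_uOp_eigen`).
-/

set_option autoImplicit false

noncomputable section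

namespace FLTAgent.ModularityLifting

open FLTAgent.LevelRaising CongruenceSubgroup ModularFormClass
open scoped MatrixGroups

/-- Finitely many operators preserving a finite dimensional subspace, and commuting on it, have a
common eigenvector in it. -/
theorem exists_common_eigvec {K V ι : Type*} [Field K] [IsAlgClosed K] [AddCommGroup V]
    [Module K V] (f : ι → Module.End K V) (s : Finset ι) :
    ∀ (U : Submodule K V) [FiniteDimensional K U], U ≠ ⊥ →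
      (∀ i ∈ s, ∀ v ∈ U, f i v ∈ U) →
      (∀ i ∈ s, ∀ j ∈ s, ∀ v ∈ U, f i (f j v) = f j (f i v)) →
      ∃ v ∈ U, v ≠ 0 ∧ ∀ i ∈ s, ∃ c : K, f i v = c • v := by
  classical
  induction s using Finset.induction with
  | empty =>
    intro U _ hU _ _
    obtain ⟨v, hv, hv0⟩ := Submodule.exists_mem_ne_zero_of_ne_bot hU
    exact ⟨v, hv, hv0, fun i hi => absurd hi (Finset.notMem_empty i)⟩
  | insert i s _ ih =>
    intro U _ hU hst hcomm
    have : Nontrivial U := Submodule.nontrivial_iff_ne_bot.mpr hU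
    obtain ⟨c, hc⟩ := Module.End.exists_eigenvalue
      (LinearMap.restrict (f i) (hst i (Finset.mem_insert_self i s)))
    obtain ⟨w, hw⟩ := hc.exists_hasEigenvector
    set U' : Submodule K V := U ⊓ LinearMap.ker (f i - c • LinearMap.id)
    have hmem : ∀ v, v ∈ U' ↔ v ∈ U ∧ f i v = c • v := fun v => by simp [U', sub_eq_zero]
    have hU' : U' ≠ ⊥ := fun h => hw.2 (Subtype.ext (by
      have h1 := congrArg Subtype.val hw.apply_eq_smul
      simp only [LinearMap.coe_restrict_apply, SetLike.val_smul] at h1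
      have h2 : (w : V) ∈ U' := (hmem _).mpr ⟨w.2, h1⟩
      rw [h] at h2
      exact h2))
    have : FiniteDimensional K U' := Submodule.finiteDimensional_of_le inf_le_left
    obtain ⟨v, hv, hv0, hve⟩ := ih U' hU'
      (fun j hj v hv => by
        obtain ⟨h1, h2⟩ := (hmem v).mp hv
        refine (hmem _).mpr ⟨hst j (Finset.mem_insert_of_mem hj) v h1, ?_⟩
        rw [hcomm i (Finset.mem_insert_self i s) j (Finset.mem_insert_of_mem hj) v h1,
          h2, map_smul])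
      (fun j hj k hk v hv => hcomm j (Finset.mem_insert_of_mem hj) k (Finset.mem_insert_of_mem hk) v
        ((hmem v).mp hv).1)
    refine ⟨v, ((hmem v).mp hv).1, hv0, fun j hj => ?_⟩
    rcases Finset.mem_insert.mp hj with rfl | hj
    · exact ⟨c, ((hmem v).mp hv).2⟩
    · exact hve j hj

theorem finite_lev (L : ℕ) [NeZero L] : FiniteDimensional ℂ (Lev ℂ L) := by
  have h := finite_symbChar (R := ℂ) (1 : DirichletCharacter ℂ L)
  rw [symbChar_eq_lev] at h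
  exact h

/-- An eigensymbol of level `N q`, `q ∤ N`, on which `U_q` is a sign comes from a newform whose
level is divisible by `q`. -/
theorem exists_newform_of_uOp_eigen {N q : ℕ} [NeZero N] (hq : q.Prime) (hqN : ¬ q ∣ N)
    {Φ : Cusp → Cusp → ℂ} (hΦ : Φ ∈ Lev ℂ (N * q)) (hne : Φ ≠ 0) (S : Finset ℕ)
    (hS : ∀ l, l.Prime → l ∣ N * q → l ∈ S) (a : ℕ → ℂ) (ε : ℂ) (hε2 : ε ^ 2 = 1)
    (ha : ∀ l, l.Prime → l ∉ S → tOp ℂ l Φ = a l • Φ) (hε : uOp ℂ q Φ = ε • Φ)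
    (hneis : ∃ ℓ, ℓ.Prime ∧ ℓ ∉ S ∧ ℓ % (N * q) = 1 % (N * q) ∧ a ℓ ≠ 1 + ℓ) :
    ∃ (M : ℕ) (g : CuspForm (Gamma0 M) 2), M ∣ N * q ∧ q ∣ M ∧ g.IsNewform ∧
      ModularFormClass.qCoeff g q = ε ∧
      ∀ l, l.Prime → l ∉ S → ModularFormClass.qCoeff g l = a l := by
  classical
  have : NeZero (N * q) := ⟨mul_ne_zero (NeZero.ne N) hq.ne_zero⟩
  -- refine to an eigenvector at every good prime
  set U : Submodule ℂ (Cusp → Cusp → ℂ) := Lev ℂ (N * q) ⊓
    (LinearMap.ker (uOp ℂ q - ε • LinearMap.id) ⊓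
      ⨅ (l : ℕ) (_ : l.Prime) (_ : l ∉ S), LinearMap.ker (tOp ℂ l - a l • LinearMap.id))
  have hmem : ∀ Ψ, Ψ ∈ U ↔ Ψ ∈ Lev ℂ (N * q) ∧ uOp ℂ q Ψ = ε • Ψ ∧
      ∀ l, l.Prime → l ∉ S → tOp ℂ l Ψ = a l • Ψ := fun Ψ => by simp [U, sub_eq_zero]
  have : FiniteDimensional ℂ (Lev ℂ (N * q)) := finite_lev _
  have : FiniteDimensional ℂ U := Submodule.finiteDimensional_of_le inf_le_left
  set T := S.filter fun m => m.Prime ∧ ¬ m ∣ N * q
  have hT : ∀ {m}, m ∈ T → m.Prime ∧ ¬ m ∣ N * q := fun h => (Finset.mem_filter.mp h).2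
  obtain ⟨Ψ, hΨ, hΨ0, hΨe⟩ := exists_common_eigvec (fun m => tOp ℂ m) T U
    ((Submodule.ne_bot_iff _).mpr ⟨Φ, (hmem Φ).mpr ⟨hΦ, hε, ha⟩, hne⟩)
    (fun m hm Ψ hΨ => by
      obtain ⟨hmp, hmN⟩ := hT hm
      obtain ⟨e1, e2, e3⟩ := (hmem Ψ).mp hΨ
      refine (hmem _).mpr ⟨tOp_mem hmp hmN e1, ?_, fun l hl hlS => ?_⟩
      · rw [← tOp_uOp_comm hmp hq hmN (dvd_mul_left q N) e1, e2, map_smul]
      · rw [tOp_comm hl hmp (fun e => hlS (e ▸ (Finset.mem_filter.mp hm).1))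
          (fun h => hlS (hS l hl h)) hmN e1, e3 l hl hlS, map_smul])
    (fun m hm k hk Ψ hΨ => by
      rcases eq_or_ne m k with rfl | hmk
      · rfl
      · exact tOp_comm (hT hm).1 (hT hk).1 hmk (hT hm).2 (hT hk).2 ((hmem Ψ).mp hΨ).1)
  obtain ⟨e1, e2, e3⟩ := (hmem Ψ).mp hΨ
  choose c hc using hΨe
  set a' : ℕ → ℂ := fun l => if h : l ∈ T then c l h else a l
  have ha' : ∀ l, l.Prime → ¬ l ∣ N * q → tOp ℂ l Ψ = a' l • Ψ := fun l hl hlN => by
    by_cases h : l ∈ T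
    · simp only [a', dif_pos h]; exact hc l h
    · simp only [a', dif_neg h]
      exact e3 l hl fun hlS => h (Finset.mem_filter.mpr ⟨hlS, hl, hlN⟩)
  have haS : ∀ l, l ∉ S → a' l = a l := fun l hl => dif_neg fun h => hl (Finset.mem_filter.mp h).1
  obtain ⟨ℓ, hℓ, hℓS, hℓ1, hℓa⟩ := hneis
  obtain ⟨G, hG, hGq, hGl⟩ := exists_eigenform_of_symb hq (dvd_mul_left q N) e1 hΨ0 a' ha' e2
    ⟨ℓ, hℓ, fun h => hℓS (hS ℓ hℓ h), hℓ1, by rw [haS ℓ hℓS]; exact hℓa⟩
  obtain ⟨M, hM0, g, hMN, hg, hgl⟩ := Newforms.exists_newform_of_eigenform hG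
  obtain ⟨hqM, hgq⟩ := Newforms.dvd_level_of_qCoeff_sq_eq_one hq hqN hG hGq hε2 hMN hg hgl
  refine ⟨M, g, hMN, hqM, hg, hgq, fun l hl hlS => ?_⟩
  have hlN : ¬ l ∣ N * q := fun h => hlS (hS l hl h)
  rw [hgl l hl hlN, hGl l hl hlN, haS l hlS]

/-- An eigensymbol in the kernels of both trace maps from level `N q` to level `N` comes from a
newform whose level is divisible by `q`. -/
theorem exists_newform_of_ker_trace {N q : ℕ} [NeZero N] (hq : q.Prime) (hqN : ¬ q ∣ N)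
    (D : LevelRaising.ALData N q) {Φ : Cusp → Cusp → ℂ} (hΦ : Φ ∈ Lev ℂ (N * q)) (hne : Φ ≠ 0)
    (h1 : D.trOp ℂ Φ = 0) (h2 : D.trOp ℂ (D.wOp ℂ Φ) = 0) (S : Finset ℕ)
    (hS : ∀ l, l.Prime → l ∣ N * q → l ∈ S) (a : ℕ → ℂ) (ε : ℂ)
    (ha : ∀ l, l.Prime → l ∉ S → tOp ℂ l Φ = a l • Φ) (hε : uOp ℂ q Φ = ε • Φ)
    (hneis : ∃ ℓ, ℓ.Prime ∧ ℓ ∉ S ∧ ℓ % (N * q) = 1 % (N * q) ∧ a ℓ ≠ 1 + ℓ) :
    ∃ (M : ℕ) (g : CuspForm (Gamma0 M) 2), M ∣ N * q ∧ q ∣ M ∧ g.IsNewform ∧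
      ModularFormClass.qCoeff g q = ε ∧
      ∀ l, l.Prime → l ∉ S → ModularFormClass.qCoeff g l = a l := by
  refine exists_newform_of_uOp_eigen hq hqN hΦ hne S hS a ε ?_ ha hε hneis
  have h := D.uOp_uOp_of_ker hq hΦ h1 h2
  rw [hε, map_smul, hε, smul_smul, ← pow_two] at h
  refine sub_eq_zero.mp ((smul_eq_zero.mp ?_).resolve_right hne)
  rw [sub_smul, one_smul, h, sub_self]

end FLTAgent.ModularityLifting
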