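import Fermat.Agent.ModularityLifting.Setup
import Fermat.Agent.FiniteFlat.Torsion
import Fermat.Agent.GoodReduction.X0
import Fermat.Agent.GaloisAttach.Supplied
import Fermat.Agent.LocalThree.Flat
import Fermat.Agent.SemistableHecke.TraceFacts

/-!
# Flatness from an attached trace

`flatAt_of_trace`: a representation with irreducible reduction and the trace of an attached system
of level prime to `p` is flat at `p`.
-/

set_option autoImplicit false

noncomputable section

open IsLocalRing ModularCurve GaloisRep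

namespace FLTAgent.ModularityLifting

open FLTAgent.GaloisAttach FLTAgent.FiniteFlat FLTAgent.DefRing
open FLTAgent.Density (Qbar GalQ)

variable (p : ℕ) [Fact p.Prime] {O' : Type} [CommRing O'] [IsDomain O'] [IsDiscreteValuationRing O']
  [IsAdicComplete (maximalIdeal O') O'] [Finite (ResidueField O')]

omit [Finite (ResidueField O')] in
/-- A representation with irreducible reduction and the trace of an attached system of level prime
to `p` is flat at `p`. -/
theorem flatAt_of_trace {L : ℕ} [NeZero L] (hp2 : p ≠ 2) (hpO : (p : O') ∈ maximalIdeal O')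
    (hpL : ¬ p ∣ L) (S : Finset ℕ) (θ : CuspForm.heckeAlgebra L 2 (↑S : Set ℕ) →+* O')
    (T : AttachedTrace L p (↑S : Set ℕ) (maximalIdeal O') θ) (ρ : MatRep O') (hρ : MatCont ρ)
    (htr : ∀ σ, (ρ σ).trace = T.f σ)
    (hirr : AbsIrreducibleOn (mapRep (residue O') ρ) ⊤) : FlatAt ρ p := by
  classical
  have hp : p.Prime := Fact.out
  intro I hI
  have := hI
  let hJ := jacobianInputs L hp
  obtain ⟨A, c, hlink⟩ := exists_attachedTrace_link hJ frobeniusDivisions S.finite_toSet
    (maximalIdeal O') hpO θ
  have h2 : IsUnit (2 : O') := notMem_maximalIdeal.mp fun h => by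
    obtain ⟨a, b, hab⟩ := (Int.isCoprime_iff_gcd_eq_one (m := (p : ℤ)) (n := (2 : ℤ))).mpr
      ((Int.gcd_natCast_natCast p 2).trans ((Nat.coprime_primes hp Nat.prime_two).mpr hp2))
    refine (maximalIdeal.isMaximal O').ne_top ((Ideal.eq_top_iff_one _).mpr ?_)
    have := add_mem (Ideal.mul_mem_left _ (a : O') hpO) (Ideal.mul_mem_left _ (b : O') h)
    have e : (a : O') * (p : O') + (b : O') * 2 = 1 := by
      exact_mod_cast congrArg (Int.cast (R := O')) hab
    rwa [e] at this
  have htrA : ∀ g, (ρ g).trace = A.f g := trace_eq_attached frobeniusDivisions A ρ hρ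
    fun ℓ hℓ hℓN hℓS hℓp P hP σ hσ => by
      obtain ⟨h1, h2'⟩ := T.frob ℓ hℓ hℓN hℓS hℓp P hP σ hσ
      exact ⟨(htr σ).trans h1, (SemistableHecke.det_eq_of_trace_eq
        (fun a ha => h2.mul_right_eq_zero.mp ha) T ρ htr σ).trans h2'⟩
  -- residual spanning
  let κ := ResidueField O'
  let K := AlgebraicClosure κ
  let φ : O' →+* K := residueBar O'
  let ρK : GalQ →* Matrix (Fin 2) (Fin 2) K := φ.mapMatrix.toMonoidHom.comp ρ
  have hspan : Submodule.span K (Set.range fun g => (ρ g).map φ) = ⊤ :=
    LocalThree.span_range_eq_top_of_noStableLine ρK fun v hv => hv.1 (hirr K (algebraMap κ K) v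
      fun σ hσ => by
        obtain ⟨r, hr⟩ := hv.2 σ hσ
        refine ⟨r, ?_⟩
        rw [mapRep_eq_map, Matrix.map_map]
        exact hr)
  obtain ⟨P, hP⟩ := FLTAgent.Density.exists_liesOverPrime hp
  obtain ⟨k, hk⟩ := exists_maximalIdeal_pow_le_of_isArtinianRing_quotient I
  refine hasFlatModel_of_attachedTrace hJ hlink (fun n => hasFlatModel_torsAct hpL hP
      (FLTAgent.GoodReduction.x0GoodReduction L hp hpL P hP) (pow_ne_zero _ hp.ne_zero))
    ρ htrA isUnit_of_residueBar_ne_zero hspan hk (redAct ρ I)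
    (fun σ t v => LinearMap.map_smul_of_tower
      (Matrix.toLin' ((Ideal.Quotient.mk I).mapMatrix (ρ σ))) t v)
    fun s r hX v => funext fun i => ?_
  calc (∑ g ∈ s, r g • redAct ρ I g v) i
      = ∑ j, Ideal.Quotient.mk I ((∑ g ∈ s, r g • ρ g) i j) * v j := by
        simp only [Finset.sum_apply, Pi.smul_apply, Matrix.sum_apply, Matrix.smul_apply,
          smul_eq_mul, map_sum, map_mul, Finset.sum_mul]
        rw [Finset.sum_comm]
        refine Finset.sum_congr rfl fun g _ => ?_
        show r g • ∑ j, Ideal.Quotient.mk I (ρ g i j) * v j = _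
        rw [Finset.smul_sum]
        exact Finset.sum_congr rfl fun j _ => by rw [Algebra.smul_def, mul_assoc]; rfl
    _ = 0 := Finset.sum_eq_zero fun j _ => by
        rw [Ideal.Quotient.eq_zero_iff_mem.mpr (hX i j), zero_mul]

end FLTAgent.ModularityLifting
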