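import Fermat.Agent.LevelRaising.PeriodSymbols
import Fermat.Agent.ModularityLifting.EigenFree
import Fermat.Agent.ModularityLifting.Twist
import Mathlib.RingTheory.Filtration

/-!
# The Hecke algebra acts on non-Eisenstein symbols, and eigenforms give symbols

`hecke_of_symb`: the Hecke algebra of cusp forms acts on the non-Eisenstein part of the modular
symbols. The relation `ActRel` ties an operator on cusp forms to one on that part through additive
maps to `ℂ`, and determines the latter uniquely (`eq_of_actRel`).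
-/

set_option autoImplicit false

noncomputable section

namespace FLTAgent.ModularityLifting

open FLTAgent.LevelRaising CongruenceSubgroup IsLocalRing
open scoped MatrixGroups OnePoint

section CompVal

variable {A B : Type*} [CommRing A] [CommRing B] (g : A →+ B)

/-- Composition of the values with an additive map. -/
def compVal (Φ : Cusp → Cusp → A) : Cusp → Cusp → B := fun x y => g (Φ x y)

theorem compVal_add (Φ Ψ : Cusp → Cusp → A) :
    compVal g (Φ + Ψ) = compVal g Φ + compVal g Ψ :=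
  funext fun x => funext fun y => map_add g (Φ x y) (Ψ x y)

theorem compVal_sub (Φ Ψ : Cusp → Cusp → A) :
    compVal g (Φ - Ψ) = compVal g Φ - compVal g Ψ :=
  funext fun x => funext fun y => map_sub g (Φ x y) (Ψ x y)

theorem compVal_natCast_smul (n : ℕ) (Φ : Cusp → Cusp → A) :
    compVal g ((n : A) • Φ) = (n : B) • compVal g Φ :=
  funext fun x => funext fun y => by
    simp only [compVal, Pi.smul_apply, smul_eq_mul, ← nsmul_eq_mul, map_nsmul]

theorem compVal_intCast_smul (n : ℤ) (Φ : Cusp → Cusp → A) :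
    compVal g ((n : A) • Φ) = (n : B) • compVal g Φ :=
  funext fun x => funext fun y => by
    simp only [compVal, Pi.smul_apply, smul_eq_mul, ← zsmul_eq_mul, map_zsmul]

theorem compVal_pullFam {ι : Type*} [Fintype ι] (M : ι → M2) (Φ : Cusp → Cusp → A) :
    compVal g (pullFam A M Φ) = pullFam B M (compVal g Φ) := by
  funext x y
  simp only [compVal, pullFam_apply, Finset.sum_apply, pull_apply, map_sum]

theorem compVal_tOp (ℓ : ℕ) (Φ : Cusp → Cusp → A) :
    compVal g (tOp A ℓ Φ) = tOp B ℓ (compVal g Φ) :=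
  compVal_pullFam g _ Φ

theorem compVal_mem_lev {L : ℕ} {Φ : Cusp → Cusp → A} (hΦ : Φ ∈ Lev A L) :
    compVal g Φ ∈ Lev B L :=
  ⟨fun x y z => by simp only [compVal]; rw [← map_add, hΦ.1],
    fun γ hγ x y => by simp only [compVal]; rw [hΦ.2 γ hγ]⟩

end CompVal

/-- Additive maps to `ℂ` separate the points of a domain of characteristic zero. -/
theorem exists_addHom_complex_ne_zero {R : Type*} [CommRing R] [IsDomain R] [CharZero R] {x : R}
    (hx : x ≠ 0) : ∃ g : R →+ ℂ, g x ≠ 0 := by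
  have hinj := IsFractionRing.injective R (FractionRing R)
  have : CharZero (FractionRing R) := charZero_of_injective_algebraMap hinj
  obtain ⟨φ, hφ⟩ := Module.Projective.exists_dual_ne_zero ℚ
    (show algebraMap R (FractionRing R) x ≠ 0 from fun h => hx (hinj (by rw [h, map_zero])))
  refine ⟨(Rat.castHom ℂ).toAddMonoidHom.comp
    (φ.toAddMonoidHom.comp (algebraMap R (FractionRing R)).toAddMonoidHom), ?_⟩
  simpa using hφ

variable {L : ℕ} [NeZero L]

section Act

variable {R : Type} [CommRing R] [IsLocalRing R] (S : Finset ℕ) (a : ℕ → R)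

/-- `e` acts on the eigenpart as the operator induced by `h`. -/
def ActRel (h : Module.End ℂ (CuspForm (Gamma0 L) 2))
    (e : Module.End R (eigenPart R (1 : DirichletCharacter R L) S a)) : Prop :=
  ∃ (E : Module.End R (Cusp → Cusp → R)) (Ec : Module.End ℂ (Cusp → Cusp → ℂ)),
    (∀ Φ, ((e Φ : _) : Cusp → Cusp → R) = E Φ) ∧
    (∀ (g : R →+ ℂ) (Φ : Cusp → Cusp → R), compVal g (E Φ) = Ec (compVal g Φ)) ∧
    ∀ s t, Ec (pairSymb L (s, t)) = pairSymb L (h s, h t)

variable {S a}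

omit [NeZero L] in
theorem tOp_mem_eigenPart (hS : ∀ q, q.Prime → q ∣ L → q ∈ S) {m : ℕ} (hm : m.Prime)
    (hmL : ¬ m ∣ L) {Φ : Cusp → Cusp → R} (hΦ : Φ ∈ eigenPart R (1 : DirichletCharacter R L) S a) :
    tOp R m Φ ∈ eigenPart R (1 : DirichletCharacter R L) S a := by
  set δ : DirichletCharacter R L := 1
  rw [← tOpChar_one hm hmL]
  obtain ⟨h1, h2⟩ := (mem_eigenPart_iff hS).mp hΦ
  refine (mem_eigenPart_iff hS).mpr ⟨tOpChar_mem hm hmL h1, fun ℓ hℓ hℓS n => ?_⟩
  have hℓL : ¬ ℓ ∣ L := fun h => hℓS (hS ℓ hℓ h)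
  obtain ⟨j, hj⟩ := h2 ℓ hℓ hℓS n
  have hcomm : ∀ i : ℕ, (shiftOp R δ ℓ (a ℓ) ^ i) (tOpChar R δ m Φ) =
      tOpChar R δ m ((shiftOp R δ ℓ (a ℓ) ^ i) Φ) := by
    intro i
    induction i with
    | zero => simp
    | succ i ih =>
      rw [pow_succ', Module.End.mul_apply, Module.End.mul_apply, ih, shiftOp_apply, shiftOp_apply,
        map_sub, map_smul, tOpChar_comm hℓ hm hℓL hmL (pow_shiftOp_mem hℓ hℓL _ _ h1)]
  refine ⟨j, ?_⟩
  rw [hcomm]
  have h0 : shiftOp R δ m 0 = tOpChar R δ m := by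
    refine LinearMap.ext fun Ψ => ?_
    rw [shiftOp_apply, zero_smul, sub_zero]
  rw [← h0]
  exact shiftOp_mem_smul hm hmL 0 _ hj

theorem exists_actRel (hS : ∀ q, q.Prime → q ∣ L → q ∈ S)
    (h : CuspForm.heckeAlgebra L 2 (S : Set ℕ)) : ∃ e, ActRel S a h.1 (R := R) e := by
  obtain ⟨h, hh⟩ := h
  induction hh using Algebra.adjoin_induction with
  | mem x hx =>
    rcases hx with ⟨ℓ, hℓ, hℓL, -, rfl⟩ | ⟨q, hqL, hq, hqS, rfl⟩
    · exact ⟨(tOp R ℓ).restrict fun _ hΦ => tOp_mem_eigenPart hS hℓ hℓL hΦ, tOp R ℓ, tOp ℂ ℓ,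
        fun _ => rfl, fun g Φ => compVal_tOp g ℓ Φ, fun s t => tOp_pairSymb hℓ hℓL (s, t)⟩
    · exact absurd (hS q hq hqL) hqS
  | algebraMap n =>
    refine ⟨(n : R) • LinearMap.id, (n : R) • LinearMap.id, (n : ℂ) • LinearMap.id,
      fun _ => rfl, fun g Φ => compVal_intCast_smul g n Φ, fun s t => ?_⟩
    rw [LinearMap.smul_apply, LinearMap.id_apply, ← map_smul, Prod.smul_mk,
      Module.algebraMap_end_apply, Module.algebraMap_end_apply, Int.cast_smul_eq_zsmul,
      Int.cast_smul_eq_zsmul]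
  | add x y _ _ hx hy =>
    obtain ⟨e, E, Ec, h1, h2, h3⟩ := hx
    obtain ⟨e', E', Ec', h1', h2', h3'⟩ := hy
    refine ⟨e + e', E + E', Ec + Ec', fun Φ => ?_, fun g Φ => ?_, fun s t => ?_⟩
    · rw [LinearMap.add_apply, Submodule.coe_add, h1, h1', LinearMap.add_apply]
    · rw [LinearMap.add_apply, compVal_add, h2, h2', LinearMap.add_apply]
    · rw [LinearMap.add_apply, h3, h3', ← map_add]; rfl
  | mul x y _ _ hx hy =>
    obtain ⟨e, E, Ec, h1, h2, h3⟩ := hx
    obtain ⟨e', E', Ec', h1', h2', h3'⟩ := hy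
    refine ⟨e * e', E * E', Ec * Ec', fun Φ => ?_, fun g Φ => ?_, fun s t => ?_⟩
    · rw [Module.End.mul_apply, h1, h1', Module.End.mul_apply]
    · rw [Module.End.mul_apply, h2, h2', Module.End.mul_apply]
    · rw [Module.End.mul_apply, h3', h3, Module.End.mul_apply, Module.End.mul_apply]

variable [IsNoetherianRing R] [IsDomain R] [CharZero R]

/-- An operator killing the cusp forms kills the non-Eisenstein part. -/
theorem eq_of_actRel (hS : ∀ q, q.Prime → q ∣ L → q ∈ S)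
    (hne : ∃ ℓ, ℓ.Prime ∧ ℓ ∉ S ∧ ℓ % L = 1 % L ∧ residue R (a ℓ) ≠ residue R (1 + ℓ))
    {h : Module.End ℂ (CuspForm (Gamma0 L) 2)}
    {e e' : Module.End R (eigenPart R (1 : DirichletCharacter R L) S a)}
    (he : ActRel S a h e) (he' : ActRel S a h e') : e = e' := by
  obtain ⟨ℓ₀, hℓ₀, hℓ₀S, hmod, hne⟩ := hne
  have hℓ₀L : ¬ ℓ₀ ∣ L := fun h' => hℓ₀S (hS ℓ₀ hℓ₀ h')
  obtain ⟨E, Ec, h1, h2, h3⟩ := he
  obtain ⟨E', Ec', h1', h2', h3'⟩ := he'
  set c : R := ((1 + ℓ₀ : ℕ) : R) with hc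
  set u : R := c - a ℓ₀ with hu
  have hunit : IsUnit u := by
    rw [← residue_ne_zero_iff_isUnit, hu, hc, map_sub, sub_ne_zero]
    push_cast
    exact hne.symm
  set D := E - E' with hDdef
  have hkill : ∀ w ∈ Lev R L, D (tOp R ℓ₀ w - c • w) = 0 := by
    intro w hw
    funext x y
    by_contra hxy
    obtain ⟨g, hg⟩ := exists_addHom_complex_ne_zero hxy
    refine hg ?_
    obtain ⟨⟨s, t⟩, hst⟩ := exists_pairSymb_shift (compVal_mem_lev g hw) hℓ₀ hℓ₀L hmod
    have h0 : compVal g (D (tOp R ℓ₀ w - c • w)) = 0 := by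
      rw [hDdef, LinearMap.sub_apply, compVal_sub, h2, h2', compVal_sub, compVal_tOp, hc,
        compVal_natCast_smul, Nat.cast_add, Nat.cast_one, ← hst, h3, h3', sub_self]
    exact congrFun (congrFun h0 x) y
  refine LinearMap.ext fun Φ => Subtype.ext ?_
  rw [h1, h1', ← sub_eq_zero]
  show D Φ = 0
  obtain ⟨hΦ1, hΦ2⟩ := (mem_eigenPart_iff hS).mp Φ.2
  set N := shiftOp R (1 : DirichletCharacter R L) ℓ₀ (a ℓ₀) with hN
  have hdec : ∀ j : ℕ, ∃ w ∈ Lev R L,
      (N ^ j) (Φ : Cusp → Cusp → R) = (tOp R ℓ₀ w - c • w) + u ^ j • (Φ : Cusp → Cusp → R) := by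
    intro j
    induction j with
    | zero => exact ⟨0, zero_mem _, by simp⟩
    | succ j ih =>
      obtain ⟨w, hw, hwe⟩ := ih
      refine ⟨N w + u ^ j • (Φ : Cusp → Cusp → R), ?_, ?_⟩
      · rw [← symbChar_eq_lev] at hw ⊢
        exact add_mem (shiftOp_mem hℓ₀ hℓ₀L _ hw) (Submodule.smul_mem _ _ hΦ1)
      · rw [pow_succ', Module.End.mul_apply, hwe, pow_succ]
        simp only [hN, shiftOp_apply, tOpChar_one hℓ₀ hℓ₀L, map_add, map_sub, map_smul, hu,
          mul_smul]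
        module
  funext x y
  have hmem : ∀ n, D Φ x y ∈ maximalIdeal R ^ n := by
    intro n
    obtain ⟨j, hj⟩ := hΦ2 ℓ₀ hℓ₀ hℓ₀S n
    obtain ⟨w, hw, hwe⟩ := hdec j
    have hD : D ((N ^ j) (Φ : Cusp → Cusp → R)) = u ^ j • D Φ := by
      rw [hwe, map_add, hkill w hw, map_smul, zero_add]
    have hv : ∀ Ψ ∈ maximalIdeal R ^ n • SymbChar R (1 : DirichletCharacter R L),
        D Ψ x y ∈ maximalIdeal R ^ n := by
      intro Ψ hΨ
      induction hΨ using Submodule.smul_induction_on' with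
      | smul r hr v hv => rw [map_smul]; exact Ideal.mul_mem_right _ _ hr
      | add v _ w _ hv hw => rw [map_add]; exact add_mem hv hw
    have h := hv _ hj
    rw [hD, Pi.smul_apply, Pi.smul_apply, smul_eq_mul] at h
    exact (Ideal.unit_mul_mem_iff_mem _ (hunit.pow j)).mp h
  have hbot := Ideal.iInf_pow_eq_bot_of_isLocalRing (I := maximalIdeal R)
    (maximalIdeal.isMaximal R).ne_top
  exact Ideal.mem_bot.mp (hbot ▸ (Submodule.mem_iInf _).mpr hmem)

end Act

/-- The Hecke algebra of cusp forms acts on the non-Eisenstein part of the modular symbols. -/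
theorem hecke_of_symb {L : ℕ} [NeZero L] {R : Type} [CommRing R] [IsLocalRing R] [IsDomain R]
    [CharZero R] [IsNoetherianRing R] (S : Finset ℕ) (hS : ∀ q, q.Prime → q ∣ L → q ∈ S)
    (a : ℕ → R)
    (hne : ∃ ℓ, ℓ.Prime ∧ ℓ ∉ S ∧ ℓ % L = 1 % L ∧ residue R (a ℓ) ≠ residue R (1 + ℓ)) :
    ∃ act : CuspForm.heckeAlgebra L 2 (S : Set ℕ) →+*
        Module.End R (eigenPart R (1 : DirichletCharacter R L) S a),
      ∀ (ℓ : ℕ) (hℓ : ℓ.Prime) (hℓL : ¬ ℓ ∣ L) (hℓS : ℓ ∉ (S : Set ℕ)) (Φ),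
        ((act (CuspForm.heckeAlgebra.T hℓ hℓL hℓS) Φ : _) : Cusp → Cusp → R) = tOp R ℓ Φ := by
  classical
  choose act hact using exists_actRel (R := R) (a := a) hS
  refine ⟨{ toFun := act, map_one' := ?_, map_mul' := fun x y => ?_, map_zero' := ?_,
            map_add' := fun x y => ?_ }, fun ℓ hℓ hℓL hℓS Φ => ?_⟩
  · exact eq_of_actRel hS hne (hact 1) ⟨LinearMap.id, LinearMap.id, fun _ => rfl, fun _ _ => rfl,
      fun _ _ => rfl⟩
  · obtain ⟨E, Ec, h1, h2, h3⟩ := hact x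
    obtain ⟨E', Ec', h1', h2', h3'⟩ := hact y
    refine eq_of_actRel hS hne (hact (x * y)) ⟨E * E', Ec * Ec', fun Φ => ?_, fun g Φ => ?_,
      fun s t => ?_⟩
    · rw [Module.End.mul_apply, h1, h1', Module.End.mul_apply]
    · rw [Module.End.mul_apply, h2, h2', Module.End.mul_apply]
    · rw [Module.End.mul_apply, h3', h3, MulMemClass.coe_mul, Module.End.mul_apply,
        Module.End.mul_apply]
  · refine eq_of_actRel hS hne (hact 0) ⟨0, 0, fun _ => rfl, fun g Φ => ?_, fun s t => ?_⟩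
    · exact funext fun x => funext fun y => map_zero g
    · rw [LinearMap.zero_apply, ZeroMemClass.coe_zero, LinearMap.zero_apply, LinearMap.zero_apply,
        Prod.mk_zero_zero, map_zero]
  · obtain ⟨E, Ec, h1, h2, h3⟩ := hact x
    obtain ⟨E', Ec', h1', h2', h3'⟩ := hact y
    refine eq_of_actRel hS hne (hact (x + y)) ⟨E + E', Ec + Ec', fun Φ => ?_, fun g Φ => ?_,
      fun s t => ?_⟩
    · rw [LinearMap.add_apply, Submodule.coe_add, h1, h1', LinearMap.add_apply]
    · rw [LinearMap.add_apply, compVal_add, h2, h2', LinearMap.add_apply]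
    · rw [LinearMap.add_apply, h3, h3', ← map_add]; rfl
  · have h := eq_of_actRel hS hne (hact (CuspForm.heckeAlgebra.T hℓ hℓL hℓS))
      (e' := (tOp R ℓ).restrict fun _ hΨ => tOp_mem_eigenPart hS hℓ hℓL hΨ)
      ⟨tOp R ℓ, tOp ℂ ℓ, fun _ => rfl, fun g Ψ => compVal_tOp g ℓ Ψ,
        fun s t => tOp_pairSymb hℓ hℓL (s, t)⟩
    show ((act (CuspForm.heckeAlgebra.T hℓ hℓL hℓS) Φ : _) : Cusp → Cusp → R) = _
    rw [h]
    rfl

end FLTAgent.ModularityLifting
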