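import Mathlib.LinearAlgebra.Matrix.Trace
import Mathlib.LinearAlgebra.Matrix.Determinant.Basic
import Mathlib.LinearAlgebra.Matrix.Notation
import Mathlib.LinearAlgebra.Matrix.Adjugate
import Mathlib.RingTheory.LocalRing.ResidueField.Basic
import Mathlib.LinearAlgebra.Span.Basic
import Mathlib.Tactic.LinearCombination
import Mathlib.Tactic.FinCases

/-!
# Representations from trace functions over rings

Let `f : G → A` be a two-dimensional trace function with determinant `ε`. A frame consists of an
element `γ` with eigenvalues `α`, `β` of unit difference and of `s`, `r` with unit cocycle value; it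
determines a representation `G →* M₂(A)` with trace `f`, with entries polynomial in the values of
`f`, compatible with ring homomorphisms and unique in its normal form.
-/

set_option autoImplicit false

namespace FLTAgent.ModularityLifting

variable {G A B : Type*} [Group G] [CommRing A] [CommRing B]

/-- A two-dimensional trace function over a ring. -/
structure IsPseudoRep (f : G → A) (ε : G →* A) : Prop where
  one : f 1 = 2
  comm : ∀ x y, f (y * x) = f (x * y)
  mul : ∀ x y, f (x * y) + ε y * f (x * y⁻¹) = f x * f y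

theorem IsPseudoRep.map {f : G → A} {ε : G →* A} (hf : IsPseudoRep f ε) (φ : A →+* B) :
    IsPseudoRep (φ ∘ f) (φ.toMonoidHom.comp ε) where
  one := by simp [hf.one, map_ofNat]
  comm x y := congrArg φ (hf.comm x y)
  mul x y := by simpa using congrArg φ (hf.mul x y)

/-- The trace and determinant of a representation form a trace function. -/
theorem isPseudoRep_of_matRep (M : G →* Matrix (Fin 2) (Fin 2) A) (ε : G →* A)
    (hε : ∀ g, ε g = (M g).det) : IsPseudoRep (fun g => (M g).trace) ε where
  one := by simp
  comm x y := by rw [map_mul, map_mul, Matrix.trace_mul_comm]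
  mul x y := by
    have h1 : M y * M y⁻¹ = 1 := by rw [← map_mul, mul_inv_cancel, map_one]
    have h2 : (M y).det • M y⁻¹ = (M y).adjugate := by
      calc (M y).det • M y⁻¹ = (M y).adjugate * M y * M y⁻¹ := by
            rw [Matrix.adjugate_mul, smul_mul_assoc, one_mul]
        _ = (M y).adjugate := by rw [mul_assoc, h1, mul_one]
    rw [hε, map_mul, map_mul, show (M y).det * (M x * M y⁻¹).trace =
      (M x * ((M y).det • M y⁻¹)).trace by rw [Matrix.mul_smul, Matrix.trace_smul, smul_eq_mul], h2]
    simp [Matrix.adjugate_fin_two, Matrix.trace_fin_two, Matrix.mul_apply, Fin.sum_univ_two]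
    ring

/-- The diagonal value attached to a split element. -/
def frameA (f : G → A) (γ : G) (β u : A) (h : G) : A := u * (f (γ * h) - β * f h)

/-- The cocycle attached to a split element. -/
def frameX (f : G → A) (γ : G) (β u : A) (y r : G) : A :=
  frameA f γ β u (y * r) - frameA f γ β u y * frameA f γ β u r

/-- A frame for a trace function. -/
structure Frame (f : G → A) (ε : G →* A) where
  γ : G
  α : A
  β : A
  u : A
  r : G
  s : G
  w : A
  hsum : α + β = f γ
  hprod : α * β = ε γ
  hu : (α - β) * u = 1
  hw : frameX f γ β u s r * w = 1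

namespace Frame

variable {f : G → A} {ε : G →* A} (F : Frame f ε)

local notation "a" => frameA f F.γ F.β F.u
local notation "X" => frameX f F.γ F.β F.u

/-- The second diagonal value. -/
def d (h : G) : A := f h - frameA f F.γ F.β F.u h

/-- The lower left value. -/
def b (h : G) : A := frameX f F.γ F.β F.u F.s h * F.w

theorem sub_key (h : G) : (F.α - F.β) * a h = f (F.γ * h) - F.β * f h := by
  simp only [frameA]
  linear_combination (f (F.γ * h) - F.β * f h) * F.hu

theorem cancel {x y : A} (h : (F.α - F.β) * x = (F.α - F.β) * y) : x = y := by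
  linear_combination F.u * h + (y - x) * F.hu

theorem cancelX {x y : A} (h : X F.s F.r * x = X F.s F.r * y) : x = y := by
  linear_combination F.w * h + (y - x) * F.hw

variable (hf : IsPseudoRep f ε)

include hf

theorem a_one : a 1 = 1 := by
  simp only [frameA, mul_one, hf.one]
  linear_combination F.hu - F.u * F.hsum

theorem a_quad (y h : G) : a (y * h) + ε h * a (y * h⁻¹) = f h * a y := by
  have h1 := hf.mul (F.γ * y) h
  have h2 := hf.mul y h
  rw [mul_assoc, mul_assoc] at h1
  simp only [frameA]
  linear_combination F.u * h1 - F.u * F.β * h2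

theorem a_mul_gamma (y : G) : a (y * F.γ) = F.α * a y := by
  have h1 := hf.mul (F.γ * y) F.γ
  have h2 : f (F.γ * y * F.γ⁻¹) = f y := by
    rw [hf.comm F.γ⁻¹ (F.γ * y), inv_mul_cancel_left]
  have h3 : f (y * F.γ) = f (F.γ * y) := hf.comm F.γ y
  rw [h2, mul_assoc] at h1
  simp only [frameA]
  linear_combination F.u * (h1 - F.β * h3 + (f y) * F.hprod - f (F.γ * y) * F.hsum)

theorem a_gamma_mul (y h : G) :
    a (y * F.γ * h) - F.β * a (y * h) = (F.α - F.β) * a h * a y := by
  have q1 := F.a_quad hf y (F.γ * h)
  have q2 := F.a_quad hf y h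
  have e : F.α * a (y * (F.γ * h)⁻¹) = a (y * h⁻¹) := by
    rw [← F.a_mul_gamma hf, mul_inv_rev, mul_assoc, inv_mul_cancel_right]
  rw [map_mul, ← mul_assoc] at q1
  rw [F.sub_key]
  linear_combination q1 - F.β * q2 + (ε h * a (y * (F.γ * h)⁻¹)) * F.hprod - F.β * ε h * e

theorem X_quad (y h r : G) : X (y * h) r + ε h * X (y * h⁻¹) r = f h * X y r := by
  have q1 := F.a_quad hf (y * r) (r⁻¹ * h * r)
  have q2 := F.a_quad hf y h
  have e1 : y * r * (r⁻¹ * h * r) = y * h * r := by group
  have e2 : y * r * (r⁻¹ * h * r)⁻¹ = y * h⁻¹ * r := by group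
  have e3 : f (r⁻¹ * h * r) = f h := by
    rw [← hf.comm (r⁻¹ * h) r, ← mul_assoc, mul_inv_cancel, one_mul]
  have e4 : ε (r⁻¹ * h * r) = ε h := by
    rw [map_mul, map_mul, mul_comm (ε r⁻¹), mul_assoc, ← map_mul, inv_mul_cancel, map_one, mul_one]
  rw [e1, e2, e3, e4] at q1
  simp only [frameX]
  linear_combination q1 - (a r) * q2

theorem X_step (y h r : G) : X (y * h) r = X h r * a y + F.d h * X y r := by
  have hγ : ∀ z, X (z * F.γ) r = F.β * X z r := by
    intro z
    simp only [frameX]
    linear_combination F.a_gamma_mul hf z r - (a r) * F.a_mul_gamma hf z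
  have q1 := F.X_quad hf y (F.γ * h) r
  have q2 := F.X_quad hf y h r
  have e : F.β * X (y * (F.γ * h)⁻¹) r = X (y * h⁻¹) r := by
    rw [← hγ, mul_inv_rev, mul_assoc, inv_mul_cancel_right]
  rw [map_mul, ← mul_assoc] at q1
  have c1 := F.a_gamma_mul hf y (h * r)
  have c2 := F.a_gamma_mul hf y h
  rw [← mul_assoc, ← mul_assoc] at c1
  have key : f (F.γ * h) - F.α * f h = -(F.α - F.β) * F.d h := by
    simp only [d]; linear_combination -(F.sub_key h)
  apply F.cancel
  have B : X (y * F.γ * h) r - F.α * X (y * h) r = -(F.α - F.β) * F.d h * X y r := by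
    rw [← key]
    linear_combination q1 - F.α * q2 + (ε h * X (y * (F.γ * h)⁻¹) r) * F.hprod
      - F.α * ε h * e
  simp only [frameX] at B ⊢
  linear_combination c1 - (a r) * c2 - B

theorem X_eq (y h : G) : X y h = F.b h * X y F.r := by
  have h1 : X 1 F.r = 0 := by simp only [frameX, one_mul, F.a_one hf]; ring
  have main : ∀ z, X F.s F.r * a (z * h) =
      X F.s F.r * a h * a z + (F.d (h * F.s) - F.d F.s * F.d h) * X z F.r := by
    intro z
    have e1 := F.X_step hf (z * h) F.s F.r
    have e2 := F.X_step hf z h F.r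
    have e3 := F.X_step hf z (h * F.s) F.r
    have e4 := F.X_step hf h F.s F.r
    rw [← mul_assoc] at e3
    linear_combination -e1 + e3 - F.d F.s * e2 + (a z) * e4
  have m1 := main y
  have m2 := main F.s
  have key : X y h * X F.s F.r = X F.s h * X y F.r := by
    apply F.cancelX
    simp only [frameX] at m1 m2 ⊢
    linear_combination (a (F.s * F.r) - a F.s * a F.r) * m1 - (a (y * F.r) - a y * a F.r) * m2
  simp only [b]
  linear_combination F.w * key - X y h * F.hw

theorem a_mul (h k : G) : a (h * k) = a k * a h + F.b k * X h F.r := by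
  rw [← F.X_eq hf]; simp only [frameX]; ring

theorem X_mul (h k : G) : X (h * k) F.r = a h * X k F.r + X h F.r * F.d k := by
  rw [F.X_step hf h k F.r]; ring

theorem b_mul (h k : G) : F.b (h * k) = F.b h * a k + F.d h * F.b k := by
  have e := F.X_step hf F.s h k
  have h1 : X F.s (h * k) = a k * X F.s h + F.d h * X F.s k := by
    simp only [frameX, mul_assoc] at e ⊢
    linear_combination e
  simp only [b, h1]
  ring

theorem d_mul (h k : G) : F.d (h * k) = F.b h * X k F.r + F.d h * F.d k := by
  have e1 := F.X_step hf F.s (h * k) F.r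
  have e2 := F.X_step hf (F.s * h) k F.r
  have e3 := F.X_step hf F.s h F.r
  have e4 := F.a_mul hf F.s h
  have e5 := F.X_mul hf h k
  rw [← mul_assoc] at e1
  apply F.cancelX
  linear_combination e2 - e1 + F.d k * e3 + (X k F.r) * e4 - (a F.s) * e5

theorem X_one_left (y : G) : X 1 y = 0 := by
  simp only [frameX, one_mul, F.a_one hf]; ring

theorem X_one_right (y : G) : X y 1 = 0 := by
  simp only [frameX, mul_one, F.a_one hf]; ring

theorem X_inv (y h : G) : X y h + ε h * X y h⁻¹ = 0 := by
  have q1 := F.a_quad hf y h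
  have q2 := F.a_quad hf 1 h
  simp only [one_mul, F.a_one hf] at q2
  simp only [frameX]
  linear_combination q1 - a y * q2

theorem d_eq (h : G) : ε h * a h⁻¹ = F.d h := by
  have q2 := F.a_quad hf 1 h
  simp only [one_mul, F.a_one hf] at q2
  simp only [d]
  linear_combination q2

/-- The representation attached to a frame. -/
def rep : G →* Matrix (Fin 2) (Fin 2) A where
  toFun h := !![frameA f F.γ F.β F.u h, frameX f F.γ F.β F.u h F.r; F.b h, F.d h]
  map_one' := by
    ext i j
    fin_cases i <;> fin_cases j <;>
      simp [b, d, F.a_one hf, F.X_one_left hf, F.X_one_right hf, hf.one]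
    norm_num
  map_mul' h k := by
    have e1 := F.a_mul hf h k
    have e2 := F.X_mul hf h k
    have e3 := F.b_mul hf h k
    have e4 := F.d_mul hf h k
    ext i j
    fin_cases i <;> fin_cases j <;>
      simp [Matrix.mul_apply, Fin.sum_univ_two, e1, e2, e3, e4]
    all_goals ring

theorem rep_apply (h : G) : F.rep hf h =
    !![frameA f F.γ F.β F.u h, frameX f F.γ F.β F.u h F.r; F.b h, F.d h] := rfl

@[simp] theorem trace_rep (h : G) : (F.rep hf h).trace = f h := by
  simp [rep_apply, Matrix.trace_fin_two, d]

@[simp] theorem det_rep (h : G) : (F.rep hf h).det = ε h := by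
  have e1 := F.a_mul hf h h⁻¹
  rw [mul_inv_cancel, F.a_one hf] at e1
  have e2 := F.d_eq hf h
  have e3 : ε h * F.b h⁻¹ = - F.b h := by
    simp only [b]; linear_combination F.w * F.X_inv hf F.s h
  rw [rep_apply, Matrix.det_fin_two_of]
  linear_combination -(a h) * e2 - (ε h) * e1 - (X h F.r) * e3

theorem rep_gamma : F.rep hf F.γ = !![F.α, 0; 0, F.β] := by
  have ha : a F.γ = F.α := by
    have := F.a_mul_gamma hf 1
    rwa [one_mul, F.a_one hf, mul_one] at this
  have hy : ∀ y, X y F.γ = 0 := fun y => by
    simp only [frameX]; rw [F.a_mul_gamma hf, ha]; ring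
  have hr : X F.γ F.r = 0 := by
    have := F.a_gamma_mul hf 1 F.r
    rw [one_mul, one_mul, F.a_one hf] at this
    simp only [frameX, ha]; linear_combination this
  ext i j
  fin_cases i <;> fin_cases j <;> simp [rep_apply, ha, hr, b, hy, d, ← F.hsum]

theorem rep_r : F.rep hf F.r 1 0 = 1 := by simp [rep_apply, b, F.hw]

omit hf in
/-- Base change of a frame. -/
def map (φ : A →+* B) : Frame (φ ∘ f) (φ.toMonoidHom.comp ε) where
  γ := F.γ
  α := φ F.α
  β := φ F.β
  u := φ F.u
  r := F.r
  s := F.s
  w := φ F.w
  hsum := by simp [← F.hsum]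
  hprod := by simp [← F.hprod]
  hu := by rw [← map_sub, ← map_mul, F.hu, map_one]
  hw := by simpa [frameX, frameA] using congrArg φ F.hw

theorem rep_map (φ : A →+* B) (h : G) :
    (F.map φ).rep (hf.map φ) h = φ.mapMatrix (F.rep hf h) := by
  rw [rep_apply, rep_apply]
  ext i j
  fin_cases i <;> fin_cases j <;> simp [map, b, d, frameX, frameA]

/-- If `f (y * h)` agrees with `f y` modulo an ideal, `h` acts trivially modulo it. -/
theorem rep_sub_one_mem {I : Ideal A} {h : G} (hh : ∀ y, f (y * h) - f y ∈ I) (i j : Fin 2) :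
    (F.rep hf h - 1) i j ∈ I := by
  let q := Ideal.Quotient.mk I
  have hq : ∀ y z, q (f (y * h * z)) = q (f (y * z)) := fun y z => by
    refine Ideal.Quotient.eq.mpr ?_
    rw [hf.comm z (y * h), hf.comm z y, ← mul_assoc]; exact hh (z * y)
  have ha : ∀ y z, q (a (y * h * z)) = q (a (y * z)) := fun y z => by
    simp only [frameA, ← mul_assoc, map_mul, map_sub]
    rw [hq, hq, mul_assoc F.γ]
  have hsplit : ∀ y, q (a (y * h)) = q (a y) ∧ q (a (h * y)) = q (a y) := fun y =>
    ⟨by simpa using ha y 1, by simpa using ha 1 y⟩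
  have h0 : q (a h) = 1 := by
    have := (hsplit 1).1
    rwa [one_mul, F.a_one hf, map_one] at this
  have hd : q (F.d h) = 1 := by
    have := hq 1 1
    rw [one_mul, mul_one, mul_one, hf.one] at this
    simp only [d, map_sub, h0, this]
    rw [← map_one q, ← map_sub]; norm_num
  have hX : q (X h F.r) = 0 := by
    simp only [frameX, map_sub, map_mul, h0, one_mul, (hsplit F.r).2, sub_self]
  have hb : q (F.b h) = 0 := by
    simp only [b, frameX, map_mul, map_sub, h0, mul_one, (hsplit F.s).1, sub_self, zero_mul]
  refine Ideal.Quotient.eq_zero_iff_mem.mp ?_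
  fin_cases i <;> fin_cases j <;> simp [rep_apply] <;>
    first | exact sub_eq_zero.mpr (by assumption) | assumption

/-- A representation in normal form with trace `f` and determinant `ε` is the one of the frame. -/
theorem eq_rep (M : G →* Matrix (Fin 2) (Fin 2) A) (htr : ∀ g, (M g).trace = f g)
    (hγ : M F.γ = !![F.α, 0; 0, F.β]) (hr : M F.r 1 0 = 1) : M = F.rep hf := by
  have ha : ∀ g, a g = M g 0 0 := fun g => by
    apply F.cancel
    rw [F.sub_key, ← htr, ← htr, map_mul, hγ, Matrix.eta_fin_two (M g)]
    simp [Matrix.trace_fin_two_of]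
    ring
  have hX : ∀ y z, X y z = M y 0 1 * M z 1 0 := fun y z => by
    simp only [frameX, ha, map_mul, Matrix.mul_apply, Fin.sum_univ_two]; ring
  refine MonoidHom.ext fun g => Matrix.ext fun i j => ?_
  fin_cases i <;> fin_cases j
  · exact (ha g).symm
  · simp [rep_apply, hX, hr]
  · have h2 := F.hw
    rw [hX, hr, mul_one] at h2
    simp [rep_apply, b, hX]
    linear_combination -(M g 1 0) * h2
  · simp [rep_apply, d, ha, ← htr, Matrix.trace_fin_two]

end Frame

open IsLocalRing in
/-- Over a local ring, a split element and residually spanning matrices give a frame. -/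
theorem exists_frame [IsLocalRing A] {f : G → A} {ε : G →* A} (γ : G) (α β : A)
    (hsum : α + β = f γ) (hprod : α * β = ε γ) (hab : IsUnit (α - β))
    (M : G →* Matrix (Fin 2) (Fin 2) (ResidueField A))
    (htr : ∀ g, (M g).trace = residue A (f g)) (_hdet : (M γ).det = residue A (ε γ))
    (hspan : Submodule.span (ResidueField A) (Set.range M) = ⊤) :
    ∃ F : Frame f ε, F.γ = γ ∧ F.α = α ∧ F.β = β := by
  obtain ⟨v, hv⟩ := hab
  let u : A := ↑v⁻¹
  have hu : (α - β) * u = 1 := by simp [u, ← hv]
  suffices ∃ s r, residue A (frameX f γ β u s r) ≠ 0 by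
    obtain ⟨s, r, hsr⟩ := this
    obtain ⟨x, hx⟩ := (residue_ne_zero_iff_isUnit _).mp hsr
    exact ⟨⟨γ, α, β, u, r, s, ↑x⁻¹, hsum, hprod, hu, by simp [← hx]⟩, rfl, rfl, rfl⟩
  by_contra h
  push Not at h
  set E : Matrix (Fin 2) (Fin 2) (ResidueField A) :=
    residue A u • (M γ - residue A β • 1) with hE
  have hA : ∀ g, (E * M g).trace = residue A (frameA f γ β u g) := fun g => by
    rw [hE, frameA, Matrix.smul_mul, Matrix.trace_smul, Matrix.sub_mul, Matrix.smul_mul,
      Matrix.one_mul, ← map_mul M, Matrix.trace_sub, Matrix.trace_smul, htr, htr, map_mul,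
      map_sub, map_mul, smul_eq_mul, smul_eq_mul]
  have hb : ∀ S R : Matrix (Fin 2) (Fin 2) (ResidueField A),
      (E * (S * R)).trace = (E * S).trace * (E * R).trace := by
    intro S R
    have hS : S ∈ Submodule.span (ResidueField A) (Set.range M) := hspan ▸ Submodule.mem_top
    have hR : R ∈ Submodule.span (ResidueField A) (Set.range M) := hspan ▸ Submodule.mem_top
    induction hS using Submodule.span_induction with
    | mem S hS =>
      obtain ⟨s, rfl⟩ := hS
      induction hR using Submodule.span_induction with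
      | mem R hR =>
        obtain ⟨r, rfl⟩ := hR
        rw [← map_mul, hA, hA, hA]
        have := h s r
        rwa [frameX, map_sub, map_mul, sub_eq_zero] at this
      | zero => simp
      | add x y _ _ hx hy => simp [mul_add, hx, hy]
      | smul c x _ hx => simp [hx]; ring
    | zero => simp
    | add x y _ _ hx hy => simp [mul_add, add_mul, hx, hy]
    | smul c x _ hx => simp [hx]; ring
  have e2 : ∀ i j k l : Fin 2, E l i * (if j = k then 1 else 0) = E j i * E l k := by
    intro i j k l
    have := hb (Matrix.single i j 1) (Matrix.single k l 1)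
    rcases eq_or_ne j k with rfl | hjk
    · simpa [Matrix.trace_mul_single] using this
    · simpa [Matrix.single_mul_single_of_ne, Ne.symm hjk, hjk, Matrix.trace_mul_single] using this
  have htrE : E.trace = 1 := by
    have h1 : residue A u * residue A (α - β) = 1 := by
      rw [← map_mul, mul_comm, hu, map_one]
    simp [E, Matrix.trace_sub, htr, Matrix.trace_smul, ← hsum]
    rw [map_sub] at h1
    linear_combination h1
  have e00 := e2 0 0 1 1
  have e01 := e2 0 1 1 0
  have e10 := e2 1 0 0 1
  have e11 := e2 1 1 0 0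
  simp only [Matrix.trace_fin_two] at htrE
  norm_num at e00 e01 e10 e11
  grind

end FLTAgent.ModularityLifting
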