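import Fermat.Agent.DefRing.MatrixRep
import Fermat.Agent.FiniteFlat.Model
import Fermat.Prelude.Def_GaloisRep_LocalConditions
import Fermat.Prelude.Def_FLTPrelim_Ramification
import Mathlib.LinearAlgebra.Matrix.Trace

/-!
# Local conditions for modularity lifting

All conditions are phrased for matrix representations; they are checked on points with values in
domains, the coefficient rings used later being subrings of products of such domains.
-/

set_option autoImplicit false

noncomputable section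

namespace FLTAgent.ModularityLifting

open FLTAgent.DefRing

local notation "Qbar" => AlgebraicClosure ℚ

variable {A : Type} [CommRing A]

/-- Trivial on inertia at `q`. -/
def UnramifiedAt (ρ : MatRep A) (q : ℕ) : Prop :=
  ∀ P : ValuationSubring Qbar, P.LiesOverPrime q → ∀ σ ∈ P.inertiaSubgroupIn ℚ, ρ σ = 1

/-- Steinberg type at `q` with sign `ε`: unipotent inertia, Frobenius trace `ε (q + 1)`. -/
def SteinbergAt (ρ : MatRep A) (q : ℕ) (ε : A) : Prop :=
  ∀ P : ValuationSubring Qbar, P.LiesOverPrime q →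
    (∀ τ ∈ P.inertiaSubgroupIn ℚ, (ρ τ - 1) ^ 2 = 0) ∧
      ∀ φ : AbsGal, P.IsFrobeniusAt φ q → (ρ φ).trace = ε * (q + 1)

/-- Strictly ordinary at `p` with sign `ε`: conjugate to upper triangular form on the
decomposition group, the quotient character being unramified with Frobenius value `ε`. -/
def StrictAt (ρ : MatRep A) (p : ℕ) (ε : A) : Prop :=
  ∀ P : ValuationSubring Qbar, P.LiesOverPrime p → ∃ g : GL (Fin 2) A,
    ∀ σ ∈ P.decompositionSubgroup ℚ,
      ((g : Matrix (Fin 2) (Fin 2) A) * ρ σ * (g⁻¹ : GL (Fin 2) A)) 1 0 = 0 ∧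
        (σ ∈ P.inertiaSubgroupIn ℚ →
          ((g : Matrix (Fin 2) (Fin 2) A) * ρ σ * (g⁻¹ : GL (Fin 2) A)) 1 1 = 1) ∧
        (P.IsFrobeniusAt σ p →
          ((g : Matrix (Fin 2) (Fin 2) A) * ρ σ * (g⁻¹ : GL (Fin 2) A)) 1 1 = ε)

/-- The action of a matrix representation modulo an ideal. -/
def redAct (ρ : MatRep A) (I : Ideal A) :
    AbsGal →* AddMonoid.End (Fin 2 → A ⧸ I) where
  toFun σ := (Matrix.toLin' ((Ideal.Quotient.mk I).mapMatrix (ρ σ))).toAddMonoidHom
  map_one' := AddMonoidHom.ext fun v => by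
    rw [map_one, map_one, Matrix.toLin'_one]; rfl
  map_mul' σ τ := AddMonoidHom.ext fun v => by
    rw [map_mul, map_mul, Matrix.toLin'_mul]; rfl

/-- Flat at `p`: every finite reduction has a finite flat model. -/
def FlatAt (ρ : MatRep A) (p : ℕ) : Prop :=
  ∀ I : Ideal A, Finite (A ⧸ I) → FiniteFlat.HasFlatModel p (redAct ρ I)

/-- The determinant is the cyclotomic character. -/
def DetCyclotomic (ρ : MatRep A) (p : ℕ) : Prop :=
  ∀ (n : ℕ) (σ : AbsGal) (a : ℕ), (∀ μ : Qbar, μ ^ p ^ n = 1 → σ μ = μ ^ a) →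
    (ρ σ).det - (a : A) ∈ Ideal.span {((p ^ n : ℕ) : A)}

/-- No common eigenvector over any extension field. -/
def AbsIrreducibleOn {k : Type} [Field k] (ρ : MatRep k) (G : Subgroup AbsGal) : Prop :=
  ∀ (K : Type) [Field K] (ι : k →+* K) (v : Fin 2 → K),
    (∀ σ ∈ G, ∃ c : K, Matrix.mulVec ((ρ σ).map ι) v = c • v) → v = 0

/-- A continuous one-cocycle with values in the trace zero adjoint representation. -/
def IsAdCocycle {k : Type} [Field k] (ρ : MatRep k) (c : AbsGal → Matrix (Fin 2) (Fin 2) k) :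
    Prop :=
  (∀ σ τ, c (σ * τ) = c σ + ρ σ * c τ * ρ σ⁻¹) ∧ (∀ σ, (c σ).trace = 0) ∧
    ∃ L : IntermediateField ℚ Qbar, FiniteDimensional ℚ L ∧
      ∀ σ : AbsGal, (∀ x ∈ L, σ x = x) → c σ = 0

/-- The adjoint coboundaries. -/
def adCoboundaries {k : Type} [Field k] (ρ : MatRep k) :
    Submodule k (AbsGal → Matrix (Fin 2) (Fin 2) k) :=
  LinearMap.range
    ({ toFun := fun a σ => a - ρ σ * a * ρ σ⁻¹
       map_add' := fun a b => funext fun σ => by simp [mul_add, add_mul]; abel
       map_smul' := fun c a => funext fun σ => by simp [smul_sub] } :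
      Matrix (Fin 2) (Fin 2) k →ₗ[k] AbsGal → Matrix (Fin 2) (Fin 2) k)

/-- The invariants of a decomposition group in the trace zero adjoint representation. -/
def adInvariants {k : Type} [Field k] (ρ : MatRep k) (P : ValuationSubring Qbar) :
    Submodule k (Matrix (Fin 2) (Fin 2) k) :=
  LinearMap.ker (Matrix.traceLinearMap (Fin 2) k k) ⊓
    ⨅ σ ∈ P.decompositionSubgroup ℚ,
      LinearMap.eqLocus (LinearMap.mulLeft k (ρ σ) ∘ₗ LinearMap.mulRight k (ρ σ⁻¹)) LinearMap.id

end FLTAgent.ModularityLifting
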