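import Fermat.Agent.IgusaCover.Main
import Fermat.Agent.ModularityLifting.Twist

/-!
# Inertia at Taylor–Wiles primes

For a symbol whose system of eigenvalues is residually distinguished at `t`, the attached
representation satisfies `trace = 1 + det` on inertia at `t`.
-/

set_option autoImplicit false
set_option maxSynthPendingDepth 3

noncomputable section

open FLTAgent.LevelRaising FLTAgent.DefRing CongruenceSubgroup
open scoped MatrixGroups

namespace FLTAgent.ModularityLifting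

local notation "Qbar" => AlgebraicClosure ℚ

/-- The trace on inertia at a Taylor–Wiles prime. -/
theorem trace_inertia_of_twPrime (p : ℕ) [Fact p.Prime] (hp2 : p ≠ 2) {M t : ℕ} [NeZero M]
    (ht : t.Prime) (htp : t ≠ p) (hM : ¬ t ∣ M) (ht1 : p ∣ t - 1) {O' : Type} [CommRing O']
    [IsDomain O'] [IsDiscreteValuationRing O']
    [IsAdicComplete (IsLocalRing.maximalIdeal O') O']
    [Finite (IsLocalRing.ResidueField O')] [CharZero O'] [CharP (IsLocalRing.ResidueField O') p]
    (δ : DirichletCharacter O' (M * t)) (hδ : ∀ u : (ZMod (M * t))ˣ, ∃ k, δ u ^ p ^ k = 1)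
    (S : Finset ℕ) (hS : ∀ q, q.Prime → q ∣ M * t * p → q ∈ S) (a : ℕ → O')
    (Φ : Cusp → Cusp → O') (hΦ : Φ ∈ SymbChar O' δ) (hne : Φ ≠ 0)
    (ha : ∀ l, l.Prime → l ∉ S → tOpChar O' δ l Φ = a l • Φ)
    (b : O') (hb : uOp O' t Φ = b • Φ)
    (ρ : MatRep O') (hρ : MatCont ρ)
    (hfrob : ∀ l, l.Prime → l ∉ S → ∀ P : ValuationSubring Qbar, P.LiesOverPrime l →
      ∀ φ, P.IsFrobeniusAt φ l → (ρ φ).trace = a l ∧ (ρ φ).det = l * δ (l : ZMod (M * t)))
    (hirr : AbsIrreducibleOn (mapRep (IsLocalRing.residue O') ρ) ⊤)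
    (_hunr : UnramifiedAt (mapRep (IsLocalRing.residue O') ρ) t)
    (hdist : ∀ P : ValuationSubring Qbar, P.LiesOverPrime t → ∀ φ, P.IsFrobeniusAt φ t →
      ∃ α β, α ≠ β ∧ α + β = (mapRep (IsLocalRing.residue O') ρ φ).trace ∧
        α * β = (mapRep (IsLocalRing.residue O') ρ φ).det ∧ IsLocalRing.residue O' b = α) :
    ∀ P : ValuationSubring Qbar, P.LiesOverPrime t → ∀ τ ∈ P.inertiaSubgroupIn ℚ,
      (ρ τ).trace = 1 + (ρ τ).det := by
  intro P hP τ hτ
  -- raise the level by an auxiliary prime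
  obtain ⟨r, hr5, hr⟩ := Nat.exists_infinite_primes (t + 5)
  have : NeZero r := ⟨hr.ne_zero⟩
  have h5 : 5 ≤ M * r := le_trans (by omega) (Nat.le_mul_of_pos_left r (NeZero.pos M))
  have htN : ¬ t ∣ M * r := fun h => (ht.dvd_mul.mp h).elim hM fun h' => by
    have := (Nat.prime_dvd_prime_iff_eq ht hr).mp h'; omega
  have : NeZero (M * t) := ⟨Nat.mul_ne_zero (NeZero.ne M) ht.ne_zero⟩
  have : NeZero (M * r * t) :=
    ⟨Nat.mul_ne_zero (Nat.mul_ne_zero (NeZero.ne M) hr.ne_zero) ht.ne_zero⟩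
  have hdvd : M * t ∣ M * r * t := mul_dvd_mul_right (dvd_mul_right M r) t
  set δ' := DirichletCharacter.changeLevel hdvd δ with hδ'
  have hδu : ∀ d : ℤ, IsUnit (d : ZMod (M * r * t)) →
      δ' (d : ZMod (M * r * t)) = δ (d : ZMod (M * t)) := changeLevel_intCast hdvd δ
  have hl : ∀ l : ℕ, l.Prime → l ∉ insert r S →
      δ' (l : ZMod (M * r * t)) = δ (l : ZMod (M * t)) := fun l hl hlS => by
    rw [Finset.mem_insert, not_or] at hlS
    have hu : IsUnit ((l : ℤ) : ZMod (M * r * t)) := by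
      rw [Int.cast_natCast, ZMod.isUnit_iff_coprime, hl.coprime_iff_not_dvd]
      intro h
      rcases hl.dvd_mul.mp h with h | h
      · rcases hl.dvd_mul.mp h with h | h
        · exact hlS.2 (hS l hl ((h.mul_right t).mul_right p))
        · exact hlS.1 ((Nat.prime_dvd_prime_iff_eq hl hr).mp h)
      · exact hlS.2 (hS l hl ((h.mul_left M).mul_right p))
    simpa using hδu l hu
  refine IgusaCover.trace_inertia_core p hp2 (N := M * r) h5 ht htp htN ht1 δ' ?_ (insert r S) ?_ a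
    Φ ?_ hne ?_ b hb ρ hρ ?_ hirr hdist P hP τ hτ
  · intro u
    obtain ⟨k, hk⟩ := hδ (ZMod.unitsMap hdvd u)
    refine ⟨k, ?_⟩
    rw [hδ', DirichletCharacter.changeLevel_eq_cast_of_dvd δ hdvd u]
    simpa [ZMod.unitsMap_val] using hk
  · intro q hq h
    rw [Finset.mem_insert]
    rcases hq.dvd_mul.mp h with h | h
    · rcases hq.dvd_mul.mp h with h | h
      · rcases hq.dvd_mul.mp h with h | h
        · exact Or.inr (hS q hq ((h.mul_right t).mul_right p))
        · exact Or.inl ((Nat.prime_dvd_prime_iff_eq hq hr).mp h)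
      · exact Or.inr (hS q hq ((h.mul_left M).mul_right p))
    · exact Or.inr (hS q hq (h.mul_left _))
  · refine ⟨hΦ.1, fun γ hγ x y => ?_⟩
    rw [hδu _ (isUnit_lowerRight hγ), hΦ.2 γ (IgusaCover.mem_gamma0_of_dvd hdvd hγ) x y]
  · intro l hl' hlS
    rw [tOpChar, hl l hl' hlS]
    exact ha l hl' fun h => hlS (Finset.mem_insert_of_mem h)
  · intro l hl' hlS Q hQ φ hφ
    rw [hl l hl' hlS]
    exact hfrob l hl' (fun h => hlS (Finset.mem_insert_of_mem h)) Q hQ φ hφ

end FLTAgent.ModularityLifting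

end
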