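import Fermat.Agent.ModularityLifting.Setup
import Fermat.Agent.FiniteFlat.Operations
import Fermat.Agent.TWPrimes.Core

/-!
# Taylor–Wiles primes for the patching engine

The translation of `exists_twPrimes_classDim` into the vocabulary of the modularity lifting
engine: cocycles which are trivial at the auxiliary places and flat at `p` otherwise.
-/

set_option autoImplicit false

open Matrix Module Polynomial
open scoped Pointwise TrivSqZeroExt
open ExtCitation (pPrime)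

noncomputable section

namespace FLTAgent.ModularityLifting

open FLTAgent.DefRing FLTAgent.Density FLTAgent.TWPrimes FLTAgent.LocalDuality

local instance fact_natPrimes_twPrimes (q : Nat.Primes) : Fact (q : ℕ).Prime := ⟨q.2⟩

variable {k : Type} [Field k]

/-- The invertible matrices of a matrix representation. -/
def glRep (ρ : MatRep k) : GalQ →* GL (Fin 2) k := ρ.toHomUnits

@[simp] theorem mat_glRep (ρ : MatRep k) (σ : GalQ) : mat (glRep ρ) σ = ρ σ := rfl

theorem adAct_glRep (ρ : MatRep k) (σ : GalQ) (m : Matrix (Fin 2) (Fin 2) k) :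
    adAct (glRep ρ) σ m = ρ σ * m * ρ σ⁻¹ := rfl

theorem isAdCocycle_iff (ρ : MatRep k) (c : AbsGal → Matrix (Fin 2) (Fin 2) k) :
    IsAdCocycle ρ c ↔ IsAdCocycleOn (glRep ρ) c ∧
      ∃ L : IntermediateField ℚ Qbar, FiniteDimensional ℚ L ∧
        ∀ σ : AbsGal, (∀ x ∈ L, σ x = x) → c σ = 0 :=
  ⟨fun ⟨h1, h2, h3⟩ => ⟨⟨h2, h1⟩, h3⟩, fun ⟨⟨h2, h1⟩, h3⟩ => ⟨h1, h2, h3⟩⟩

theorem isLevelConstant_of_isAdCocycle {ρ : MatRep k} {c : AbsGal → Matrix (Fin 2) (Fin 2) k}
    (hc : IsAdCocycle ρ c) :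
    groupCohomology.IsLevelConstant₁ (MonoidHom.id GalQ) c := by
  obtain ⟨h1, -, L, hL, hL0⟩ := hc
  refine ⟨L, hL, fun g s hs => ?_⟩
  show c (g * s) = c g
  rw [h1, hL0 s fun x hx => (IntermediateField.mem_fixingSubgroup_iff _ _).mp hs x hx,
    mul_zero, zero_mul, add_zero]

theorem adCoboundaries_eq [NeZero (2 : k)] (ρ : MatRep k) :
    adCoboundaries ρ = adCob (glRep ρ) := by
  refine le_antisymm ?_ fun c hc => ?_
  · rintro _ ⟨a, rfl⟩
    refine mem_adCob_iff.mpr ⟨-(a - (a.trace / 2) • 1), ?_, fun σ => ?_⟩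
    · rw [Matrix.trace_neg, Matrix.trace_sub, Matrix.trace_smul, Matrix.trace_one]
      simp [div_mul_cancel₀ _ (NeZero.ne (2 : k))]
    · show a - ρ σ * a * ρ σ⁻¹ = _
      rw [adAct_glRep]
      have : ρ σ * ρ σ⁻¹ = 1 := by rw [← map_mul, mul_inv_cancel, map_one]
      simp only [mul_neg, neg_mul, mul_sub, sub_mul, Matrix.mul_smul, Matrix.smul_mul, mul_one,
        this]
      abel
  · obtain ⟨m, -, hm⟩ := mem_adCob_iff.mp hc
    refine ⟨-m, funext fun σ => ?_⟩
    show -m - ρ σ * -m * ρ σ⁻¹ = c σ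
    rw [hm, adAct_glRep, mul_neg, neg_mul]
    abel

/-- A conjugate of a decomposition element. -/
theorem conj_mem_decompositionSubgroup {A : ValuationSubring Qbar} {g σ : GalQ}
    (hσ : σ ∈ (g • A).decompositionSubgroup ℚ) : g⁻¹ * σ * g ∈ A.decompositionSubgroup ℚ := by
  rw [MulAction.mem_stabilizer_iff] at hσ ⊢
  rw [mul_smul, mul_smul, hσ, inv_smul_smul]

theorem conj_mem_decompositionSubgroup' {A : ValuationSubring Qbar} {g σ : GalQ}
    (hσ : σ ∈ A.decompositionSubgroup ℚ) : g * σ * g⁻¹ ∈ (g • A).decompositionSubgroup ℚ := by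
  rw [MulAction.mem_stabilizer_iff] at hσ ⊢
  rw [mul_smul, mul_smul, inv_smul_smul, hσ]

/-- The invariants at any place above `q` have the dimension of the local invariants at `q`. -/
theorem finrank_adInvariants (ρ : MatRep k) (q : ℕ) [Fact q.Prime] {A : ValuationSubring Qbar}
    (hA : A.LiesOverPrime q) :
    finrank k (adInvariants ρ A) = finrank k (adFixed (locHom q (glRep ρ))) := by
  obtain ⟨g, rfl⟩ := exists_smul_eq_of_liesOverPrime Fact.out (padicPlace_liesOverPrime q) hA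
  set e := adMat (glRep ρ) g with he
  have hinv : ∀ m, adMat (glRep ρ) g⁻¹ (e m) = m := fun m => by
    rw [he, adMat_apply, adMat_apply, ← adAct_mul, inv_mul_cancel, adAct_one]
  have hinj : Function.Injective e := Function.LeftInverse.injective hinv
  have hmem : ∀ m, m ∈ adInvariants ρ (g • padicPlace q) ↔
      m.trace = 0 ∧ ∀ σ ∈ (g • padicPlace q).decompositionSubgroup ℚ,
        adAct (glRep ρ) σ m = m := fun m => by
    simp only [adInvariants, Submodule.mem_inf, LinearMap.mem_ker, Matrix.traceLinearMap_apply,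
      Submodule.mem_iInf, LinearMap.mem_eqLocus, LinearMap.comp_apply, LinearMap.mulLeft_apply,
      LinearMap.mulRight_apply, LinearMap.id_apply, adAct_glRep, mul_assoc]
  suffices (adFixed (locHom q (glRep ρ))).map e = adInvariants ρ (g • padicPlace q) by
    rw [← this]
    exact (Submodule.equivMapOfInjective e hinj _).finrank_eq.symm
  ext m
  rw [Submodule.mem_map, hmem]
  constructor
  · rintro ⟨x, hx, rfl⟩
    obtain ⟨htr, hfix⟩ := mem_adFixed_iff.mp hx
    refine ⟨by rw [he, adMat_apply, trace_adAct, htr], fun σ hσ => ?_⟩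
    obtain ⟨τ, hτ⟩ := exists_toGlobal q (conj_mem_decompositionSubgroup hσ)
    have h := hfix τ
    rw [locHom, adAct_comp, hτ] at h
    rw [he, adMat_apply, ← adAct_mul, show σ * g = g * (g⁻¹ * σ * g) by group, adAct_mul, h]
  · rintro ⟨htr, hfix⟩
    refine ⟨adAct (glRep ρ) g⁻¹ m, mem_adFixed_iff.mpr ⟨by rw [trace_adAct, htr], fun τ => ?_⟩, ?_⟩
    · rw [locHom, adAct_comp]
      have h := hfix _ (conj_mem_decompositionSubgroup' (g := g)
        (localGaloisToGlobal_mem_decompositionSubgroup q τ))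
      rw [← adAct_mul, show toGlobal q τ * g⁻¹ = g⁻¹ * (g * toGlobal q τ * g⁻¹) by group,
        adAct_mul]
      exact congrArg _ h
    · rw [he, adMat_apply, ← adAct_mul, mul_inv_cancel, adAct_one]

/-- A cocycle which is a coboundary on one decomposition group above `q` is one on the local
group at `q`. -/
theorem resLin_mem_adCob (ρ : MatRep k) (q : ℕ) [Fact q.Prime] {A : ValuationSubring Qbar}
    (hA : A.LiesOverPrime q) {c : AbsGal → Matrix (Fin 2) (Fin 2) k}
    (hc : IsAdCocycleOn (glRep ρ) c)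
    (h : ∃ a, a.trace = 0 ∧ ∀ σ ∈ A.decompositionSubgroup ℚ, c σ = a - ρ σ * a * ρ σ⁻¹) :
    resLin q c ∈ adCob (locHom q (glRep ρ)) := by
  obtain ⟨g, rfl⟩ := exists_smul_eq_of_liesOverPrime Fact.out (padicPlace_liesOverPrime q) hA
  obtain ⟨a, ha, hac⟩ := h
  refine mem_adCob_iff.mpr ⟨adAct (glRep ρ) g⁻¹ (-a + c g), ?_, fun τ => ?_⟩
  · rw [trace_adAct, Matrix.trace_add, Matrix.trace_neg, ha, hc.1, neg_zero, add_zero]
  set s := toGlobal q τ with hs
  have hσ := hac _ (conj_mem_decompositionSubgroup' (g := g)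
    (localGaloisToGlobal_mem_decompositionSubgroup q τ))
  rw [← hs] at hσ
  have hgi : c g⁻¹ = -adAct (glRep ρ) g⁻¹ (c g) := by
    have h1 := hc.2 g⁻¹ g
    rw [inv_mul_cancel, hc.map_one] at h1
    exact eq_neg_of_add_eq_zero_left h1.symm
  show c s = _
  rw [locHom, adAct_comp, ← hs]
  have h2 : c s = c g⁻¹ + adAct (glRep ρ) g⁻¹ (c (g * s * g⁻¹) +
      adAct (glRep ρ) (g * s * g⁻¹) (c g)) := by
    rw [← hc.2, ← hc.2]
    congr 1
    group
  rw [h2, hσ, hgi, adAct_glRep ρ (g * s * g⁻¹), ← adAct_mul,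
    show s * g⁻¹ = g⁻¹ * (g * s * g⁻¹) by group, adAct_mul]
  simp only [adAct_glRep, mul_add, add_mul, mul_sub, sub_mul, mul_neg, neg_mul]
  abel

variable (p : ℕ) [Fact p.Prime]

theorem det_eq_cycloChar [CharP k p] {ρ : MatRep k} (hdet : DetCyclotomic ρ p) (g : GalQ) :
    (mat (glRep ρ) g).det =
      ZMod.castHom (dvd_refl p) k (ExtCitation.cycloChar p g : ZMod p) := by
  have : NeZero p := ⟨(Fact.out : p.Prime).ne_zero⟩
  have h := hdet 1 g ((cyclo p g : (ZMod p)ˣ) : ZMod p).val (fun μ hμ =>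
    cyclo_spec p g (by rwa [pow_one] at hμ))
  rw [pow_one, CharP.cast_eq_zero k p, Ideal.span_singleton_eq_bot.mpr rfl, Ideal.mem_bot,
    sub_eq_zero] at h
  rw [mat_glRep, h, ← cyclo_eq_cycloChar, ZMod.castHom_apply, ZMod.cast_eq_val]

theorem noInducedLine_glRep {ρ : MatRep k} (hirr : AbsIrreducibleOn ρ ⊤)
    (hTW : ∀ G : Subgroup AbsGal, G.index = 2 → AbsIrreducibleOn ρ G)
    (hsplit : ∀ σ, ∃ α β : k, α + β = (ρ σ).trace ∧ α * β = (ρ σ).det) :
    NoInducedLine (glRep ρ) := by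
  refine ⟨fun σ => ?_, fun H hH v hv => ?_⟩
  · obtain ⟨α, β, h1, h2⟩ := hsplit σ
    refine ⟨α, ?_⟩
    rw [Matrix.trace_fin_two] at h1
    rw [Matrix.det_fin_two] at h2 ⊢
    simp only [mat_glRep, Matrix.sub_apply, Matrix.smul_apply, Matrix.one_apply, smul_eq_mul]
    norm_num
    linear_combination α * h1 - h2
  by_contra hcon
  push Not at hcon
  have key : ∀ G : Subgroup AbsGal, (∀ σ ∈ G, σ ∈ H) → ∀ σ ∈ G,
      ∃ a : k, Matrix.mulVec ((ρ σ).map (RingHom.id k)) v = a • v := fun G hG σ hσ => by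
    obtain ⟨a, ha⟩ := hcon σ (hG σ hσ)
    exact ⟨a, by simpa using ha⟩
  by_cases htop : ∀ g, g ∈ H
  · exact hv (hirr k (RingHom.id k) v (key ⊤ fun σ _ => htop σ))
  push Not at htop
  obtain ⟨a, ha⟩ := htop
  have hidx : H.index = 2 := Subgroup.index_eq_two_iff.mpr ⟨a, fun g => by
    by_cases hg : g ∈ H
    · exact Or.inr ⟨hg, fun h => ha (by simpa using H.mul_mem (H.inv_mem hg) h)⟩
    · exact Or.inl ⟨hH g a hg ha, hg⟩⟩
  exact hv (hTW H hidx k (RingHom.id k) v (key H fun σ h => h))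

/-- The deformation of a cocycle to the dual numbers. -/
def dualLift (ρ : MatRep k) {c : AbsGal → Matrix (Fin 2) (Fin 2) k}
    (hc : IsAdCocycleOn (glRep ρ) c) : MatRep (TrivSqZeroExt k k) where
  toFun σ := Matrix.of fun i j =>
    TrivSqZeroExt.inl (ρ σ i j) + TrivSqZeroExt.inr ((c σ * ρ σ) i j)
  map_one' := by
    ext i j : 1
    rw [Matrix.of_apply, hc.map_one, map_one, zero_mul, Matrix.zero_apply, TrivSqZeroExt.inr_zero,
      add_zero]
    by_cases hij : i = j <;> simp [Matrix.one_apply, hij]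
  map_mul' σ τ := by
    ext i j : 1
    have e : c (σ * τ) * ρ (σ * τ) = c σ * ρ σ * ρ τ + ρ σ * (c τ * ρ τ) := by
      rw [hc.2, adAct_glRep, map_mul, add_mul]
      simp only [← mul_assoc]
      rw [mul_assoc (ρ σ * c τ) (ρ σ⁻¹) (ρ σ), ← map_mul ρ σ⁻¹, inv_mul_cancel, map_one, mul_one]
    rw [Matrix.of_apply, e, map_mul]
    ext <;>
      simp only [Matrix.mul_apply, Matrix.of_apply, Matrix.add_apply, Fin.sum_univ_two,
        TrivSqZeroExt.fst_add, TrivSqZeroExt.snd_add, TrivSqZeroExt.fst_mul,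
        TrivSqZeroExt.snd_mul, TrivSqZeroExt.fst_inl, TrivSqZeroExt.fst_inr,
        TrivSqZeroExt.snd_inl, TrivSqZeroExt.snd_inr, smul_eq_mul, MulOpposite.smul_eq_mul_unop,
        MulOpposite.unop_op, zero_add, add_zero]
    all_goals ring

omit [Fact (Nat.Prime p)] in
theorem isFlatClass_of_flatAt [Finite k] {ρ : MatRep k} {c : AbsGal → Matrix (Fin 2) (Fin 2) k}
    (hc : IsAdCocycle ρ c)
    (hflat : ∀ M : MatRep (TrivSqZeroExt k k), (∀ σ i j,
      M σ i j = (TrivSqZeroExt.inl (ρ σ i j) + TrivSqZeroExt.inr ((c σ * ρ σ) i j))) →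
      FlatAt M p) :
    IsFlatClass p (glRep ρ) c := by
  have hco := ((isAdCocycle_iff ρ c).mp hc).1
  refine ⟨hco, isLevelConstant_of_isAdCocycle hc, ?_⟩
  have : Finite (TrivSqZeroExt k k) := inferInstanceAs (Finite (k × k))
  set M := dualLift ρ hco
  have : Finite (TrivSqZeroExt k k ⧸ (⊥ : Ideal (TrivSqZeroExt k k))) :=
    Finite.of_surjective _ Ideal.Quotient.mk_surjective
  have hM := hflat M (fun σ i j => rfl) ⊥ inferInstance
  let e : TrivSqZeroExt k k ⧸ (⊥ : Ideal (TrivSqZeroExt k k)) ≃+* TrivSqZeroExt k k :=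
    RingEquiv.quotientBot _
  let f : ((Fin 2 → k) × (Fin 2 → k)) →+
      (Fin 2 → TrivSqZeroExt k k ⧸ (⊥ : Ideal (TrivSqZeroExt k k))) :=
    AddMonoidHom.mk' (fun v i => Ideal.Quotient.mk _
      (TrivSqZeroExt.inl (v.1 i) + TrivSqZeroExt.inr (v.2 i))) fun v w => funext fun i => by
      simp only [Pi.add_apply, Prod.fst_add, Prod.snd_add, TrivSqZeroExt.inl_add,
        TrivSqZeroExt.inr_add, map_add]
      abel
  refine FiniteFlat.HasFlatModel.of_jointly_injective (ι := Unit) (fun _ => hM) (fun _ => f)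
    (fun _ σ x => funext fun i => ?_) fun x y hxy => ?_
  · show Ideal.Quotient.mk _ (TrivSqZeroExt.inl ((ρ σ *ᵥ x.1) i) +
      TrivSqZeroExt.inr ((ρ σ *ᵥ x.2 + (c σ * ρ σ) *ᵥ x.1) i)) =
      ((Ideal.Quotient.mk _).mapMatrix (M σ) *ᵥ f x) i
    rw [show f x = (fun j => Ideal.Quotient.mk (⊥ : Ideal (TrivSqZeroExt k k))
      (TrivSqZeroExt.inl (x.1 j) + TrivSqZeroExt.inr (x.2 j))) from rfl]
    simp only [Pi.add_apply, Matrix.mulVec, dotProduct, RingHom.mapMatrix_apply, Matrix.map_apply,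
      ← map_mul, ← map_sum]
    congr 1
    ext <;>
      simp only [Fin.sum_univ_two, M, dualLift, MonoidHom.coe_mk, OneHom.coe_mk, Matrix.of_apply,
        TrivSqZeroExt.fst_add, TrivSqZeroExt.snd_add, TrivSqZeroExt.fst_mul,
        TrivSqZeroExt.snd_mul, TrivSqZeroExt.fst_inl, TrivSqZeroExt.fst_inr,
        TrivSqZeroExt.snd_inl, TrivSqZeroExt.snd_inr, smul_eq_mul, MulOpposite.smul_eq_mul_unop,
        MulOpposite.unop_op, zero_add, add_zero]
    all_goals ring
  · have h := congr_fun (hxy ())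
    have h' : ∀ i, x.1 i = y.1 i ∧ x.2 i = y.2 i := fun i => by
      have h2 : (TrivSqZeroExt.inl (x.1 i) + TrivSqZeroExt.inr (x.2 i) : TrivSqZeroExt k k) =
          TrivSqZeroExt.inl (y.1 i) + TrivSqZeroExt.inr (y.2 i) := by
        simpa [f, e] using congrArg e (h i)
      exact ⟨by simpa using congrArg TrivSqZeroExt.fst h2,
        by simpa using congrArg TrivSqZeroExt.snd h2⟩
    exact Prod.ext (funext fun i => (h' i).1) (funext fun i => (h' i).2)

/-- **Taylor–Wiles primes** for the engine, from the flat local bound. -/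
theorem exists_twPrimes_of [Finite k] [CharP k p] (hp2 : p ≠ 2)
    (hflatBound : ∀ r : GalQ →* GL (Fin 2) k, GaloisFactorsThroughFiniteLevel r →
      (∀ g, (mat r g).det = ZMod.castHom (dvd_refl p) k (ExtCitation.cycloChar p g : ZMod p)) →
      ∀ W : Submodule k (GalQ → Matrix (Fin 2) (Fin 2) k), (∀ c ∈ W, IsFlatClass p r c) →
        Module.Finite k ((W.map (resLin p)).map (adCob (locHom p r)).mkQ) ∧
          classDim (locHom p r) (W.map (resLin p)) ≤ finrank k (adFixed (locHom p r)) + 1)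
    (ρ : MatRep k) (hρ : ∃ L : IntermediateField ℚ Qbar, FiniteDimensional ℚ L ∧
      ∀ σ : AbsGal, (∀ x ∈ L, σ x = x) → ρ σ = 1)
    (hdet : DetCyclotomic ρ p)
    (hirr : AbsIrreducibleOn ρ ⊤)
    (hTW : ∀ G : Subgroup AbsGal, G.index = 2 → AbsIrreducibleOn ρ G)
    (hsplit : ∀ σ, ∃ α β : k, α + β = (ρ σ).trace ∧ α * β = (ρ σ).det)
    (S : Finset ℕ) (hS : ∀ q ∈ S, q.Prime) (hpS : p ∈ S)
    (hram : ∀ q, q.Prime → q ∉ S → UnramifiedAt ρ q)
    (loc : Finset ℕ) (hloc : loc ⊆ S) :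
    ∃ r : ℕ, ∀ n : ℕ, ∃ qv : Fin r → ℕ, Function.Injective qv ∧
      (∀ i, (qv i).Prime ∧ qv i ∉ S ∧ qv i % p ^ (n + 1) = 1 ∧
        ∀ P : ValuationSubring Qbar, P.LiesOverPrime (qv i) → ∀ φ, P.IsFrobeniusAt φ (qv i) →
          ∃ α β : k, α ≠ β ∧ α + β = (ρ φ).trace ∧ α * β = (ρ φ).det) ∧
      ∀ (P : ℕ → ValuationSubring Qbar), (∀ v ∈ loc, (P v).LiesOverPrime v) →
      ∀ V : Submodule k (AbsGal → Matrix (Fin 2) (Fin 2) k),
        (∀ c ∈ V, IsAdCocycle ρ c ∧
          (∀ q, q.Prime → q ∉ loc → q ≠ p → (∀ i, qv i ≠ q) →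
            ∀ Q : ValuationSubring Qbar, Q.LiesOverPrime q → ∀ σ ∈ Q.inertiaSubgroupIn ℚ, c σ = 0) ∧
          (∀ v ∈ loc, ∃ a, a.trace = 0 ∧ ∀ σ ∈ (P v).decompositionSubgroup ℚ,
            c σ = a - ρ σ * a * ρ σ⁻¹) ∧
          (p ∉ loc → ∀ M : MatRep (TrivSqZeroExt k k), (∀ σ i j,
              M σ i j = (TrivSqZeroExt.inl (ρ σ i j) + TrivSqZeroExt.inr ((c σ * ρ σ) i j))) →
            FlatAt M p)) →
        Module.finrank k (V.map (adCoboundaries ρ).mkQ) +
          ∑ v ∈ loc, Module.finrank k (adInvariants ρ (P v)) +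
          (if p ∈ loc then 1 else 0) ≤ r := by
  classical
  have hp : p.Prime := Fact.out
  have : NeZero (2 : k) := ⟨fun h => hp2 (((Nat.prime_dvd_prime_iff_eq hp Nat.prime_two).mp
    ((CharP.cast_eq_zero_iff k p 2).mp (by exact_mod_cast h))))⟩
  let : Algebra (ZMod p) k := ZMod.algebra k p
  set g₀ := glRep ρ with hg₀
  have hfin : GaloisFactorsThroughFiniteLevel g₀ := by
    obtain ⟨L, hL, h1⟩ := hρ
    exact ⟨L, hL, fun σ hσ => Units.ext (h1 σ hσ)⟩
  have hdet' := det_eq_cycloChar p hdet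
  let S' : Finset Nat.Primes := S.subtype Nat.Prime
  have hmem : ∀ q : Nat.Primes, q ∈ S' ↔ (q : ℕ) ∈ S := fun q => Finset.mem_subtype
  have himg : S'.image (fun q : Nat.Primes => (q : ℕ)) = S := by
    ext q
    simp only [Finset.mem_image, hmem]
    exact ⟨fun ⟨a, ha, e⟩ => e ▸ ha, fun h => ⟨⟨q, hS q h⟩, h, rfl⟩⟩
  obtain ⟨R, hR⟩ := exists_twPrimes_classDim (p := p) (r := g₀) hp2 hfin
    (noInducedLine_glRep hirr hTW hsplit) hdet' S' ((hmem (pPrime p)).mpr hpS)
    (fun q hq A hA σ hσ => Units.ext (hram q q.2 (mt (hmem q).mpr hq) A hA σ hσ))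
  refine ⟨R, fun n => ?_⟩
  obtain ⟨qv, hinj, hqv, hbound⟩ := hR n
  rw [himg] at hqv
  refine ⟨qv, hinj, fun i => ⟨(hqv i).prime, (hqv i).notMem, ?_, fun P hP φ hφ => ?_⟩, ?_⟩
  · have h1 : 1 ≤ qv i := (hqv i).prime.one_le
    have h2 : 1 < p ^ (n + 1) := Nat.one_lt_pow (Nat.succ_ne_zero n) hp.one_lt
    obtain ⟨d, hd⟩ := (hqv i).modEq
    rw [show qv i = 1 + p ^ (n + 1) * d by omega, Nat.add_mul_mod_self_left, Nat.mod_eq_of_lt h2]
  · obtain ⟨α, β, hne, h⟩ := (hqv i).distinct P hP φ hφ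
    refine ⟨α, β, hne, ?_, ?_⟩
    · have := Matrix.trace_eq_neg_charpoly_coeff (ρ φ)
      rw [hg₀, mat_glRep] at h
      rw [this, h]
      simp [mul_sub, sub_mul, coeff_X, coeff_C]
      ring
    · have := Matrix.det_eq_sign_charpoly_coeff (ρ φ)
      rw [hg₀, mat_glRep] at h
      rw [this, h]
      simp [mul_sub, sub_mul, coeff_X, coeff_C]
  intro P hP V hV
  have hunrV : ∀ c ∈ V, ∀ q : Nat.Primes, (q : ℕ) ∉ loc → (q : ℕ) ≠ p → (∀ i, qv i ≠ q) →
      ∀ A : ValuationSubring Qbar, A.LiesOverPrime (q : ℕ) →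
        ∀ σ ∈ A.inertiaSubgroupIn ℚ, c σ = 0 := fun c hc q h1 h2 h3 => (hV c hc).2.1 q q.2 h1 h2 h3
  have hlocal : ∀ q ∈ S', Module.Finite k
      ((V.map (resLin (q : ℕ))).map (adCob (locHom (q : ℕ) g₀)).mkQ) ∧
      classDim (locHom (q : ℕ) g₀) (V.map (resLin (q : ℕ))) + (if (q : ℕ) ∈ loc then
        finrank k (adFixed (locHom (q : ℕ) g₀)) else 0) ≤
        finrank k (adFixed (locHom (q : ℕ) g₀)) +
          (if q = pPrime p ∧ p ∉ loc then 1 else 0) := by
    intro q hq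
    by_cases hql : (q : ℕ) ∈ loc
    · have h0 : (V.map (resLin (q : ℕ))).map (adCob (locHom (q : ℕ) g₀)).mkQ = ⊥ := by
        rw [eq_bot_iff]
        rintro _ ⟨_, ⟨c, hc, rfl⟩, rfl⟩
        rw [Submodule.mem_bot, Submodule.mkQ_apply, Submodule.Quotient.mk_eq_zero]
        exact resLin_mem_adCob ρ q (hP _ hql) ((isAdCocycle_iff ρ c).mp (hV c hc).1).1
          ((hV c hc).2.2.1 _ hql)
      refine ⟨by rw [h0]; exact Module.Finite.bot k _, ?_⟩
      rw [classDim, h0, finrank_bot, if_pos hql, zero_add]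
      exact Nat.le_add_right _ _
    rw [if_neg hql, add_zero]
    by_cases hqp : q = pPrime p
    · subst hqp
      rw [if_pos ⟨rfl, hql⟩]
      exact hflatBound g₀ hfin hdet' V fun c hc =>
        isFlatClass_of_flatAt p (hV c hc).1 ((hV c hc).2.2.2 hql)
    rw [if_neg (fun h => hqp h.1), add_zero]
    refine classDim_le_of_unramified (q : ℕ) g₀ hfin (V.map (resLin (q : ℕ))) ?_
    rintro _ ⟨c, hc, rfl⟩
    have hco := ((isAdCocycle_iff ρ c).mp (hV c hc).1).1
    obtain ⟨F, hF, hFc⟩ := isLevelConstant_of_isAdCocycle (hV c hc).1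
    refine ⟨⟨fun g => hco.1 _, fun g h => ?_⟩, ⟨F, hF, fun g s hs => ?_⟩, 0,
      by simp, fun τ hτ => ?_⟩
    · show c (toGlobal (q : ℕ) (g * h)) = c (toGlobal (q : ℕ) g) +
        adAct (g₀.comp (toGlobal (q : ℕ))) g (c (toGlobal (q : ℕ) h))
      rw [map_mul, hco.2, adAct_comp]
    · show c (toGlobal (q : ℕ) (g * s)) = _
      rw [map_mul]
      exact hFc _ _ hs
    · show c (toGlobal (q : ℕ) τ) = _
      rw [hunrV c hc q hql (fun e => hqp (Subtype.ext e))
        (fun i e => (hqv i).notMem (e ▸ (hmem q).mp hq)) _ (padicPlace_liesOverPrime _) _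
        ((isLocalInertia_iff (q : ℕ) τ).mp hτ)]
      simp [adAct]
  obtain ⟨-, hmain⟩ := hbound V (fun c hc => ⟨((isAdCocycle_iff ρ c).mp (hV c hc).1).1,
    isLevelConstant_of_isAdCocycle (hV c hc).1, fun q hq hqi => hunrV c hc q
      (fun h => hq ((hmem q).mpr (hloc h))) (fun h => hq ((hmem q).mpr (h ▸ hpS))) hqi⟩)
    (fun q hq => (hlocal q hq).1)
  have hsum := Finset.sum_le_sum (fun q hq => (hlocal q hq).2)
  rw [Finset.sum_add_distrib, Finset.sum_add_distrib] at hsum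
  have h1 : ∑ q ∈ S', (if (q : ℕ) ∈ loc then finrank k (adFixed (locHom (q : ℕ) g₀)) else 0) =
      ∑ v ∈ loc, finrank k (adInvariants ρ (P v)) := by
    rw [← Finset.sum_filter]
    refine Finset.sum_bij (fun q _ => (q : ℕ)) (fun q hq => (Finset.mem_filter.mp hq).2)
      (fun a _ b _ h => Subtype.ext h)
      (fun v hv => ⟨⟨v, hS v (hloc hv)⟩,
        Finset.mem_filter.mpr ⟨(hmem _).mpr (hloc hv), hv⟩, rfl⟩)
      fun q hq => (finrank_adInvariants ρ (q : ℕ) (hP _ (Finset.mem_filter.mp hq).2)).symm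
  have h2 : ∑ q ∈ S', (if q = pPrime p ∧ p ∉ loc then (1 : ℕ) else 0) ≤
      if p ∉ loc then 1 else 0 := by
    by_cases h : p ∈ loc
    · simp [h]
    · simp [h, Finset.sum_ite_eq']
      split <;> simp
  rw [adCoboundaries_eq]
  change classDim g₀ V + _ + _ ≤ R
  rw [h1] at hsum
  by_cases h : p ∈ loc
  · rw [if_pos h]; rw [if_neg (not_not.mpr h)] at h2; omega
  · rw [if_neg h]; rw [if_pos h] at h2; omega

end FLTAgent.ModularityLifting
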