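import Fermat.Agent.LevelRaising.Hecke
import Mathlib.NumberTheory.DirichletCharacter.Basic
import Mathlib.RingTheory.LocalRing.MaximalIdeal.Basic

/-!
# Modular symbols with a character, and their parts at a residual eigenvalue system

Definitions used throughout: `SymbChar` (symbols of level `L` and character `δ`), `tOpChar` (the
Hecke operators on them), `eigenPart` (the part at a residual system of eigenvalues) and `twistOp`
(twisting by a character).
-/

set_option autoImplicit false

noncomputable section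

namespace FLTAgent.ModularityLifting

open FLTAgent.LevelRaising CongruenceSubgroup
open scoped MatrixGroups

variable (R : Type) [CommRing R] {L : ℕ}

/-- Modular symbols of level `L` and character `δ`. -/
def SymbChar (δ : DirichletCharacter R L) : Submodule R (Cusp → Cusp → R) where
  carrier := {Φ | (∀ x y z, Φ x y + Φ y z = Φ x z) ∧
    ∀ γ ∈ Gamma0 L, ∀ x y, Φ (glQ γ • x) (glQ γ • y) = δ ((γ 1 1 : ℤ) : ZMod L) * Φ x y}
  zero_mem' := ⟨fun _ _ _ => add_zero 0, fun _ _ _ _ => (mul_zero _).symm⟩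
  add_mem' := by
    rintro Φ Ψ ⟨h1, h2⟩ ⟨h3, h4⟩
    refine ⟨fun x y z => ?_, fun γ hγ x y => ?_⟩
    · simp only [Pi.add_apply]; rw [← h1 x y z, ← h3 x y z]; ring
    · simp only [Pi.add_apply]; rw [h2 γ hγ, h4 γ hγ]; ring
  smul_mem' := by
    rintro c Φ ⟨h1, h2⟩
    refine ⟨fun x y z => ?_, fun γ hγ x y => ?_⟩
    · simp only [Pi.smul_apply, smul_eq_mul]; rw [← h1 x y z]; ring
    · simp only [Pi.smul_apply, smul_eq_mul]; rw [h2 γ hγ]; ring

/-- The Hecke operator `T_ℓ` on symbols with character `δ`. -/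
def tOpChar (δ : DirichletCharacter R L) (ℓ : ℕ) :
    (Cusp → Cusp → R) →ₗ[R] (Cusp → Cusp → R) :=
  δ (ℓ : ZMod L) • pull R (ofMat (heckeFam ℓ none)) +
    ∑ j : Fin ℓ, pull R (ofMat (heckeFam ℓ (some j)))

/-- The symbols on which each `T_ℓ`, for `ℓ ∉ S`, is topologically nilpotent after subtracting
`a ℓ`: the part at the residual system of eigenvalues `a`. -/
def eigenPart [IsLocalRing R] (δ : DirichletCharacter R L) (S : Finset ℕ) (a : ℕ → R) :
    Submodule R (Cusp → Cusp → R) :=
  SymbChar R δ ⊓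
    ⨅ (ℓ : ℕ) (_ : ℓ.Prime) (_ : ℓ ∉ S) (n : ℕ), ⨆ j : ℕ,
      (IsLocalRing.maximalIdeal R ^ n • SymbChar R δ).comap
        ((tOpChar R δ ℓ - a ℓ • LinearMap.id) ^ j)

/-- The twisting operator by a character modulo `t`. -/
def twistOp (R : Type) [CommRing R] {t : ℕ} (χ : DirichletCharacter R t) :
    (Cusp → Cusp → R) →ₗ[R] (Cusp → Cusp → R) :=
  ∑ u : Fin t, χ (u : ZMod t) • pull R (ofMat !![(t : ℤ), (u : ℤ); 0, (t : ℤ)])

end FLTAgent.ModularityLifting
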