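import Fermat.Agent.ModularityLifting.NewformOfSymb
import Fermat.Agent.Newforms.QNew

/-!
# Newforms of level exponent two from symbols in the kernels of `U_q` and the trace

`exists_newform_sq_of_ker_trace`: an eigensymbol of level `N q²` killed by `U_q` and by the trace to
level `N q` comes from a newform whose level is divisible by `q²`.
-/

set_option autoImplicit false

noncomputable section

namespace FLTAgent.ModularityLifting

open FLTAgent.LevelRaising CongruenceSubgroup ModularFormClass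
open scoped MatrixGroups

/-- A nonzero common eigenvector of the good Hecke operators gives a normalised eigenform. -/
theorem exists_eigenform_of_eigvec {L : ℕ} [NeZero L] {h : CuspForm (Gamma0 L) 2} (h0 : h ≠ 0)
    (heig : ∀ (ℓ : ℕ) (hℓ : ℓ.Prime) (hℓL : ¬ ℓ ∣ L),
      ∃ c : ℂ, CuspForm.heckeTLin 2 hℓ hℓL h = c • h) :
    ∃ G : CuspForm (Gamma0 L) 2, G.IsNormalizedEigenform ∧
      ∀ (ℓ : ℕ) (hℓ : ℓ.Prime) (hℓL : ¬ ℓ ∣ L),
        CuspForm.heckeTLin 2 hℓ hℓL h = qCoeff G ℓ • h := by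
  obtain ⟨G, hG, hGh⟩ := Eigenforms.exists_eigenform_of_eigenvector (S := {r | r ∣ L})
    (MFIntegral.hasIntegralStructure L 2) h0 (fun ℓ hℓ hℓL _ => heig ℓ hℓ hℓL)
    (fun r hrL _ hrS => absurd hrL hrS)
  refine ⟨G, hG, fun ℓ hℓ hℓL => ?_⟩
  rw [← Eigenforms.eigenChar_T (S := {r | r ∣ L}) hG hℓ hℓL hℓL]
  exact hGh (CuspForm.heckeAlgebra.T hℓ hℓL hℓL)

section

variable {q N : ℕ}

theorem realGL_ofMat_trRep {K : ℕ} (j : Fin q) :
    realGL (ofMat (Newforms.trRep q K j).1) =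
      Matrix.SpecialLinearGroup.mapGL ℝ (Newforms.trRep q K j) := by
  ext a b
  rw [realGL_apply, ofMat_coe, glQ_apply]
  simp

variable [NeZero (N * q)] [NeZero (q * (N * q))]

/-- The trace of symbols computes the trace of forms. -/
theorem pairSymb_trDown (hq : q.Prime) (s t : CuspForm (Gamma0 (q * (N * q))) 2) :
    pairSymb (q * (N * q))
      (Eigenforms.raiseLevel (dvd_mul_left (N * q) q) 2
          (Newforms.trDown hq (dvd_mul_left q N) s),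
        Eigenforms.raiseLevel (dvd_mul_left (N * q) q) 2
          (Newforms.trDown hq (dvd_mul_left q N) t)) =
      pullFam ℂ (fun j : Fin q => (Newforms.trRep q (N * q) j).1)
        (pairSymb (q * (N * q)) (s, t)) := by
  have hdet : ∀ j : Fin q, 0 < ((Newforms.trRep q (N * q) j).1 : M2).det := fun j => by simp
  have key : ∀ f : CuspForm (Gamma0 (q * (N * q))) 2,
      perSymb (q * (N * q)) (Eigenforms.raiseLevel (dvd_mul_left (N * q) q) 2
        (Newforms.trDown hq (dvd_mul_left q N) f)) =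
      pullFam ℂ (fun j : Fin q => (Newforms.trRep q (N * q) j).1) (perSymb (q * (N * q)) f) :=
    fun f => perSymb_pullFam hdet f _ (by
      simp only [Eigenforms.coe_raiseLevel, Newforms.coe_trDown, Newforms.trSum,
        realGL_ofMat_trRep])
  have : NeZero q := ⟨hq.ne_zero⟩
  set σ : Fin q → Fin q := fun j => ⟨(q - (j : ℕ)) % q, Nat.mod_lt _ hq.pos⟩
  have hσ : Function.Bijective σ := Finite.injective_iff_bijective.mp fun i j hij => by
    have h : (q - (i : ℕ)) % q = (q - (j : ℕ)) % q := congrArg Fin.val hij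
    have e := (ZMod.natCast_eq_natCast_iff' (q - (i : ℕ)) (q - (j : ℕ)) q).mpr h
    rw [Nat.cast_sub i.isLt.le, Nat.cast_sub j.isLt.le] at e
    exact Newforms.natCast_zmod_inj (sub_right_injective e)
  have hg : ∀ j : Fin q, ∃ g : Gamma0 (q * (N * q)),
      jMat * (Newforms.trRep q (N * q) j).1 =
        ((g : SL(2, ℤ)) : M2) * (Newforms.trRep q (N * q) (σ j)).1 * jMat := by
    intro j
    obtain ⟨t, ht⟩ : (q : ℤ) ∣ ((j : ℕ) : ℤ) + ((σ j : ℕ) : ℤ) := by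
      rw [← ZMod.intCast_zmod_eq_zero_iff_dvd]
      push_cast [σ]
      rw [Nat.cast_sub j.isLt.le, ZMod.natCast_self]
      ring
    obtain ⟨g, hg, hge⟩ := exists_gamma0_eq (M := q * (N * q))
      (δ := !![1, 0; -(((q * (N * q) : ℕ) : ℤ) * t), 1]) (by simp [Matrix.det_fin_two_of]) (by simp)
    refine ⟨⟨g, hg⟩, ?_⟩
    rw [show (((⟨g, hg⟩ : Gamma0 (q * (N * q))) : SL(2, ℤ)) : M2) =
      !![1, 0; -(((q * (N * q) : ℕ) : ℤ) * t), 1] from hge]
    ext a b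
    fin_cases a <;> fin_cases b <;>
      simp [jMat, Newforms.coe_trRep, Matrix.mul_apply, Fin.sum_univ_two]
    linear_combination ((N : ℤ) * q) * ht
  choose g hg using hg
  rw [pairSymb_apply, pairSymb_apply, map_add, key, key,
    jOp_pullFam (perSymb_mem t) _ (fun j => (hdet j).ne') σ hσ g hg]

end

/-- An eigensymbol of level `N q²` killed by `U_q` and by the trace to level `N q` comes from a
newform whose level is divisible by `q²`. -/
theorem exists_newform_sq_of_ker_trace' {N q : ℕ} [NeZero (N * q)] [NeZero (q * (N * q))]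
    (hq : q.Prime) (hqN : ¬ q ∣ N)
    {Φ : Cusp → Cusp → ℂ} (hΦ : Φ ∈ Lev ℂ (q * (N * q))) (hne : Φ ≠ 0)
    (h1 : ∑ j : Fin q, pull ℂ (ofMat !![1, 0; ((N * q * (j : ℕ) : ℕ) : ℤ), 1]) Φ = 0)
    (h2 : uOp ℂ q Φ = 0) (S : Finset ℕ) (hS : ∀ l, l.Prime → l ∣ q * (N * q) → l ∈ S) (a : ℕ → ℂ)
    (ha : ∀ l, l.Prime → l ∉ S → tOp ℂ l Φ = a l • Φ)
    (hneis : ∃ ℓ, ℓ.Prime ∧ ℓ ∉ S ∧ ℓ % (q * (N * q)) = 1 % (q * (N * q)) ∧ a ℓ ≠ 1 + ℓ) :
    ∃ (M : ℕ) (g : CuspForm (Gamma0 M) 2), M ∣ q * (N * q) ∧ q ^ 2 ∣ M ∧ g.IsNewform ∧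
      ∀ l, l.Prime → l ∉ S → ModularFormClass.qCoeff g l = a l := by
  classical
  set L := q * (N * q)
  have hnS : ∀ l, l.Prime → l ∉ S → ¬ l ∣ L := fun l hl hlS h => hlS (hS l hl h)
  obtain ⟨ℓ₀, hℓ₀, hℓ₀S, hℓ₀1, hℓ₀a⟩ := hneis
  obtain ⟨⟨s, t⟩, hst⟩ := exists_pairSymb_eq hΦ hℓ₀ (hnS ℓ₀ hℓ₀ hℓ₀S) hℓ₀1 (ha ℓ₀ hℓ₀ hℓ₀S) hℓ₀a
  have hU : CuspForm.heckeULin 2 (dvd_mul_right q (N * q)) s = 0 ∧
      CuspForm.heckeULin 2 (dvd_mul_right q (N * q)) t = 0 := by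
    refine Prod.mk_eq_zero.mp (pairSymb_injective (L := L) ?_)
    rw [← uOp_pairSymb hq (dvd_mul_right q (N * q)) (s, t), hst, h2, map_zero]
  have hTr : Newforms.trDown hq (dvd_mul_left q N) s = 0 ∧
      Newforms.trDown hq (dvd_mul_left q N) t = 0 := by
    have h : (Eigenforms.raiseLevel (dvd_mul_left (N * q) q) 2
        (Newforms.trDown hq (dvd_mul_left q N) s),
      Eigenforms.raiseLevel (dvd_mul_left (N * q) q) 2
        (Newforms.trDown hq (dvd_mul_left q N) t)) =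
        ((0 : CuspForm (Gamma0 L) 2), (0 : CuspForm (Gamma0 L) 2)) := by
      refine pairSymb_injective (L := L) ?_
      rw [pairSymb_trDown hq s t, hst, Prod.mk_zero_zero, map_zero, pullFam_apply]
      exact h1
    simp only [Prod.mk.injEq] at h
    exact ⟨DFunLike.coe_injective ((congrArg (fun F : CuspForm (Gamma0 L) 2 => ⇑F) h.1 :) ),
      DFunLike.coe_injective ((congrArg (fun F : CuspForm (Gamma0 L) 2 => ⇑F) h.2 :))⟩
  have heigT : ∀ (l : ℕ) (hl : l.Prime) (hlS : l ∉ S),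
      (CuspForm.heckeTLin 2 hl (hnS l hl hlS) s, CuspForm.heckeTLin 2 hl (hnS l hl hlS) t) =
        a l • (s, t) := by
    intro l hl hlS
    apply pairSymb_injective
    rw [← tOp_pairSymb hl (hnS l hl hlS) (s, t), map_smul, hst, ha l hl hlS]
  -- refine to an eigenform at every good prime
  set U : Submodule ℂ (CuspForm (Gamma0 L) 2) := Newforms.qNew hq ⊓
    ⨅ (l : ℕ) (hl : l.Prime) (hlS : l ∉ S),
      LinearMap.ker (CuspForm.heckeTLin 2 hl (hnS l hl hlS) - a l • LinearMap.id)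
  have hmem : ∀ f, f ∈ U ↔ f ∈ Newforms.qNew hq ∧ ∀ (l : ℕ) (hl : l.Prime) (hlS : l ∉ S),
      CuspForm.heckeTLin 2 hl (hnS l hl hlS) f = a l • f := fun f => by
    simp [U, sub_eq_zero]
  have hUne : U ≠ ⊥ := by
    refine (Submodule.ne_bot_iff _).mpr ?_
    rcases eq_or_ne s 0 with hs | hs
    · refine ⟨t, (hmem t).mpr ⟨(Newforms.mem_qNew_iff hq t).mpr ⟨hTr.2, hU.2⟩,
        fun l hl hlS => congrArg Prod.snd (heigT l hl hlS)⟩, fun ht => hne ?_⟩
      rw [← hst, hs, ht, Prod.mk_zero_zero, map_zero]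
    · exact ⟨s, (hmem s).mpr ⟨(Newforms.mem_qNew_iff hq s).mpr ⟨hTr.1, hU.1⟩,
        fun l hl hlS => congrArg Prod.fst (heigT l hl hlS)⟩, hs⟩
  have : FiniteDimensional ℂ (CuspForm (Gamma0 L) 2) :=
    Eigenforms.cuspForm_finiteDimensional (MFIntegral.hasIntegralStructure L 2)
  set T := S.filter fun m => m.Prime ∧ ¬ m ∣ L
  let f : ℕ → Module.End ℂ (CuspForm (Gamma0 L) 2) := fun m =>
    if h : m.Prime ∧ ¬ m ∣ L then CuspForm.heckeTLin 2 h.1 h.2 else 0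
  have hf : ∀ (m : ℕ) (h : m.Prime) (h' : ¬ m ∣ L), f m = CuspForm.heckeTLin 2 h h' :=
    fun m h h' => dif_pos ⟨h, h'⟩
  have hT : ∀ {m}, m ∈ T → m.Prime ∧ ¬ m ∣ L := fun h => (Finset.mem_filter.mp h).2
  obtain ⟨x, hx, hx0, hxe⟩ := exists_common_eigvec f T U hUne
    (fun m hm v hv => by
      obtain ⟨hmp, hmN⟩ := hT hm
      obtain ⟨v1, v2⟩ := (hmem v).mp hv
      rw [hf m hmp hmN]
      refine (hmem _).mpr ⟨Newforms.heckeTLin_mem_qNew hq hmp hmN v1, fun l hl hlS => ?_⟩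
      rw [← Module.End.mul_apply, (CuspForm.heckeTLin_comm 2 hl (hnS l hl hlS) hmp hmN :
        Commute _ _).eq, Module.End.mul_apply, v2 l hl hlS, map_smul])
    (fun m hm k hk v _ => by
      rw [hf m (hT hm).1 (hT hm).2, hf k (hT hk).1 (hT hk).2, ← Module.End.mul_apply,
        (CuspForm.heckeTLin_comm 2 (hT hm).1 (hT hm).2 (hT hk).1 (hT hk).2 : Commute _ _).eq,
        Module.End.mul_apply])
  obtain ⟨x1, x2⟩ := (hmem x).mp hx
  obtain ⟨G, hG, hGx⟩ := exists_eigenform_of_eigvec hx0 fun l hl hlL => by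
    by_cases hlS : l ∈ S
    · obtain ⟨c, hc⟩ := hxe l (Finset.mem_filter.mpr ⟨hlS, hl, hlL⟩)
      exact ⟨c, hf l hl hlL ▸ hc⟩
    · exact ⟨a l, x2 l hl hlS⟩
  obtain ⟨M, hM0, g, hML, hg, hgG⟩ := Newforms.exists_newform_of_eigenform hG
  refine ⟨M, g, hML, Newforms.sq_dvd_level_of_qNew hq hqN x1 hx0 hML hg.1 fun p hp hpD =>
    (hGx p hp hpD).trans (by rw [hgG p hp hpD]), hg, fun l hl hlS => ?_⟩
  rw [hgG l hl (hnS l hl hlS)]
  exact smul_left_injective ℂ hx0 ((hGx l hl (hnS l hl hlS)).symm.trans (x2 l hl hlS))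

/-- `exists_newform_sq_of_ker_trace'`, with the level written as `N q²`. -/
theorem exists_newform_sq_of_ker_trace {N q : ℕ} [NeZero N] (hq : q.Prime) (hqN : ¬ q ∣ N)
    {Φ : Cusp → Cusp → ℂ} (hΦ : Φ ∈ Lev ℂ (N * q ^ 2)) (hne : Φ ≠ 0)
    (h1 : ∑ j : Fin q, pull ℂ (ofMat !![1, 0; ((N * q * (j : ℕ) : ℕ) : ℤ), 1]) Φ = 0)
    (h2 : uOp ℂ q Φ = 0) (S : Finset ℕ) (hS : ∀ l, l.Prime → l ∣ N * q ^ 2 → l ∈ S) (a : ℕ → ℂ)
    (ha : ∀ l, l.Prime → l ∉ S → tOp ℂ l Φ = a l • Φ)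
    (hneis : ∃ ℓ, ℓ.Prime ∧ ℓ ∉ S ∧ ℓ % (N * q ^ 2) = 1 % (N * q ^ 2) ∧ a ℓ ≠ 1 + ℓ) :
    ∃ (M : ℕ) (g : CuspForm (Gamma0 M) 2), M ∣ N * q ^ 2 ∧ q ^ 2 ∣ M ∧ g.IsNewform ∧
      ∀ l, l.Prime → l ∉ S → ModularFormClass.qCoeff g l = a l := by
  have : NeZero (N * q) := ⟨mul_ne_zero (NeZero.ne N) hq.ne_zero⟩
  have : NeZero (q * (N * q)) := ⟨mul_ne_zero hq.ne_zero (NeZero.ne _)⟩
  rw [show N * q ^ 2 = q * (N * q) by ring] at hΦ hS hneis ⊢
  exact exists_newform_sq_of_ker_trace' hq hqN hΦ hne h1 h2 S hS a ha hneis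

end FLTAgent.ModularityLifting
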