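import Fermat.Agent.ModularityLifting.CocycleLift
import Mathlib.RingTheory.Int.Basic

/-!
# Lifting residual symbols away from the boundary

For a prime `ℓ ≡ 1 (mod L)` the operator `(T_ℓ - 1 - ℓ) ^ 2` maps every residual symbol to the
reduction of a symbol: a lifted crossed homomorphism acquires trivial restrictions to all parabolic
subgroups after one application, and the boundary ambiguity is killed by the second.
-/

set_option autoImplicit false

noncomputable section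

namespace FLTAgent.ModularityLifting

open FLTAgent.LevelRaising CongruenceSubgroup IsLocalRing Matrix
open scoped MatrixGroups

local notation "GQ" => GL (Fin 2) ℚ

variable {R : Type} [CommRing R] {L : ℕ}

/-- `SL(2, ℤ) → GL(2, ℚ)` is injective. -/
theorem glQ_injective : Function.Injective (glQ : SL(2, ℤ) → GQ) := fun g h e => by
  refine Subtype.ext (Matrix.ext fun i j => ?_)
  have := congrArg (fun m : GQ => m i j) e
  simp only [glQ_apply, Int.cast_inj] at this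
  exact this

/-- `SL(2, ℤ)` acts transitively on the cusps. -/
theorem exists_glQ_smul_infty (x : Cusp) : ∃ u : SL(2, ℤ), glQ u • OnePoint.infty = x := by
  induction x using OnePoint.rec with
  | infty => exact ⟨1, by rw [map_one, one_smul]⟩
  | coe x =>
    obtain ⟨a, b, hab⟩ := (Int.isCoprime_iff_nat_coprime (a := x.num) (b := (x.den : ℤ))).mpr
      (by simpa using x.reduced)
    obtain ⟨u, hu⟩ : ∃ u : SL(2, ℤ), (u : M2) = !![x.num, -b; (x.den : ℤ), a] :=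
      ⟨⟨_, by rw [Matrix.det_fin_two_of]; linear_combination hab⟩, rfl⟩
    refine ⟨u, ?_⟩
    rw [OnePoint.smul_infty_eq_ite]
    simp [glQ_apply, hu, x.den_nz, Rat.num_div_den]

/-- The stabiliser of `∞` in `SL(2, ℤ)` consists of the `± T ^ n`. -/
theorem eq_zpow_of_smul_infty {g : SL(2, ℤ)}
    (h : glQ g • OnePoint.infty = (OnePoint.infty : Cusp)) : ∃ n : ℤ, g = mT ^ n ∨ g = -mT ^ n := by
  have hc : g 1 0 = 0 := by
    rw [OnePoint.smul_infty_eq_self_iff] at h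
    simpa [glQ_apply] using h
  have hdet := g.det_coe
  rw [Matrix.det_fin_two, hc, mul_zero, sub_zero] at hdet
  rcases Int.mul_eq_one_iff_eq_one_or_neg_one.mp hdet with ⟨ha, hd⟩ | ⟨ha, hd⟩
  · refine ⟨g 0 1, Or.inl (Subtype.ext ?_)⟩
    rw [ModularGroup.coe_T_zpow]
    ext i j
    fin_cases i <;> fin_cases j <;> simp [ha, hd, hc]
  · refine ⟨-g 0 1, Or.inr (Subtype.ext ?_)⟩
    rw [Matrix.SpecialLinearGroup.coe_neg, ModularGroup.coe_T_zpow]
    ext i j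
    fin_cases i <;> fin_cases j <;> simp [ha, hd, hc]

/-- The index at which the content of `A i • v` is `ℓ`. -/
def IsBigIndex (ℓ : ℕ) (u : SL(2, ℤ)) (i : Option (Fin ℓ)) : Prop :=
  (ℓ : ℤ) ∣ (heckeFam ℓ i * (u : M2)) 0 0 ∧ (ℓ : ℤ) ∣ (heckeFam ℓ i * (u : M2)) 1 0

/-- Exactly one index has content `ℓ`. -/
theorem existsUnique_bigIndex {ℓ : ℕ} (hℓ : ℓ.Prime) (u : SL(2, ℤ)) :
    ∃! i, IsBigIndex ℓ u i := by
  have hp := Nat.prime_iff_prime_int.mp hℓ
  have hdet := u.det_coe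
  rw [Matrix.det_fin_two] at hdet
  have hnone : IsBigIndex ℓ u none ↔ (ℓ : ℤ) ∣ u 1 0 := by
    simp [IsBigIndex, Matrix.mul_apply, Fin.sum_univ_two]
  have hsome : ∀ j, IsBigIndex ℓ u (some j) ↔ (ℓ : ℤ) ∣ u 0 0 + ((j : ℕ) : ℤ) * u 1 0 := by
    intro j
    simp [IsBigIndex, Matrix.mul_apply, Fin.sum_univ_two]
  by_cases hc : (ℓ : ℤ) ∣ u 1 0
  · refine ⟨none, hnone.mpr hc, fun i hi => ?_⟩
    rcases i with _ | j
    · rfl
    · exfalso
      have ha : (ℓ : ℤ) ∣ u 0 0 := (dvd_add_left (dvd_mul_of_dvd_right hc _)).mp ((hsome j).mp hi)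
      exact not_prime_dvd_one hℓ (hdet ▸ dvd_sub (dvd_mul_of_dvd_left ha _)
        (dvd_mul_of_dvd_right hc _))
  · obtain ⟨j, hj⟩ := exists_fin_modEq hℓ hc (-u 0 0)
    refine ⟨some j, (hsome j).mpr ?_, fun i hi => ?_⟩
    · have := dvd_neg.mpr hj
      refine this.trans (dvd_of_eq ?_)
      ring
    · rcases i with _ | j'
      · exact absurd (hnone.mp hi) hc
      · congr 1
        refine fin_eq_of_dvd_sub ?_
        have := dvd_add ((hsome j').mp hi) hj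
        have h2 : (ℓ : ℤ) ∣ u 1 0 * (((j' : ℕ) : ℤ) - ((j : ℕ) : ℤ)) :=
          this.trans (dvd_of_eq (by ring))
        exact (hp.dvd_mul.mp h2).resolve_left hc

/-- `A_i u = h u B` with `h` in the kernel of the character and `B` upper triangular. -/
theorem exists_decomp {ℓ : ℕ} (hℓ : ℓ.Prime) (hℓ1 : (ℓ : ZMod L) = 1) (u : SL(2, ℤ))
    (i : Option (Fin ℓ)) :
    ∃ (h : SL(2, ℤ)) (c e β : ℤ), h ∈ Gamma0 L ∧ ((h 1 1 : ℤ) : ZMod L) = 1 ∧ c * e = ℓ ∧
      (IsBigIndex ℓ u i → c = ℓ) ∧ (¬ IsBigIndex ℓ u i → c = 1) ∧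
      heckeFam ℓ i * (u : M2) = ((h * u : SL(2, ℤ)) : M2) * !![c, β; 0, e] := by
  classical
  set A := heckeFam ℓ i with hAdef
  set M := A * (u : M2) with hM
  have hMdet : M.det = ℓ := by rw [hM, Matrix.det_mul, heckeFam_det, u.det_coe, mul_one]
  set j := A 0 1 with hj
  have hA00 : ((A 0 0 : ℤ) : ZMod L) = 1 ∧ A 1 0 = 0 ∧ ((A 1 1 : ℤ) : ZMod L) = 1 := by
    rw [hAdef]; rcases i with _ | i <;> simp [hℓ1]
  set c : ℤ := if IsBigIndex ℓ u i then (ℓ : ℤ) else 1 with hcdef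
  have hcdvd : c ∣ M 0 0 ∧ c ∣ M 1 0 := by
    rw [hcdef]; split_ifs with h
    · exact h
    · exact ⟨one_dvd _, one_dvd _⟩
  have hc1 : ((c : ℤ) : ZMod L) = 1 := by rw [hcdef]; split_ifs <;> simp [hℓ1]
  obtain ⟨⟨w₀, hw₀⟩, ⟨w₁, hw₁⟩⟩ := hcdvd
  have hMdet' : M 0 0 * M 1 1 - M 0 1 * M 1 0 = ℓ := by rw [← Matrix.det_fin_two]; exact hMdet
  have hcℓ : c ∣ (ℓ : ℤ) := ⟨w₀ * M 1 1 - M 0 1 * w₁, by
    rw [← hMdet', hw₀, hw₁]; ring⟩
  have hw : IsCoprime w₀ w₁ := by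
    rw [hcdef] at hw₀ hw₁
    split_ifs at hw₀ hw₁ with h
    · refine ⟨M 1 1, -M 0 1, mul_left_cancel₀ (b := M 1 1 * w₀ + -M 0 1 * w₁)
        (show (ℓ : ℤ) ≠ 0 by exact_mod_cast hℓ.ne_zero) ?_⟩
      rw [hw₀, hw₁] at hMdet'
      linear_combination hMdet'
    · rw [one_mul] at hw₀ hw₁
      rw [Int.isCoprime_iff_gcd_eq_one]
      have hg : (Int.gcd w₀ w₁ : ℤ) ∣ (ℓ : ℤ) := by
        rw [← hMdet', hw₀, hw₁]
        exact dvd_sub (dvd_mul_of_dvd_left (Int.gcd_dvd_left _ _) _)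
          (dvd_mul_of_dvd_right (Int.gcd_dvd_right _ _) _)
      rcases (Nat.dvd_prime hℓ).mp (Int.natCast_dvd_natCast.mp hg) with h1 | h1
      · exact h1
      · refine absurd ⟨?_, ?_⟩ h
        · show (ℓ : ℤ) ∣ M 0 0
          rw [hw₀, ← h1]; exact Int.gcd_dvd_left _ _
        · show (ℓ : ℤ) ∣ M 1 0
          rw [hw₁, ← h1]; exact Int.gcd_dvd_right _ _
  -- bring the column back to `(1, 0)` modulo `L`
  have hudet := u.det_coe
  rw [Matrix.det_fin_two] at hudet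
  set y₀ := u 1 1 * (w₀ - j * w₁) - u 0 1 * w₁ with hy₀
  set y₁ := -u 1 0 * (w₀ - j * w₁) + u 0 0 * w₁ with hy₁
  obtain ⟨s, t, hst⟩ : IsCoprime y₀ y₁ := by
    obtain ⟨s, t, hst⟩ := hw
    refine ⟨s * u 0 0 + (s * j + t) * u 1 0, s * u 0 1 + (s * j + t) * u 1 1, ?_⟩
    rw [hy₀, hy₁]
    linear_combination (s * (w₀ - j * w₁) + (s * j + t) * w₁) * hudet + hst
  have hy : ((y₀ : ℤ) : ZMod L) = 1 ∧ ((y₁ : ℤ) : ZMod L) = 0 := by
    have h0 := congrArg (Int.cast : ℤ → ZMod L) hw₀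
    have h1 := congrArg (Int.cast : ℤ → ZMod L) hw₁
    have hu := congrArg (Int.cast : ℤ → ZMod L) hudet
    simp only [hM, Matrix.mul_apply, Fin.sum_univ_two, ← hj, hA00.2.1] at h0 h1
    push_cast at h0 h1 hu
    rw [hA00.1, one_mul, hc1, one_mul] at h0
    rw [hA00.2.2, hc1, zero_mul, zero_add, one_mul, one_mul] at h1
    constructor
    · rw [hy₀]; push_cast; rw [← h0, ← h1]; linear_combination hu
    · rw [hy₁]; push_cast; rw [← h0, ← h1]; ring
  have hsy : ((s : ℤ) : ZMod L) = 1 := by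
    have := congrArg (Int.cast : ℤ → ZMod L) hst
    push_cast at this
    rw [hy.1, hy.2, mul_one, mul_zero, add_zero] at this
    exact this
  set γ : SL(2, ℤ) := ⟨!![y₀, -t * (1 - y₀); y₁, s + t * y₁], by
    rw [Matrix.det_fin_two_of]; linear_combination hst⟩ with hγ
  set Kc := u * γ * u⁻¹ with hKc
  set h := mT ^ j * Kc with hh
  set B : M2 := ((γ⁻¹ * (u⁻¹ * mT ^ (-j)) : SL(2, ℤ)) : M2) * M with hB
  have hγ1 : ∀ a b, ((γ a b : ℤ) : ZMod L) = (1 : M2).map (Int.cast : ℤ → ZMod L) a b := by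
    intro a b
    fin_cases a <;> fin_cases b <;> simp [hγ, hy.1, hy.2, hsy]
  have hconj : ∀ a b, ((Kc a b : ℤ) : ZMod L) =
      (1 : M2).map (Int.cast : ℤ → ZMod L) a b := by
    intro a b
    rw [hKc]
    have hu := congrArg (Int.cast : ℤ → ZMod L) hudet
    push_cast at hu
    fin_cases a <;> fin_cases b <;>
      simp [Matrix.SpecialLinearGroup.coe_mul, Matrix.SpecialLinearGroup.coe_inv,
        Matrix.adjugate_fin_two, Matrix.mul_apply, Fin.sum_univ_two, hγ1] <;>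
      first | linear_combination hu | ring1
  have hTj : ((mT ^ j : SL(2, ℤ)) : M2) = !![1, j; 0, 1] := ModularGroup.coe_T_zpow j
  have hcol0 : B 0 0 = c ∧ B 1 0 = 0 := by
    have hTn : ((mT ^ (-j) : SL(2, ℤ)) : M2) = !![1, -j; 0, 1] := ModularGroup.coe_T_zpow _
    have hγc : ((γ⁻¹ : SL(2, ℤ)) : M2) = !![s + t * y₁, t * (1 - y₀); -y₁, y₀] := by
      rw [Matrix.SpecialLinearGroup.coe_inv, hγ, Matrix.adjugate_fin_two]
      simp
    constructor <;>
    · rw [hB]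
      simp only [Matrix.SpecialLinearGroup.coe_mul, hγc, Matrix.SpecialLinearGroup.coe_inv,
        Matrix.adjugate_fin_two, Matrix.mul_apply, Fin.sum_univ_two, Matrix.of_apply,
        Matrix.cons_val', Matrix.cons_val_zero, Matrix.cons_val_one, Matrix.cons_val_fin_one, hTn,
        hw₀, hw₁, hy₀, hy₁]
      rw [hy₀, hy₁] at hst
      first | linear_combination c * hst | ring
  refine ⟨h, c, B 1 1, B 0 1, ?_, ?_, ?_, fun hb => by rw [hcdef, if_pos hb],
    fun hb => by rw [hcdef, if_neg hb], ?_⟩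
  · rw [Gamma0_mem, hh, Matrix.SpecialLinearGroup.coe_mul, Matrix.mul_apply, Fin.sum_univ_two, hTj]
    simp [hconj]
  · rw [hh, Matrix.SpecialLinearGroup.coe_mul, Matrix.mul_apply, Fin.sum_univ_two, hTj]
    simp [hconj]
  · have hdB : B.det = ℓ := by
      rw [hB, Matrix.det_mul, Matrix.SpecialLinearGroup.det_coe, one_mul, hMdet]
    rw [Matrix.det_fin_two, hcol0.1, hcol0.2, mul_zero, sub_zero] at hdB
    exact hdB
  · have hBeq : B = !![c, B 0 1; 0, B 1 1] := by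
      ext a b
      fin_cases a <;> fin_cases b <;> simp [hcol0.1, hcol0.2]
    have hprod : (h * u) * (γ⁻¹ * (u⁻¹ * mT ^ (-j))) = 1 := by rw [hh, hKc, _root_.zpow_neg]; group
    rw [← hBeq, hB, ← Matrix.mul_assoc, ← Matrix.SpecialLinearGroup.coe_mul, hprod,
      Matrix.SpecialLinearGroup.coe_one, one_mul]

/-- Upper triangular matrices fix `∞`. -/
theorem upper_smul_infty {c β e : ℤ} (hdet : c * e ≠ 0) :
    ofMat !![c, β; 0, e] • OnePoint.infty = (OnePoint.infty : Cusp) := by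
  rw [OnePoint.smul_infty_eq_self_iff, ofMat_apply (by simpa [Matrix.det_fin_two_of] using hdet)]
  simp

variable {δ : DirichletCharacter R L}

/-- The cusps `A_i x` are all equivalent to `x` under the kernel of the character. -/
theorem exists_heckeFam_smul {ℓ : ℕ} (hℓ : ℓ.Prime) (hℓ1 : (ℓ : ZMod L) = 1) (x : Cusp)
    (i : Option (Fin ℓ)) :
    ∃ h ∈ Gamma0 L, ((h 1 1 : ℤ) : ZMod L) = 1 ∧ ofMat (heckeFam ℓ i) • x = glQ h • x := by
  obtain ⟨u, rfl⟩ := exists_glQ_smul_infty x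
  obtain ⟨h, c, e, β, hh, hh1, hce, -, -, heq⟩ := exists_decomp hℓ hℓ1 u i
  refine ⟨h, hh, hh1, ?_⟩
  have hce0 : c * e ≠ 0 := by rw [hce]; exact_mod_cast hℓ.ne_zero
  rw [← ofMat_coe u, ← mul_smul, ← ofMat_mul (heckeFam_det_ne_zero hℓ.ne_zero i) (sl_det_ne_zero u),
    heq, ofMat_mul (sl_det_ne_zero _) (by simpa [Matrix.det_fin_two_of] using hce0), mul_smul,
    upper_smul_infty hce0, ← ofMat_coe h, ← mul_smul,
    ← ofMat_mul (sl_det_ne_zero h) (sl_det_ne_zero u), Matrix.SpecialLinearGroup.coe_mul]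

variable [IsLocalRing R]

/-- A potential for a crossed homomorphism on `GL(2, ℚ)`, lifting a residual one on cusps. -/
theorem exists_potential_lift (hres : ∀ γ ∈ Gamma0 L, residue R (chi δ γ) = 1) {k : SL(2, ℤ) → R}
    (hk : ∀ a ∈ Gamma0 L, ∀ b ∈ Gamma0 L, k (a * b) = k a + chi δ a * k b)
    {Gb : Cusp → ResidueField R}
    (hGb : ∀ γ ∈ Gamma0 L, ∀ x, Gb (glQ γ • x) = residue R (k γ) + Gb x) :
    ∃ G : GQ → R, (∀ γ ∈ Gamma0 L, ∀ r, G (glQ γ * r) = chi δ γ * G r + k γ) ∧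
      ∀ r, residue R (G r) = Gb (r • OnePoint.infty) := by
  set Γ' := (Gamma0 L).map (glQ : SL(2, ℤ) →* GQ)
  have hsel : ∀ r : GQ, ∃ γ ∈ Gamma0 L, glQ γ = r * ((r⁻¹ : GQ) : GQ ⧸ Γ').out := by
    intro r
    obtain ⟨⟨h, γ, hγ, rfl⟩, heq⟩ := QuotientGroup.mk_out_eq_mul Γ' r⁻¹
    simp only at heq
    exact ⟨γ, hγ, by rw [heq, mul_inv_cancel_left]⟩
  choose γr hγr heqr using hsel
  have hrep : ∀ γ ∈ Gamma0 L, ∀ r,
      ((((glQ γ : GQ) * r)⁻¹ : GQ) : GQ ⧸ Γ') = ((r⁻¹ : GQ) : GQ ⧸ Γ') := by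
    intro γ hγ r
    rw [QuotientGroup.eq]
    rw [inv_inv, mul_inv_cancel_right]
    exact Subgroup.mem_map_of_mem _ hγ
  refine ⟨fun r => chi δ (γr r) * Function.surjInv residue_surjective
    (Gb (((r⁻¹ : GQ) : GQ ⧸ Γ').out⁻¹ • OnePoint.infty)) + k (γr r), fun γ hγ r => ?_, fun r => ?_⟩
  · have hg : γr (glQ γ * r) = γ * γr r := glQ_injective (by
      rw [heqr, hrep γ hγ, map_mul, heqr, mul_assoc])
    simp only [hg, hrep γ hγ, hk γ hγ _ (hγr r), chi_mul δ hγ]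
    ring
  · rw [map_add, map_mul, hres _ (hγr r), one_mul, Function.surjInv_eq residue_surjective,
      add_comm, ← hGb _ (hγr r), ← mul_smul, heqr, mul_inv_cancel_right]

/-- The operator `T_ℓ - 1 - ℓ`. -/
def eisOp (R : Type) [CommRing R] (δ : DirichletCharacter R L) (ℓ : ℕ) :
    (Cusp → Cusp → R) →ₗ[R] (Cusp → Cusp → R) :=
  tOpChar R δ ℓ - (1 + (ℓ : R)) • LinearMap.id

/-- `T_ℓ - 1 - ℓ` applied to a potential on `GL(2, ℚ)`. -/
def eisPot (ℓ : ℕ) (G : GQ → R) (r : GQ) : R :=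
  ∑ i, G (ofMat (heckeFam ℓ i) * r) - (1 + (ℓ : R)) * G r

omit [IsLocalRing R] in
/-- Right multiplication by `Γ₀(L)` permutes the Hecke matrices, keeping the character. -/
theorem exists_heckeFam_perm {ℓ : ℕ} (hℓ : ℓ.Prime) (hℓL : ¬ ℓ ∣ L) (hℓ1 : (ℓ : ZMod L) = 1)
    {γ : SL(2, ℤ)} (hγ : γ ∈ Gamma0 L) :
    ∃ (σ : Option (Fin ℓ) → Option (Fin ℓ)) (γ' : Option (Fin ℓ) → SL(2, ℤ)), Function.Bijective σ ∧
      ∀ i, γ' i ∈ Gamma0 L ∧ chi δ (γ' i) = chi δ γ ∧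
        heckeFam ℓ i * (γ : M2) = ((γ' i : SL(2, ℤ)) : M2) * heckeFam ℓ (σ i) := by
  have hfac : ∀ i, ∃ i', ∃ γ' ∈ Gamma0 L,
      heckeFam ℓ i * (γ : M2) = ((γ' : SL(2, ℤ)) : M2) * heckeFam ℓ i' := fun i => by
    refine exists_gamma_mul_heckeFam hℓ hℓL ?_ ?_
    · rw [Matrix.det_mul, heckeFam_det, γ.det_coe, mul_one]
    · rw [Matrix.mul_apply, Fin.sum_univ_two, heckeFam_lower, zero_mul, zero_add]
      exact dvd_mul_of_dvd_right (mem_Gamma0_iff_dvd.mp hγ) _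
  choose σ γ' hγ' hσ using hfac
  have hσinj : Function.Injective σ := fun i i' hii => by
    have h : heckeFam ℓ i * (γ : M2) =
        ((γ' i * (γ' i')⁻¹ : SL(2, ℤ)) : M2) * heckeFam ℓ i' * (γ : M2) := by
      rw [mul_assoc, hσ i', ← mul_assoc, ← Matrix.SpecialLinearGroup.coe_mul,
        inv_mul_cancel_right, ← hii]
      exact hσ i
    refine heckeFam_right_unique hℓ (δ₁ := 1) ?_ (not_dvd_det_SL hℓ (γ' i * (γ' i')⁻¹)) ?_
    · rw [Matrix.det_one]; exact not_prime_dvd_one hℓ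
    · rw [one_mul]; exact mul_sl_inj h
  have hchi : ∀ i, chi δ (γ' i) = chi δ γ := fun i => by
    have hA : ∀ i : Option (Fin ℓ), ((heckeFam ℓ i 1 1 : ℤ) : ZMod L) = 1 := fun i => by
      rcases i with _ | i <;> simp [hℓ1]
    have h := congrArg (Int.cast : ℤ → ZMod L) (congrFun (congrFun (hσ i) 1) 1)
    simp only [Matrix.mul_apply, Fin.sum_univ_two] at h
    push_cast at h
    rw [Gamma0_mem.mp (hγ' i), zero_mul, zero_add, hA i, hA (σ i), mul_one, heckeFam_lower,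
      Int.cast_zero, zero_mul, zero_add, one_mul] at h
    rw [chi, chi, h]
  exact ⟨σ, γ', ⟨hσinj, Finite.surjective_of_injective hσinj⟩, fun i => ⟨hγ' i, hchi i, hσ i⟩⟩

omit [IsLocalRing R] in
/-- A transformed potential is equivariant for some crossed homomorphism. -/
theorem exists_eisPot_cocycle {ℓ : ℕ} (hℓ : ℓ.Prime) (hℓL : ¬ ℓ ∣ L) (hℓ1 : (ℓ : ZMod L) = 1)
    {k : SL(2, ℤ) → R} {G : GQ → R}
    (hG : ∀ γ ∈ Gamma0 L, ∀ r, G (glQ γ * r) = chi δ γ * G r + k γ) :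
    ∃ k2 : SL(2, ℤ) → R,
      (∀ γ ∈ Gamma0 L, ∀ r, eisPot ℓ G (glQ γ * r) = chi δ γ * eisPot ℓ G r + k2 γ) ∧
      ∀ a ∈ Gamma0 L, ∀ b ∈ Gamma0 L, k2 (a * b) = k2 a + chi δ a * k2 b := by
  classical
  obtain ⟨k2, hk2def⟩ : ∃ k2 : SL(2, ℤ) → R,
    k2 = fun γ => eisPot ℓ G (glQ γ) - chi δ γ * eisPot ℓ G 1 := ⟨_, rfl⟩
  have hD : ∀ γ ∈ Gamma0 L, ∀ r, eisPot ℓ G (glQ γ * r) = chi δ γ * eisPot ℓ G r + k2 γ := by
    intro γ hγ r
    obtain ⟨σ, γ', hσbij, hσ⟩ := exists_heckeFam_perm (δ := δ) hℓ hℓL hℓ1 hγ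
    have hC : ∀ r, eisPot ℓ G (glQ γ * r) =
        chi δ γ * eisPot ℓ G r + (∑ i, k (γ' i) - (1 + (ℓ : R)) * k γ) := fun r => by
      have hterm : ∀ i, G (ofMat (heckeFam ℓ i) * (glQ γ * r)) =
          chi δ γ * G (ofMat (heckeFam ℓ (σ i)) * r) + k (γ' i) := fun i => by
        rw [← mul_assoc, ← ofMat_coe, ← ofMat_mul (heckeFam_det_ne_zero hℓ.ne_zero i)
          (sl_det_ne_zero γ), (hσ i).2.2, ofMat_mul (sl_det_ne_zero _)
          (heckeFam_det_ne_zero hℓ.ne_zero _), ofMat_coe, mul_assoc, hG _ (hσ i).1, (hσ i).2.1]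
      simp only [eisPot, Finset.sum_congr rfl fun i _ => hterm i, Finset.sum_add_distrib,
        ← Finset.mul_sum, hG γ hγ]
      rw [Fintype.sum_bijective σ hσbij (fun i => G (ofMat (heckeFam ℓ (σ i)) * r))
        (fun i => G (ofMat (heckeFam ℓ i) * r)) fun _ => rfl]
      ring
    have h1 := hC 1
    rw [mul_one] at h1
    rw [hC r]
    simp only [hk2def]
    linear_combination -h1
  refine ⟨k2, hD, fun a ha b hb => ?_⟩
  have h1 := hD a ha (glQ b)
  rw [← map_mul] at h1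
  simp only [hk2def] at h1 ⊢
  simp only [h1, chi_mul δ ha]
  ring

/-- The parabolic element `u T ^ n u⁻¹`. -/
def conjT (u : SL(2, ℤ)) (n : ℤ) : SL(2, ℤ) := u * mT ^ n * u⁻¹

/-- `n ↦ u T ^ n u⁻¹` is additive. -/
theorem conjT_mul (u : SL(2, ℤ)) (a b : ℤ) : conjT u a * conjT u b = conjT u (a + b) := by
  simp only [conjT, zpow_add]; group

omit [IsLocalRing R] in
/-- A crossed homomorphism kills `1`. -/
theorem cocycle_one {k : SL(2, ℤ) → R}
    (hk : ∀ a ∈ Gamma0 L, ∀ b ∈ Gamma0 L, k (a * b) = k a + chi δ a * k b) : k 1 = 0 := by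
  have := hk 1 (one_mem _) 1 (one_mem _)
  rw [mul_one, chi_one, one_mul] at this
  linear_combination -this

omit [IsLocalRing R] in
/-- Modulo `1 - χ(π)` a crossed homomorphism is linear on the powers of `π = u T ^ n u⁻¹`. -/
theorem cocycle_conjT_congr {k : SL(2, ℤ) → R}
    (hk : ∀ a ∈ Gamma0 L, ∀ b ∈ Gamma0 L, k (a * b) = k a + chi δ a * k b) {u : SL(2, ℤ)} {n : ℤ}
    (hn : conjT u n ∈ Gamma0 L) (m : ℕ) :
    conjT u (n * m) ∈ Gamma0 L ∧
      chi δ (conjT u (n * m)) - 1 ∈ Ideal.span {1 - chi δ (conjT u n)} ∧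
      k (conjT u (n * m)) - (m : R) * k (conjT u n) ∈ Ideal.span {1 - chi δ (conjT u n)} := by
  set χπ := chi δ (conjT u n)
  let I : Ideal R := Ideal.span {1 - χπ}
  induction m with
  | zero => simp [conjT, chi_one, cocycle_one hk]
  | succ m ih =>
    obtain ⟨h1, hc, hkm⟩ := ih
    have he : conjT u (n * (m + 1 : ℕ)) = conjT u n * conjT u (n * m) := by
      rw [conjT_mul]; congr 1; push_cast; ring
    have h0 : (1 : R) - χπ ∈ I := Ideal.mem_span_singleton_self _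
    rw [he]
    refine ⟨mul_mem hn h1, ?_, ?_⟩
    · rw [chi_mul δ hn, show χπ * chi δ (conjT u (n * m)) - 1 =
        χπ * (chi δ (conjT u (n * m)) - 1) - (1 - χπ) by ring]
      exact sub_mem (I.mul_mem_left _ hc) h0
    · rw [hk _ hn _ h1,
        show k (conjT u n) + χπ * k (conjT u (n * m)) - ((m + 1 : ℕ) : R) * k (conjT u n) =
          (k (conjT u (n * m)) - (m : R) * k (conjT u n)) - (1 - χπ) * k (conjT u (n * m)) by
          push_cast; ring]
      exact sub_mem hkm (I.mul_mem_right _ h0)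

omit [IsLocalRing R] in
/-- The squared upper-left entries of the triangular forms of the Hecke matrices sum to
`ℓ (1 + ℓ)`. -/
theorem sum_sq_bigIndex {ℓ : ℕ} (hℓ : ℓ.Prime) (u : SL(2, ℤ)) (cn : Option (Fin ℓ) → ℕ)
    (hbig : ∀ i, IsBigIndex ℓ u i → cn i = ℓ) (hsmall : ∀ i, ¬ IsBigIndex ℓ u i → cn i = 1) :
    ∑ i, ((cn i ^ 2 : ℕ) : R) = (ℓ : R) * (1 + ℓ) := by
  classical
  obtain ⟨i₀, hi₀, huniq⟩ := existsUnique_bigIndex hℓ u
  rw [← Finset.add_sum_erase _ _ (Finset.mem_univ i₀),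
    Finset.sum_congr rfl fun i hi => by
      rw [hsmall i fun hb => Finset.ne_of_mem_erase hi (huniq i hb)],
    hbig i₀ hi₀, Finset.sum_const, Finset.card_erase_of_mem (Finset.mem_univ i₀), Finset.card_univ,
    Fintype.card_option, Fintype.card_fin]
  simp only [add_tsub_cancel_right, one_pow, Nat.cast_one, nsmul_eq_mul, mul_one, Nat.cast_pow]
  ring

omit [IsLocalRing R] in
/-- The effect of `u T ^ (n ℓ) u⁻¹` on one Hecke translate of a potential, modulo `1 - χ(π)`. -/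
theorem potential_term_congr {ℓ : ℕ} (hℓ : ℓ.Prime) {k : SL(2, ℤ) → R}
    (hk : ∀ a ∈ Gamma0 L, ∀ b ∈ Gamma0 L, k (a * b) = k a + chi δ a * k b) {G : GQ → R}
    (hG : ∀ γ ∈ Gamma0 L, ∀ r, G (glQ γ * r) = chi δ γ * G r + k γ) {u : SL(2, ℤ)} {n : ℤ}
    (hn : conjT u n ∈ Gamma0 L) {i : Option (Fin ℓ)} {h : SL(2, ℤ)} {c e β : ℤ} {cn : ℕ}
    (hcn : (cn : ℤ) = c) (hh : h ∈ Gamma0 L) (hh1 : ((h 1 1 : ℤ) : ZMod L) = 1) (hce : c * e = ℓ)
    (heq : heckeFam ℓ i * (u : M2) = ((h * u : SL(2, ℤ)) : M2) * !![c, β; 0, e]) :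
    G (ofMat (heckeFam ℓ i) * (glQ (conjT u (n * ℓ)) * glQ u)) -
        G (ofMat (heckeFam ℓ i) * glQ u) - ((cn ^ 2 : ℕ) : R) * k (conjT u n) ∈
      Ideal.span {1 - chi δ (conjT u n)} := by
  have hBdet : (!![c, β; 0, e] : M2).det ≠ 0 := by
    rw [Matrix.det_fin_two_of, mul_zero, sub_zero, hce]
    exact_mod_cast hℓ.ne_zero
  have hX : ofMat (heckeFam ℓ i) * glQ u = glQ h * (glQ u * ofMat !![c, β; 0, e]) := by
    rw [← ofMat_coe u, ← ofMat_mul (heckeFam_det_ne_zero hℓ.ne_zero i) (sl_det_ne_zero u),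
      heq, ofMat_mul (sl_det_ne_zero _) hBdet, Matrix.SpecialLinearGroup.coe_mul,
      ofMat_mul (sl_det_ne_zero _) (sl_det_ne_zero _), ofMat_coe, mul_assoc]
  have hBT : ofMat !![c, β; 0, e] * glQ (mT ^ (n * ℓ)) =
      glQ (mT ^ (n * (cn ^ 2 : ℕ))) * ofMat !![c, β; 0, e] := by
    rw [← ofMat_coe, ← ofMat_coe, ← ofMat_mul hBdet (sl_det_ne_zero _),
      ← ofMat_mul (sl_det_ne_zero _) hBdet, ModularGroup.coe_T_zpow, ModularGroup.coe_T_zpow]
    congr 1
    ext a b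
    fin_cases a <;> fin_cases b <;> simp [Matrix.mul_apply, Fin.sum_univ_two, hcn]
    linear_combination -(n * c) * hce
  have hY : ofMat (heckeFam ℓ i) * (glQ (conjT u (n * ℓ)) * glQ u) =
      glQ h * (glQ (conjT u (n * (cn ^ 2 : ℕ))) * (glQ u * ofMat !![c, β; 0, e])) := by
    calc ofMat (heckeFam ℓ i) * (glQ (conjT u (n * ℓ)) * glQ u)
        = ofMat (heckeFam ℓ i) * glQ u * glQ (mT ^ (n * ℓ)) := by
          simp only [conjT, map_mul, map_inv]; group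
      _ = glQ h * (glQ u * (ofMat !![c, β; 0, e] * glQ (mT ^ (n * ℓ)))) := by
          rw [hX, mul_assoc, mul_assoc]
      _ = _ := by rw [hBT]; simp only [conjT, map_mul, map_inv]; group
  have hh' : chi δ h = 1 := by rw [chi, hh1, map_one]
  rw [hY, hX, hG _ hh, hG _ hh, hh', one_mul, one_mul, add_sub_add_right_eq_sub]
  obtain ⟨h1, hc, hkm⟩ := cocycle_conjT_congr hk hn (cn ^ 2)
  rw [hG _ h1]
  generalize hr : glQ u * ofMat !![c, β; 0, e] = r
  rw [show chi δ (conjT u (n * (cn ^ 2 : ℕ))) * G r + k (conjT u (n * (cn ^ 2 : ℕ))) - G r -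
    ((cn ^ 2 : ℕ) : R) * k (conjT u n) = (chi δ (conjT u (n * (cn ^ 2 : ℕ))) - 1) * G r +
      (k (conjT u (n * (cn ^ 2 : ℕ))) - ((cn ^ 2 : ℕ) : R) * k (conjT u n)) by ring]
  exact add_mem (Ideal.mul_mem_right _ _ hc) hkm

omit [IsLocalRing R] in
/-- The transformed crossed homomorphism is a coboundary on each parabolic element. -/
theorem exists_fixed_conjT {ℓ : ℕ} (hℓ : ℓ.Prime) (hℓ1 : (ℓ : ZMod L) = 1) (hℓu : IsUnit (ℓ : R))
    {k k2 : SL(2, ℤ) → R}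
    (hk : ∀ a ∈ Gamma0 L, ∀ b ∈ Gamma0 L, k (a * b) = k a + chi δ a * k b)
    (hk2 : ∀ a ∈ Gamma0 L, ∀ b ∈ Gamma0 L, k2 (a * b) = k2 a + chi δ a * k2 b) {G : GQ → R}
    (hG : ∀ γ ∈ Gamma0 L, ∀ r, G (glQ γ * r) = chi δ γ * G r + k γ)
    (hD : ∀ γ ∈ Gamma0 L, ∀ r, eisPot ℓ G (glQ γ * r) = chi δ γ * eisPot ℓ G r + k2 γ)
    (u : SL(2, ℤ)) {n : ℤ} (hn : conjT u n ∈ Gamma0 L) :
    ∃ g, chi δ (conjT u n) * g + k2 (conjT u n) = g := by
  set I : Ideal R := Ideal.span {1 - chi δ (conjT u n)}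
  choose h c e β hh hh1 hce hbig hsmall heq using exists_decomp hℓ hℓ1 u
  have hcnat : ∀ i, ∃ cn : ℕ, (cn : ℤ) = c i := fun i => by
    by_cases hb : IsBigIndex ℓ u i
    · exact ⟨ℓ, (hbig i hb).symm⟩
    · exact ⟨1, by rw [hsmall i hb]; rfl⟩
  choose cn hcn using hcnat
  have hsum : ∑ i, ((cn i ^ 2 : ℕ) : R) = (ℓ : R) * (1 + ℓ) :=
    sum_sq_bigIndex hℓ u cn (fun i hb => by exact_mod_cast (hcn i).trans (hbig i hb))
      fun i hb => by exact_mod_cast (hcn i).trans (hsmall i hb)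
  obtain ⟨h1, hc1, hkℓ⟩ := cocycle_conjT_congr hk hn ℓ
  have hk2ℓ := (cocycle_conjT_congr hk2 hn ℓ).2.2
  have hl : G (glQ (conjT u (n * ℓ)) * glQ u) - G (glQ u) - (ℓ : R) * k (conjT u n) ∈ I := by
    rw [hG _ h1, show chi δ (conjT u (n * ℓ)) * G (glQ u) + k (conjT u (n * ℓ)) - G (glQ u) -
      (ℓ : R) * k (conjT u n) = (chi δ (conjT u (n * ℓ)) - 1) * G (glQ u) +
        (k (conjT u (n * ℓ)) - (ℓ : R) * k (conjT u n)) by ring]
    exact add_mem (I.mul_mem_right _ hc1) hkℓ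
  have hkey : (ℓ : R) * k2 (conjT u n) ∈ I := by
    have hsumI := Submodule.sum_mem I fun i (_ : i ∈ Finset.univ) =>
      potential_term_congr hℓ hk hG hn (hcn i) (hh i) (hh1 i) (hce i) (heq i)
    have hDl := hD _ h1 (glQ u)
    have hfin := add_mem (sub_mem (sub_mem hsumI (I.mul_mem_left (1 + (ℓ : R)) hl))
      (I.mul_mem_right (eisPot ℓ G (glQ u)) hc1)) (neg_mem hk2ℓ)
    convert hfin using 1
    simp only [Finset.sum_sub_distrib, ← Finset.sum_mul, hsum]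
    simp only [eisPot] at hDl ⊢
    linear_combination -hDl
  obtain ⟨d, hd⟩ := hℓu.exists_left_inv
  have hI : k2 (conjT u n) ∈ I := by
    have := I.mul_mem_left d hkey
    rwa [← mul_assoc, hd, one_mul] at this
  obtain ⟨g, hg⟩ := Ideal.mem_span_singleton'.mp hI
  exact ⟨g, by linear_combination -hg⟩

omit [IsLocalRing R] in
/-- A crossed homomorphism that is a coboundary on each parabolic element is one on each cusp
stabiliser. -/
theorem exists_fixed_stabilizer (hneg : chi δ (-1) = 1) (h2 : IsUnit (2 : R)) {k2 : SL(2, ℤ) → R}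
    (hk2 : ∀ a ∈ Gamma0 L, ∀ b ∈ Gamma0 L, k2 (a * b) = k2 a + chi δ a * k2 b)
    (hgen : ∀ u n, conjT u n ∈ Gamma0 L → ∃ g, chi δ (conjT u n) * g + k2 (conjT u n) = g)
    (x : Cusp) : ∃ g, ∀ π ∈ Gamma0 L, glQ π • x = x → chi δ π * g + k2 π = g := by
  obtain ⟨u, rfl⟩ := exists_glQ_smul_infty x
  have hk1 : k2 1 = 0 := cocycle_one hk2
  let Z : AddSubgroup ℤ :=
    { carrier := {n | conjT u n ∈ Gamma0 L}
      zero_mem' := by
        show conjT u 0 ∈ Gamma0 L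
        simp only [conjT, zpow_zero, mul_one, mul_inv_cancel]
        exact one_mem _
      add_mem' := fun {a b} ha hb => by
        show conjT u (a + b) ∈ Gamma0 L
        rw [← conjT_mul]; exact mul_mem ha hb
      neg_mem' := fun {a} ha => by
        show conjT u (-a) ∈ Gamma0 L
        rw [show conjT u (-a) = (conjT u a)⁻¹ by
          simp only [conjT, _root_.zpow_neg, _root_.mul_inv_rev, inv_inv, mul_assoc]]
        exact inv_mem ha }
  obtain ⟨w, hw⟩ := Int.subgroup_cyclic Z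
  have hwZ : w ∈ Z := by rw [hw]; exact AddSubgroup.subset_closure rfl
  obtain ⟨g, hg⟩ := hgen u w hwZ
  refine ⟨g, ?_⟩
  let H : Subgroup SL(2, ℤ) :=
    { carrier := {π | π ∈ Gamma0 L ∧ chi δ π * g + k2 π = g}
      one_mem' := ⟨one_mem _, by rw [chi_one, hk1]; ring⟩
      mul_mem' := fun {a b} ha hb => ⟨mul_mem ha.1 hb.1, by
        rw [chi_mul δ ha.1, hk2 a ha.1 b hb.1]
        linear_combination chi δ a * hb.2 + ha.2⟩
      inv_mem' := fun {a} ha => ⟨inv_mem ha.1, by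
        have h1 := hk2 a⁻¹ (inv_mem ha.1) a ha.1
        have h2 := chi_mul δ (inv_mem ha.1) a
        rw [inv_mul_cancel, hk1] at h1
        rw [inv_mul_cancel, chi_one] at h2
        linear_combination -h1 - chi δ a⁻¹ * ha.2 - g * h2⟩ }
  have hnegH : (-1 : SL(2, ℤ)) ∈ H := ⟨neg_one_mem_Gamma0', by
    have h1 := hk2 (-1) neg_one_mem_Gamma0' (-1) neg_one_mem_Gamma0'
    rw [neg_one_mul, neg_neg, hk1, hneg, one_mul] at h1
    obtain ⟨d, hd⟩ := h2.exists_left_inv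
    rw [hneg, one_mul, show k2 (-1) = 0 by linear_combination -d * h1 - k2 (-1) * hd, add_zero]⟩
  intro π hπ hπx
  have hfix' : glQ (u⁻¹ * π * u) • (OnePoint.infty : Cusp) = OnePoint.infty := by
    rw [map_mul, map_mul, map_inv, mul_smul, mul_smul, hπx, inv_smul_smul]
  obtain ⟨n, hn⟩ := eq_zpow_of_smul_infty hfix'
  have hπn : π = conjT u n ∨ π = -conjT u n := by
    rcases hn with hn | hn
    · left; simp only [conjT]; rw [← hn]; group
    · right
      simp only [conjT]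
      rw [show mT ^ n = -(u⁻¹ * π * u) by rw [hn, neg_neg]]
      simp [mul_assoc]
  have hnZ : n ∈ Z := by
    show conjT u n ∈ Gamma0 L
    rcases hπn with h | h
    · exact h ▸ hπ
    · rw [← neg_mem_Gamma0_iff]; exact h ▸ hπ
  rw [hw, AddSubgroup.mem_closure_singleton] at hnZ
  obtain ⟨m, rfl⟩ := hnZ
  have hPH : conjT u (m • w) ∈ H := by
    rw [show conjT u (m • w) = conjT u w ^ m by
      simp only [conjT, smul_eq_mul, mul_comm m w, _root_.zpow_mul, conj_zpow]]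
    exact zpow_mem (show conjT u w ∈ H from ⟨hwZ, hg⟩) m
  rcases hπn with h | h
  · exact h ▸ hPH.2
  · rw [h, ← neg_one_mul]
    exact (mul_mem hnegH hPH).2

omit [IsLocalRing R] in
/-- A crossed homomorphism which is a coboundary on every cusp stabiliser has a potential on the
cusps. -/
theorem exists_cusp_potential {k2 : SL(2, ℤ) → R}
    (hk2 : ∀ a ∈ Gamma0 L, ∀ b ∈ Gamma0 L, k2 (a * b) = k2 a + chi δ a * k2 b)
    (hfix : ∀ x : Cusp, ∃ g, ∀ π ∈ Gamma0 L, glQ π • x = x → chi δ π * g + k2 π = g) :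
    ∃ G3 : Cusp → R, ∀ γ ∈ Gamma0 L, ∀ x, G3 (glQ γ • x) = chi δ γ * G3 x + k2 γ := by
  choose gx hgx using hfix
  let O := MulAction.orbitRel.Quotient ((Gamma0 L).map (glQ : SL(2, ℤ) →* GQ)) Cusp
  have hsel : ∀ x : Cusp, ∃ γ ∈ Gamma0 L, glQ γ • Quotient.out (⟦x⟧ : O) = x := fun x => by
    obtain ⟨⟨_, γ, hγ, rfl⟩, he⟩ := Quotient.exact (Quotient.out_eq (⟦x⟧ : O))
    refine ⟨γ⁻¹, inv_mem hγ, ?_⟩
    rw [← he, map_inv]
    exact inv_smul_smul (glQ γ) x
  choose γx hγx hxeq using hsel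
  refine ⟨fun x => chi δ (γx x) * gx (Quotient.out (⟦x⟧ : O)) + k2 (γx x), fun γ hγ x => ?_⟩
  have hq : (⟦glQ γ • x⟧ : O) = ⟦x⟧ :=
    Quotient.sound ⟨⟨glQ γ, Subgroup.mem_map_of_mem _ hγ⟩, rfl⟩
  set π := (γ * γx x)⁻¹ * γx (glQ γ • x)
  have hπ : π ∈ Gamma0 L := mul_mem (inv_mem (mul_mem hγ (hγx x))) (hγx _)
  have hstab : glQ π • Quotient.out (⟦x⟧ : O) = Quotient.out (⟦x⟧ : O) := by
    have e := hxeq (glQ γ • x)
    rw [hq] at e
    rw [glQ_mul_smul, e, map_inv, inv_smul_eq_iff, glQ_mul_smul, hxeq]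
  have he : γx (glQ γ • x) = γ * γx x * π := (mul_inv_cancel_left _ _).symm
  simp only [hq, he, chi_mul δ (mul_mem hγ (hγx x)), chi_mul δ hγ,
    hk2 _ (mul_mem hγ (hγx x)) _ hπ, hk2 _ hγ _ (hγx x)]
  linear_combination chi δ γ * chi δ (γx x) * hgx _ π hπ hstab

omit [IsLocalRing R] in
/-- `T_ℓ - 1 - ℓ` on the boundary symbol of a function on the cusps. -/
theorem eisOp_boundary {ℓ : ℕ} (hδℓ : δ (ℓ : ZMod L) = 1) (F : Cusp → R) (x y : Cusp) :
    eisOp R δ ℓ (fun a b => F b - F a) x y =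
      (∑ i, F (ofMat (heckeFam ℓ i) • y) - (1 + (ℓ : R)) * F y) -
        (∑ i, F (ofMat (heckeFam ℓ i) • x) - (1 + (ℓ : R)) * F x) := by
  simp only [eisOp, tOpChar, LinearMap.sub_apply, LinearMap.add_apply, LinearMap.smul_apply,
    LinearMap.sum_apply, LinearMap.id_apply, Pi.sub_apply, Pi.add_apply, Pi.smul_apply,
    Finset.sum_apply, pull_apply, smul_eq_mul, hδℓ, one_mul, Fintype.sum_option,
    Finset.sum_sub_distrib]
  ring

/-- Lifting from the residue field, up to `(T_ℓ - 1 - ℓ) ^ 2`. -/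
theorem exists_symb_lift (hres : ∀ γ ∈ Gamma0 L, residue R (chi δ γ) = 1) (hneg : chi δ (-1) = 1)
    (h2 : IsUnit (2 : R)) (h3 : IsUnit (3 : R) ∨ ∀ g : SL(2, ℤ), g * mU * g⁻¹ ∉ Gamma0 L)
    {ℓ : ℕ} (hℓ : ℓ.Prime) (hℓL : ¬ ℓ ∣ L) (hℓ1 : (ℓ : ZMod L) = 1) (hℓu : IsUnit (ℓ : R))
    {Φ : Cusp → Cusp → ResidueField R}
    (hΦ : Φ ∈ SymbChar (ResidueField R) (δ.ringHomComp (residue R))) :
    ∃ Ψ ∈ SymbChar R δ, mapVal (residue R) Ψ =
      eisOp (ResidueField R) (δ.ringHomComp (residue R)) ℓ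
        (eisOp (ResidueField R) (δ.ringHomComp (residue R)) ℓ Φ) := by
  classical
  obtain ⟨k, hk, hkres⟩ := exists_cocycle_lift hres hneg h2 h3 hΦ
  have hinvΦ : ∀ γ ∈ Gamma0 L, ∀ x y, Φ (glQ γ • x) (glQ γ • y) = Φ x y := fun γ hγ x y => by
    rw [hΦ.2 γ hγ, MulChar.ringHomComp_apply]
    have := hres γ hγ
    rw [chi] at this
    rw [this, one_mul]
  set Gb : Cusp → ResidueField R := fun x => Φ OnePoint.infty x
  have hsub : Φ = fun x y => Gb y - Gb x := funext fun x => funext fun y => by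
    rw [eq_sub_iff_add_eq, add_comm, hΦ.1]
  have hGb : ∀ γ ∈ Gamma0 L, ∀ x, Gb (glQ γ • x) = residue R (k γ) + Gb x := fun γ hγ x => by
    simp only [Gb]
    rw [hkres γ hγ, ← hinvΦ γ hγ OnePoint.infty x, hΦ.1]
  -- the transformed potential, and a potential on the cusps
  obtain ⟨G, hG, hGres⟩ := exists_potential_lift hres hk hGb
  obtain ⟨k2, hD, hk2⟩ := exists_eisPot_cocycle hℓ hℓL hℓ1 hG
  obtain ⟨G3, hG3⟩ := exists_cusp_potential hk2 (exists_fixed_stabilizer hneg h2 hk2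
    fun u n hn => exists_fixed_conjT hℓ hℓ1 hℓu hk hk2 hG hD u hn)
  set Ψ₀ : Cusp → Cusp → R := fun x y => G3 y - G3 x
  have hΨ₀ : Ψ₀ ∈ SymbChar R δ := ⟨fun x y z => by simp only [Ψ₀]; ring, fun γ hγ x y => by
    show G3 (glQ γ • y) - G3 (glQ γ • x) = chi δ γ * (G3 y - G3 x)
    rw [hG3 γ hγ, hG3 γ hγ]; ring⟩
  -- it reduces to the transformed symbol up to an invariant boundary
  set DGb : Cusp → ResidueField R := fun x =>
    ∑ i, Gb (ofMat (heckeFam ℓ i) • x) - (1 + (ℓ : ResidueField R)) * Gb x with hDGb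
  set E : Cusp → ResidueField R := fun x => residue R (G3 x) - DGb x
  have hE : ∀ γ ∈ Gamma0 L, ∀ x, E (glQ γ • x) = E x := by
    intro γ hγ x
    obtain ⟨u, hu⟩ := exists_glQ_smul_infty x
    have hDres : ∀ r, residue R (eisPot ℓ G r) = DGb (r • OnePoint.infty) := fun r => by
      simp only [eisPot, hDGb, map_sub, map_sum, map_mul, map_add, map_one, map_natCast, hGres,
        mul_smul]
    have h1 := congrArg (residue R) (hD γ hγ (glQ u))
    rw [hDres, map_add, map_mul, hres γ hγ, one_mul, hDres, mul_smul, hu] at h1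
    simp only [E, hG3 γ hγ, map_add, map_mul, hres γ hγ, one_mul, h1]
    ring
  have hEA : ∀ x i, E (ofMat (heckeFam ℓ i) • x) = E x := fun x i => by
    obtain ⟨h, hh, -, he⟩ := exists_heckeFam_smul hℓ hℓ1 x i
    rw [he, hE h hh]
  refine ⟨eisOp R δ ℓ Ψ₀, sub_mem (tOpChar_mem hℓ hℓL hΨ₀) (Submodule.smul_mem _ _ hΨ₀), ?_⟩
  have hδℓ : δ.ringHomComp (residue R) (ℓ : ZMod L) = 1 := by rw [hℓ1, map_one]
  set D := eisOp (ResidueField R) (δ.ringHomComp (residue R)) ℓ with hDdef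
  have hDΦ : D Φ = fun a b => DGb b - DGb a := by
    rw [hsub]
    exact funext fun a => funext fun b => eisOp_boundary hδℓ Gb a b
  have hred : mapVal (residue R) Ψ₀ = D Φ + fun a b => E b - E a := by
    rw [hDΦ]
    funext a b
    simp only [mapVal, Ψ₀, E, map_sub, Pi.add_apply]
    ring
  have hDE : D (fun a b => E b - E a) = 0 := by
    funext a b
    rw [hDdef, eisOp_boundary hδℓ E a b, Finset.sum_congr rfl fun i _ => hEA b i,
      Finset.sum_congr rfl fun i _ => hEA a i]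
    simp only [Finset.sum_const, Finset.card_univ, Fintype.card_option, Fintype.card_fin,
      nsmul_eq_mul, Pi.zero_apply]
    push_cast
    ring
  rw [eisOp, LinearMap.sub_apply, LinearMap.smul_apply, LinearMap.id_apply, mapVal_sub,
    mapVal_tOpChar,
    mapVal_smul, map_add, map_one, map_natCast, hred]
  calc tOpChar _ _ ℓ (D Φ + fun a b => E b - E a) -
        (1 + (ℓ : ResidueField R)) • (D Φ + fun a b => E b - E a)
      = D (D Φ + fun a b => E b - E a) := rfl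
    _ = D (D Φ) := by rw [map_add, hDE, add_zero]

end FLTAgent.ModularityLifting
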