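import Fermat.Agent.LevelRaising.Manin
import Mathlib.GroupTheory.CoprodI
import Mathlib.Data.ZMod.Basic
import Mathlib.Algebra.Group.Action.End

/-!
# `PSL(2, ℤ) = ℤ/2 * ℤ/3`, and functions with prescribed steps

By the ping-pong lemma on the rational cusps the image of `SL(2, ℤ)` in the permutations of the
cusps is the free product generated by `S` and `ST`.  Hence a function on `SL(2, ℤ)` exists with
any prescribed increments along `S` and `(ST)⁻¹` satisfying the two cycle conditions.
-/

set_option autoImplicit false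

noncomputable section

namespace FLTAgent.ModularityLifting

open FLTAgent.LevelRaising
open scoped MatrixGroups Pointwise

/-- The element `ST` of order six. -/
def mU : SL(2, ℤ) := mS * mT

theorem mU_pow_three : mU * mU * mU = -1 := mST_pow_three

theorem inv_mul_inv_mul_inv_mU : mU⁻¹ * mU⁻¹ * mU⁻¹ = -1 := by decide

theorem mS_inv : mS⁻¹ = -mS := by decide

/-- The orders of the two free factors. -/
abbrev cycOrd (b : Bool) : ℕ := cond b 3 2

/-- The two free factors. -/
abbrev cycFactor (b : Bool) : Type := Multiplicative (ZMod (cycOrd b))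

/-- The homomorphism from a cyclic group given by an element of suitable order. -/
def cycHom {G : Type*} [Group G] {n : ℕ} (g : G) (h : g ^ n = 1) :
    Multiplicative (ZMod n) →* G :=
  AddMonoidHom.toMultiplicativeLeft
    (ZMod.lift n ⟨zmultiplesHom (Additive G) (Additive.ofMul g), by
      rw [zmultiplesHom_apply, natCast_zsmul, ← ofMul_pow, h, ofMul_one]⟩)

theorem cycHom_apply {G : Type*} [Group G] {n : ℕ} (g : G) (h : g ^ n = 1) (i : ℤ) :
    cycHom g h (Multiplicative.ofAdd (i : ZMod n)) = g ^ i := by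
  change Additive.toMul (ZMod.lift n _ (i : ZMod n)) = _
  rw [ZMod.lift_coe, zmultiplesHom_apply, ← ofMul_zpow, toMul_ofMul]

theorem cycHom_gen {G : Type*} [Group G] {n : ℕ} (g : G) (h : g ^ n = 1) :
    cycHom g h (Multiplicative.ofAdd (1 : ZMod n)) = g := by
  simpa using cycHom_apply g h 1

/-- The action of `SL(2, ℤ)` on cusps. -/
def cuspPerm : SL(2, ℤ) →* Equiv.Perm Cusp :=
  (MulAction.toPermHom (GL (Fin 2) ℚ) Cusp).comp glQ

theorem cuspPerm_apply (g : SL(2, ℤ)) (x : Cusp) : cuspPerm g x = glQ g • x := rfl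

theorem cuspPerm_neg (g : SL(2, ℤ)) : cuspPerm (-g) = cuspPerm g :=
  Equiv.ext fun x => by rw [cuspPerm_apply, cuspPerm_apply, glQ_neg_smul]

theorem cuspPerm_eq_iff {g h : SL(2, ℤ)} : cuspPerm g = cuspPerm h ↔ g = h ∨ g = -h := by
  refine ⟨fun he => ?_, by rintro (rfl | rfl) <;> simp [cuspPerm_neg]⟩
  have h1 : ∀ x : Cusp, glQ (h⁻¹ * g) • x = x := fun x => by
    have := congrArg (fun σ : Equiv.Perm Cusp => σ x) he
    simp only [cuspPerm_apply] at this
    rw [glQ_mul_smul, this, ← glQ_mul_smul, inv_mul_cancel, map_one, one_smul]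
  suffices hk : h⁻¹ * g = 1 ∨ h⁻¹ * g = -1 by
    rcases hk with hk | hk
    · exact Or.inl (inv_mul_eq_one.mp hk).symm
    · refine Or.inr ?_
      rw [inv_mul_eq_iff_eq_mul.mp hk, mul_neg, mul_one]
  set k := h⁻¹ * g
  have hc : k 1 0 = 0 := by
    have h2 := h1 OnePoint.infty
    rw [OnePoint.smul_infty_eq_self_iff] at h2
    simpa [glQ_apply] using h2
  have hdet := k.det_coe
  rw [Matrix.det_fin_two, hc, mul_zero, sub_zero] at hdet
  have hd : k 1 1 ≠ 0 := fun h' => by simp [h'] at hdet
  have hb : k 0 1 = 0 := by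
    have h2 := h1 ((0 : ℚ) : Cusp)
    rw [OnePoint.smul_some_eq_ite] at h2
    simpa [glQ_apply, hc, hd] using h2
  rcases Int.mul_eq_one_iff_eq_one_or_neg_one.mp hdet with ⟨ha, hd'⟩ | ⟨ha, hd'⟩
  · refine Or.inl (Subtype.ext ?_)
    ext i j
    fin_cases i <;> fin_cases j <;> simp [ha, hb, hc, hd']
  · refine Or.inr (Subtype.ext ?_)
    ext i j
    fin_cases i <;> fin_cases j <;> simp [ha, hb, hc, hd']

theorem cuspPerm_mS_pow : cuspPerm mS ^ 2 = 1 := by
  rw [← map_pow, pow_two, mS_mul_mS, cuspPerm_neg, map_one]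

theorem cuspPerm_mU_pow : cuspPerm mU ^ 3 = 1 := by
  rw [← map_pow, pow_succ, pow_two, mU_pow_three, cuspPerm_neg, map_one]

/-- The images of the free factors. -/
def factorHom : ∀ b : Bool, cycFactor b →* Equiv.Perm Cusp
  | false => cycHom (cuspPerm mS) cuspPerm_mS_pow
  | true => cycHom (cuspPerm mU) cuspPerm_mU_pow

/-- The map from the free product to the permutations of cusps. -/
def freeHom : Monoid.CoprodI cycFactor →* Equiv.Perm Cusp := Monoid.CoprodI.lift factorHom

/-- The ping-pong sets: positive and negative rationals. -/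
def pingSet : Bool → Set Cusp
  | false => {c | ∃ x : ℚ, 0 < x ∧ c = (x : Cusp)}
  | true => {c | ∃ x : ℚ, x < 0 ∧ c = (x : Cusp)}

theorem glQ_mU_coe {x : ℚ} (hx : x + 1 ≠ 0) :
    glQ mU • (x : Cusp) = ((-1 / (x + 1) : ℚ) : Cusp) := by
  rw [mU, glQ_mul_smul, ← zpow_one mT, glQ_mT_zpow_coe, Int.cast_one, glQ_mS_coe hx]

theorem freeHom_injective : Function.Injective freeHom := by
  refine Monoid.CoprodI.lift_injective_of_ping_pong factorHom (Or.inr ⟨true, ?_⟩) pingSet ?_ ?_ ?_
  · rw [Cardinal.mk_congr Multiplicative.toAdd]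
    simp [cycOrd, Cardinal.mk_fintype]
  · intro b
    cases b
    · exact ⟨_, 1, one_pos, rfl⟩
    · exact ⟨_, -1, by norm_num, rfl⟩
  · intro i j hij
    refine Set.disjoint_left.mpr ?_
    cases i <;> cases j <;> first
      | exact absurd rfl hij
      | (rintro c ⟨x, hx, rfl⟩ ⟨y, hy, hxy⟩
         rw [OnePoint.coe_eq_coe] at hxy
         linarith)
  · intro i j hij
    rintro h hh _ ⟨c, hc, rfl⟩
    cases i <;> cases j <;> try exact absurd rfl hij
    · obtain ⟨x, hx, rfl⟩ := hc
      obtain rfl : h = Multiplicative.ofAdd (1 : ZMod 2) :=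
        (by decide : ∀ h : Multiplicative (ZMod 2), h ≠ 1 → h = Multiplicative.ofAdd 1) h hh
      refine ⟨-1 / x, div_pos_of_neg_of_neg (by norm_num) hx, ?_⟩
      simp only [factorHom, cycHom_gen]
      exact glQ_mS_coe hx.ne
    · obtain ⟨x, hx, rfl⟩ := hc
      have h1 : glQ mU • (x : Cusp) = ((-1 / (x + 1) : ℚ) : Cusp) := glQ_mU_coe (by positivity)
      rcases (by decide : ∀ h : Multiplicative (ZMod 3), h ≠ 1 →
        h = Multiplicative.ofAdd 1 ∨ h = Multiplicative.ofAdd 2) h hh with rfl | rfl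
      · refine ⟨-1 / (x + 1), div_neg_of_neg_of_pos (by norm_num) (by positivity), ?_⟩
        simp only [factorHom, cycHom_gen]
        exact h1
      · refine ⟨-(x + 1) / x, div_neg_of_neg_of_pos (by linarith) hx, ?_⟩
        simp only [factorHom]
        rw [show (2 : ZMod 3) = ((2 : ℤ) : ZMod 3) by rfl, cycHom_apply, ← map_zpow,
          show mU ^ (2 : ℤ) = mU * mU from zpow_two _]
        show glQ (mU * mU) • (x : Cusp) = _
        have h2 : -1 / (x + 1) + 1 ≠ 0 := by
          rw [div_add_one (by positivity)]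
          exact div_ne_zero (by linarith) (by positivity)
        rw [glQ_mul_smul, h1, glQ_mU_coe h2]
        congr 1
        rw [div_add_one (by positivity : x + 1 ≠ 0), div_div_eq_mul_div]
        ring

theorem cuspPerm_mem_range (g : SL(2, ℤ)) : cuspPerm g ∈ freeHom.range := by
  have hS : cuspPerm mS ∈ freeHom.range :=
    ⟨Monoid.CoprodI.of (i := false) (Multiplicative.ofAdd (1 : ZMod 2)), by
      rw [freeHom, Monoid.CoprodI.lift_of]; exact cycHom_gen (cuspPerm mS) cuspPerm_mS_pow⟩
  have hU : cuspPerm mU ∈ freeHom.range :=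
    ⟨Monoid.CoprodI.of (i := true) (Multiplicative.ofAdd (1 : ZMod 3)), by
      rw [freeHom, Monoid.CoprodI.lift_of]; exact cycHom_gen (cuspPerm mU) cuspPerm_mU_pow⟩
  suffices h : (⊤ : Subgroup SL(2, ℤ)) ≤ freeHom.range.comap cuspPerm from
    h (Subgroup.mem_top g)
  rw [← SpecialLinearGroup.SL2Z_generators, Subgroup.closure_le]
  rintro _ (rfl | rfl)
  · exact hS
  · show cuspPerm mT ∈ freeHom.range
    rw [show mT = mS⁻¹ * mU from (inv_mul_cancel_left _ _).symm, map_mul, map_inv]
    exact mul_mem (inv_mem hS) hU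

/-- The element of the free product attached to a matrix. -/
def word (g : SL(2, ℤ)) : Monoid.CoprodI cycFactor := (cuspPerm_mem_range g).choose

theorem freeHom_word (g : SL(2, ℤ)) : freeHom (word g) = cuspPerm g :=
  (cuspPerm_mem_range g).choose_spec

theorem word_mul (g h : SL(2, ℤ)) : word (g * h) = word g * word h :=
  freeHom_injective (by rw [map_mul, freeHom_word, freeHom_word, freeHom_word, map_mul])

theorem word_neg (g : SL(2, ℤ)) : word (-g) = word g :=
  freeHom_injective (by rw [freeHom_word, freeHom_word, cuspPerm_neg])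

theorem word_one : word 1 = 1 :=
  freeHom_injective (by rw [freeHom_word, map_one, map_one])

theorem word_inv (g : SL(2, ℤ)) : word g⁻¹ = (word g)⁻¹ :=
  freeHom_injective (by rw [freeHom_word, map_inv, map_inv, freeHom_word])

theorem word_mS : word mS = Monoid.CoprodI.of (i := false) (Multiplicative.ofAdd (1 : ZMod 2)) :=
  freeHom_injective (by
    rw [freeHom_word, freeHom, Monoid.CoprodI.lift_of]
    exact (cycHom_gen (cuspPerm mS) cuspPerm_mS_pow).symm)

theorem word_mU : word mU = Monoid.CoprodI.of (i := true) (Multiplicative.ofAdd (1 : ZMod 3)) :=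
  freeHom_injective (by
    rw [freeHom_word, freeHom, Monoid.CoprodI.lift_of]
    exact (cycHom_gen (cuspPerm mU) cuspPerm_mU_pow).symm)

theorem word_surjective : Function.Surjective word := by
  intro c
  suffices h : freeHom c ∈ cuspPerm.range by
    obtain ⟨g, hg⟩ := h
    exact ⟨g, freeHom_injective (by rw [freeHom_word, hg])⟩
  induction c using Monoid.CoprodI.induction_on with
  | one => rw [map_one]; exact one_mem _
  | of b m =>
    rw [freeHom, Monoid.CoprodI.lift_of]
    obtain ⟨i, hi⟩ := ZMod.intCast_surjective m.toAdd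
    obtain rfl : m = Multiplicative.ofAdd (i : ZMod (cycOrd b)) := by rw [hi]; rfl
    cases b <;> simp only [factorHom, cycHom_apply, ← map_zpow] <;> exact ⟨_, rfl⟩
  | mul x y hx hy => rw [map_mul]; exact mul_mem hx hy

/-- A matrix above an element of the free product. -/
def unword (c : Monoid.CoprodI cycFactor) : SL(2, ℤ) := (word_surjective c).choose

theorem word_unword (c : Monoid.CoprodI cycFactor) : word (unword c) = c :=
  (word_surjective c).choose_spec

theorem unword_eq {c : Monoid.CoprodI cycFactor} {g : SL(2, ℤ)} (h : word g = c) :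
    unword c = g ∨ unword c = -g := by
  refine cuspPerm_eq_iff.mp ?_
  rw [← freeHom_word, word_unword, ← h, freeHom_word]

/-- Functions on `SL(2, ℤ)` with prescribed steps. -/
theorem exists_stepSum {R : Type*} [AddCommGroup R] (a b : SL(2, ℤ) → R)
    (ha0 : ∀ g, a (-g) = a g) (hb0 : ∀ g, b (-g) = b g) (ha : ∀ g, a g + a (g * mS) = 0)
    (hb : ∀ g, b g + b (g * mU⁻¹) + b (g * mU⁻¹ * mU⁻¹) = 0) :
    ∃ G : SL(2, ℤ) → R, G 1 = 0 ∧ (∀ g, G (-g) = G g) ∧ (∀ g, G (g * mS) = G g + a g) ∧
      ∀ g, G (g * mU⁻¹) = G g + b g := by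
  set Y := Monoid.CoprodI cycFactor × R
  have hev : ∀ {f : SL(2, ℤ) → R}, (∀ g, f (-g) = f g) → ∀ {c g}, word g = c → f (unword c) = f g :=
    fun {f} hf {c g} h => by rcases unword_eq h with e | e <;> simp [e, hf]
  have hw : ∀ c h, word (unword c * h) = c * word h := fun c h => by rw [word_mul, word_unword]
  -- the step along `S`
  let sS : Y → Y := fun y => (y.1 * word mS, y.2 + a (unword y.1))
  have hsS : ∀ y, sS (sS y) = y := fun y => by
    refine Prod.ext ?_ ?_
    · show y.1 * word mS * word mS = y.1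
      rw [mul_assoc, ← word_mul, mS_mul_mS, word_neg, word_one, mul_one]
    · show y.2 + a (unword y.1) + a (unword (y.1 * word mS)) = y.2
      rw [hev ha0 (hw y.1 mS), add_assoc, ha, add_zero]
  -- the step along `(ST)⁻¹`
  let sU : Y → Y := fun y => (y.1 * word mU⁻¹, y.2 + b (unword y.1))
  have hsU : ∀ y, sU (sU (sU y)) = y := fun y => by
    refine Prod.ext ?_ ?_
    · show y.1 * word mU⁻¹ * word mU⁻¹ * word mU⁻¹ = y.1
      rw [mul_assoc, mul_assoc, ← word_mul, ← word_mul, ← mul_assoc, inv_mul_inv_mul_inv_mU,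
        word_neg, word_one, mul_one]
    · show y.2 + b (unword y.1) + b (unword (y.1 * word mU⁻¹)) +
        b (unword (y.1 * word mU⁻¹ * word mU⁻¹)) = y.2
      have h2 : word (unword y.1 * mU⁻¹ * mU⁻¹) = y.1 * word mU⁻¹ * word mU⁻¹ := by
        rw [word_mul, hw]
      rw [hev hb0 (hw y.1 mU⁻¹), hev hb0 h2, add_assoc, add_assoc, ← add_assoc (b (unword y.1)),
        hb, add_zero]
  let eS : Equiv.Perm Y := ⟨sS, sS, hsS, hsS⟩
  let eU : Equiv.Perm Y := ⟨sU, sU ∘ sU, hsU, hsU⟩
  have heS : eS ^ 2 = 1 := Equiv.ext hsS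
  have heU : eU ^ 3 = 1 := Equiv.ext hsU
  let fac : ∀ i : Bool, cycFactor i →* Equiv.Perm Y := fun i => match i with
    | false => cycHom eS heS
    | true => cycHom eU heU
  set ρ := Monoid.CoprodI.lift fac
  have hρS : ρ (word mS) = eS := by
    rw [word_mS, Monoid.CoprodI.lift_of]; exact cycHom_gen _ _
  have hρU : ρ (word mU) = eU := by
    rw [word_mU, Monoid.CoprodI.lift_of]; exact cycHom_gen _ _
  have hfst : ∀ h y, (ρ h y).1 = y.1 * h⁻¹ := by
    let H : Subgroup (Monoid.CoprodI cycFactor) :=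
      { carrier := {h | ∀ y, (ρ h y).1 = y.1 * h⁻¹}
        one_mem' := fun y => by simp
        mul_mem' := fun {p q} hp hq y => by
          rw [map_mul, Equiv.Perm.mul_apply, hp, hq, _root_.mul_inv_rev, mul_assoc]
        inv_mem' := fun {p} hp y => by
          have := hp (ρ p⁻¹ y)
          rw [← Equiv.Perm.mul_apply, ← map_mul, mul_inv_cancel, map_one,
            Equiv.Perm.one_apply] at this
          rw [inv_inv, this, inv_mul_cancel_right] }
    have hS : word mS ∈ H := fun y => by
      rw [hρS, ← word_inv, mS_inv, word_neg]; rfl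
    have hU : word mU ∈ H := fun y => by
      rw [hρU, ← word_inv]; rfl
    intro h
    obtain ⟨g, rfl⟩ := word_surjective h
    let K : Subgroup SL(2, ℤ) :=
      { carrier := {g | word g ∈ H}
        one_mem' := by show word 1 ∈ H; rw [word_one]; exact one_mem H
        mul_mem' := fun {p q} (hp : word p ∈ H) (hq : word q ∈ H) => by
          show word (p * q) ∈ H; rw [word_mul]; exact mul_mem hp hq
        inv_mem' := fun {p} (hp : word p ∈ H) => by
          show word p⁻¹ ∈ H; rw [word_inv]; exact inv_mem hp }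
    have hK : (⊤ : Subgroup SL(2, ℤ)) ≤ K := by
      rw [← SpecialLinearGroup.SL2Z_generators, Subgroup.closure_le]
      rintro _ (rfl | rfl)
      · exact hS
      · show mT ∈ K
        rw [show mT = mS⁻¹ * mU from (inv_mul_cancel_left _ _).symm]
        exact mul_mem (inv_mem (show mS ∈ K from hS)) hU
    exact hK (Subgroup.mem_top g)
  let G : SL(2, ℤ) → R := fun g => (ρ (word g)⁻¹ ((1 : Monoid.CoprodI cycFactor), (0 : R))).2
  have hbase : ∀ g, ρ (word g)⁻¹ ((1 : Monoid.CoprodI cycFactor), (0 : R)) = (word g, G g) :=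
    fun g => Prod.ext (by rw [hfst, inv_inv, one_mul]) rfl
  refine ⟨G, ?_, fun g => ?_, fun g => ?_, fun g => ?_⟩
  · show (ρ (word 1)⁻¹ _).2 = 0
    rw [word_one, inv_one, map_one]; rfl
  · show (ρ (word (-g))⁻¹ _).2 = _
    rw [word_neg]
  · show (ρ (word (g * mS))⁻¹ _).2 = _
    rw [word_mul, _root_.mul_inv_rev, ← word_inv mS, mS_inv, word_neg, map_mul,
      Equiv.Perm.mul_apply,
      hρS, hbase]
    show G g + a (unword (word g)) = _
    rw [hev ha0 rfl]
  · show (ρ (word (g * mU⁻¹))⁻¹ _).2 = _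
    rw [word_mul, _root_.mul_inv_rev, ← word_inv mU⁻¹, inv_inv, map_mul, Equiv.Perm.mul_apply,
      hρU, hbase]
    show G g + b (unword (word g)) = _
    rw [hev hb0 rfl]

end FLTAgent.ModularityLifting
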